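/-
S56 / GEC: the action of a group of field automorphisms on the finite places of a number field.

`T` a number field, `Δ` a group with `[MulSemiringAction Δ T]`.
* `MulAction Δ (HeightOneSpectrum (𝓞 T))` : `(δ • v).asIdeal = δ • v.asIdeal`;
* `gec_valuation_smul` : `(δ • v).valuation T (δ • x) = v.valuation T x`.
-/
import Mathlib

set_option autoImplicit false

noncomputable section

namespace Fermat.Agent.S56

open NumberField IsDedekindDomain

open scoped Pointwise

variable {T : Type*} [Field T] [NumberField T] {Δ : Type*} [Group Δ] [MulSemiringAction Δ T]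

/-- the translate of a finite place -/
def gecPlaceSmul (δ : Δ) (v : HeightOneSpectrum (𝓞 T)) : HeightOneSpectrum (𝓞 T) where
  asIdeal := δ • v.asIdeal
  isPrime := Ideal.IsPrime.smul δ
  ne_bot := by
    intro h
    apply v.ne_bot
    have h1 : δ⁻¹ • (δ • v.asIdeal) = δ⁻¹ • (⊥ : Ideal (𝓞 T)) := by rw [h]
    rw [inv_smul_smul] at h1
    rw [h1]
    exact Ideal.smul_bot _

/-- the action on finite places (a `def`, use `attribute [local instance]`) -/
@[reducible] def gecPlaceMulAction : MulAction Δ (HeightOneSpectrum (𝓞 T)) where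
  smul := gecPlaceSmul
  one_smul v := by
    apply HeightOneSpectrum.ext
    show (1 : Δ) • v.asIdeal = v.asIdeal
    exact one_smul _ _
  mul_smul δ δ' v := by
    apply HeightOneSpectrum.ext
    show (δ * δ') • v.asIdeal = δ • (δ' • v.asIdeal)
    exact mul_smul _ _ _

attribute [local instance] gecPlaceMulAction

omit [NumberField T] in
@[simp] theorem gec_smul_asIdeal (δ : Δ) (v : HeightOneSpectrum (𝓞 T)) :
    (δ • v).asIdeal = δ • v.asIdeal := rfl

theorem gec_smul_pow_asIdeal (δ : Δ) (v : HeightOneSpectrum (𝓞 T)) (n : ℕ) :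
    (δ • v).asIdeal ^ n = δ • (v.asIdeal ^ n) := by
  rw [gec_smul_asIdeal, Ideal.pointwise_smul_def, Ideal.pointwise_smul_def, Ideal.map_pow]

theorem gec_intValuation_smul (δ : Δ) (v : HeightOneSpectrum (𝓞 T)) (r : 𝓞 T) :
    (δ • v).intValuation (δ • r) = v.intValuation r := by
  by_cases hr : r = 0
  · subst hr
    rw [smul_zero, map_zero, map_zero]
  have hr' : δ • r ≠ 0 := by
    intro h
    apply hr
    have h1 : δ⁻¹ • (δ • r) = δ⁻¹ • (0 : 𝓞 T) := by rw [h]
    rwa [inv_smul_smul, smul_zero] at h1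
  have key : ∀ n : ℕ, (δ • v).intValuation (δ • r) ≤ WithZero.exp (-(n : ℤ)) ↔
      v.intValuation r ≤ WithZero.exp (-(n : ℤ)) := by
    intro n
    rw [HeightOneSpectrum.intValuation_le_pow_iff_mem, HeightOneSpectrum.intValuation_le_pow_iff_mem,
      gec_smul_pow_asIdeal, Ideal.smul_mem_pointwise_smul_iff]
  obtain ⟨a, ha⟩ : ∃ a : ℕ, v.intValuation r = WithZero.exp (-(a : ℤ)) := by
    rw [v.intValuation_if_neg hr]
    exact ⟨_, rfl⟩
  obtain ⟨b, hb⟩ : ∃ b : ℕ, (δ • v).intValuation (δ • r) = WithZero.exp (-(b : ℤ)) := by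
    rw [(δ • v).intValuation_if_neg hr']
    exact ⟨_, rfl⟩
  rw [ha, hb]
  have h1 := (key a).2 (le_of_eq ha)
  have h2 := (key b).1 (le_of_eq hb)
  rw [hb, WithZero.exp_le_exp] at h1
  rw [ha, WithZero.exp_le_exp] at h2
  have : (a : ℤ) = b := by omega
  rw [this]

theorem gec_valuation_smul (δ : Δ) (v : HeightOneSpectrum (𝓞 T)) (x : T) :
    (δ • v).valuation T (δ • x) = v.valuation T x := by
  obtain ⟨a, b, hb, rfl⟩ := IsFractionRing.div_surjective (A := 𝓞 T) x
  have hb0 : (b : 𝓞 T) ≠ 0 := nonZeroDivisors.ne_zero hb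
  have h1 : δ • (algebraMap (𝓞 T) T a / algebraMap (𝓞 T) T b) =
      algebraMap (𝓞 T) T (δ • a) / algebraMap (𝓞 T) T (δ • b) := by
    rw [smul_div₀']
    rfl
  rw [h1, map_div₀, map_div₀, HeightOneSpectrum.valuation_of_algebraMap,
    HeightOneSpectrum.valuation_of_algebraMap, HeightOneSpectrum.valuation_of_algebraMap,
    HeightOneSpectrum.valuation_of_algebraMap, gec_intValuation_smul, gec_intValuation_smul]

/-! ### infinite places -/

/-- the translate of an infinite place: `(δ • w) x = w (δ⁻¹ • x)` -/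
def gecInfPlaceSmul (δ : Δ) (w : InfinitePlace T) : InfinitePlace T :=
  w.comap (MulSemiringAction.toRingHom Δ T δ⁻¹)

omit [NumberField T] in
theorem gecInfPlaceSmul_apply (δ : Δ) (w : InfinitePlace T) (x : T) :
    gecInfPlaceSmul δ w x = w (δ⁻¹ • x) := rfl

/-- the action on infinite places (a `def`, use `attribute [local instance]`) -/
@[reducible] def gecInfPlaceMulAction : MulAction Δ (InfinitePlace T) where
  smul := gecInfPlaceSmul
  one_smul w := by
    apply InfinitePlace.ext
    intro x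
    show gecInfPlaceSmul (1 : Δ) w x = w x
    rw [gecInfPlaceSmul_apply, inv_one, one_smul]
  mul_smul δ δ' w := by
    apply InfinitePlace.ext
    intro x
    show gecInfPlaceSmul (δ * δ') w x = gecInfPlaceSmul δ (gecInfPlaceSmul δ' w) x
    rw [gecInfPlaceSmul_apply, gecInfPlaceSmul_apply, gecInfPlaceSmul_apply, mul_inv_rev, mul_smul]

attribute [local instance] gecInfPlaceMulAction

omit [NumberField T] in
theorem gec_infPlace_smul_apply (δ : Δ) (w : InfinitePlace T) (x : T) :
    (δ • w) x = w (δ⁻¹ • x) := rfl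

omit [NumberField T] in
theorem gec_infPlace_smul_smul (δ : Δ) (w : InfinitePlace T) (x : T) :
    (δ • w) (δ • x) = w x := by
  rw [gec_infPlace_smul_apply, inv_smul_smul]

end Fermat.Agent.S56

end
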