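/-
S56 / GEC: the arithmetic `Δ`-modules (sorry-free definitions).

`T` a number field, `Δ` a group acting on `T` by field automorphisms, `Sset` a `Δ`-stable set of
finite places, `p` a prime.  All `Δ`-actions are DATA (`EuAct`, package EU).

* `gecActRestr`, `gecActQuot` : restriction of an `EuAct` to a stable subgroup / quotient action;
* `gecActUnits`   : the action on `Additive Tˣ`;
* `gecVAdd`, `gecPowAdd` : `V_S = gkV T Sset p` and the `p`-th powers as additive subgroups;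
* `GecX`, `gecActX` : `X = V_S / Tˣᵖ` with its action;
* `gecActDiv`     : the action on `S14.Div T` (permutation of the places);
* `GecC`, `gecActC` : `Cl_S(T)/p = Div T ⧸ gkClSub T Sset p` with its action.
-/
import Fermat.Agent.S56.EU.Defs
import Fermat.Agent.S56.Gec.PlaceAct
import Fermat.Agent.S55.GK.Defs
import Fermat.Agent.S55.GK.Sha2Trivial

set_option autoImplicit false

noncomputable section

namespace Fermat.Agent.S56

open Fermat.Agent.S55 NumberField IsDedekindDomain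

attribute [local instance] gecPlaceMulAction

/-! ### constructions on `EuAct` -/

section EuConstr

variable {Δ : Type*} [Monoid Δ] {A : Type*} [AddCommGroup A]

/-- restriction of an action to a stable subgroup -/
def gecActRestr (ρ : EuAct Δ A) (V : AddSubgroup A) (hV : ∀ δ, ∀ a ∈ V, ρ δ a ∈ V) :
    EuAct Δ ↥V where
  toFun δ := ((ρ δ).comp V.subtype).codRestrict V (fun a => hV δ a a.2)
  map_one' := by
    refine AddMonoidHom.ext fun a => Subtype.ext ?_
    show ρ 1 (a : A) = (a : A)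
    rw [map_one]
    rfl
  map_mul' δ δ' := by
    refine AddMonoidHom.ext fun a => Subtype.ext ?_
    show ρ (δ * δ') (a : A) = ρ δ (ρ δ' (a : A))
    rw [map_mul]
    rfl

@[simp] theorem gecActRestr_apply (ρ : EuAct Δ A) (V : AddSubgroup A)
    (hV : ∀ δ, ∀ a ∈ V, ρ δ a ∈ V) (δ : Δ) (a : ↥V) :
    ((gecActRestr ρ V hV δ a : ↥V) : A) = ρ δ a := rfl

/-- the action induced on a quotient by a stable subgroup -/
def gecActQuot (ρ : EuAct Δ A) (K : AddSubgroup A) (hK : ∀ δ, ∀ a ∈ K, ρ δ a ∈ K) :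
    EuAct Δ (A ⧸ K) where
  toFun δ := QuotientAddGroup.map K K (ρ δ) (fun a ha => hK δ a ha)
  map_one' := by
    refine AddMonoidHom.ext fun a => ?_
    induction a using QuotientAddGroup.induction_on with
    | H a =>
      show (QuotientAddGroup.mk (ρ 1 a) : A ⧸ K) = QuotientAddGroup.mk a
      rw [map_one]
      rfl
  map_mul' δ δ' := by
    refine AddMonoidHom.ext fun a => ?_
    induction a using QuotientAddGroup.induction_on with
    | H a =>
      show (QuotientAddGroup.mk (ρ (δ * δ') a) : A ⧸ K) = QuotientAddGroup.mk (ρ δ (ρ δ' a))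
      rw [map_mul]
      rfl

@[simp] theorem gecActQuot_mk (ρ : EuAct Δ A) (K : AddSubgroup A)
    (hK : ∀ δ, ∀ a ∈ K, ρ δ a ∈ K) (δ : Δ) (a : A) :
    gecActQuot ρ K hK δ (QuotientAddGroup.mk a) = QuotientAddGroup.mk (ρ δ a) := rfl

end EuConstr

/-! ### units -/

section Units

variable (T : Type) [Field T] [NumberField T] (Δ : Type) [Group Δ] [MulSemiringAction Δ T]

/-- the action of `δ` on `Tˣ` -/
def gecUnitsMap (δ : Δ) : Tˣ →* Tˣ := Units.map (MulSemiringAction.toRingHom Δ T δ : T →* T)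

omit [NumberField T] in
@[simp] theorem gecUnitsMap_coe (δ : Δ) (u : Tˣ) : ((gecUnitsMap T Δ δ u : Tˣ) : T) = δ • (u : T) :=
  rfl

/-- the action on `Additive Tˣ` -/
def gecActUnits : EuAct Δ (Additive Tˣ) where
  toFun δ := (gecUnitsMap T Δ δ).toAdditive
  map_one' := by
    refine AddMonoidHom.ext fun a => ?_
    apply Additive.toMul.injective
    apply Units.ext
    show (1 : Δ) • ((Additive.toMul a : Tˣ) : T) = _
    rw [one_smul]
    rfl
  map_mul' δ δ' := by
    refine AddMonoidHom.ext fun a => ?_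
    apply Additive.toMul.injective
    apply Units.ext
    show (δ * δ') • ((Additive.toMul a : Tˣ) : T) = δ • (δ' • ((Additive.toMul a : Tˣ) : T))
    rw [mul_smul]

@[simp] theorem gecActUnits_apply (δ : Δ) (a : Additive Tˣ) :
    gecActUnits T Δ δ a = Additive.ofMul (gecUnitsMap T Δ δ (Additive.toMul a)) := rfl

variable (Sset : Set (HeightOneSpectrum (𝓞 T))) (p : ℕ)

/-- `V_S` as an additive subgroup of `Additive Tˣ` -/
def gecVAdd : AddSubgroup (Additive Tˣ) := Subgroup.toAddSubgroup (gkV T Sset p)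

/-- the `p`-th powers as an additive subgroup of `Additive Tˣ` -/
def gecPowAdd : AddSubgroup (Additive Tˣ) :=
  Subgroup.toAddSubgroup (powMonoidHom p : Tˣ →* Tˣ).range

theorem gecPowAdd_stable (δ : Δ) (a : Additive Tˣ) (ha : a ∈ gecPowAdd T p) :
    gecActUnits T Δ δ a ∈ gecPowAdd T p := by
  obtain ⟨b, hb⟩ := ha
  refine ⟨gecUnitsMap T Δ δ b, ?_⟩
  rw [powMonoidHom_apply] at hb ⊢
  rw [← map_pow, hb]
  rfl

theorem gecVAdd_stable (hS : ∀ (δ : Δ) (v : HeightOneSpectrum (𝓞 T)), v ∈ Sset → δ • v ∈ Sset)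
    (δ : Δ) (a : Additive Tˣ) (ha : a ∈ gecVAdd T Sset p) :
    gecActUnits T Δ δ a ∈ gecVAdd T Sset p := by
  intro v hv
  have hv' : δ⁻¹ • v ∉ Sset := by
    intro h
    apply hv
    have := hS δ _ h
    rwa [smul_inv_smul] at this
  have h1 := ha (δ⁻¹ • v) hv'
  have h2 : v.valuation T (δ • ((Additive.toMul a : Tˣ) : T)) =
      (δ⁻¹ • v).valuation T ((Additive.toMul a : Tˣ) : T) := by
    conv_lhs => rw [← smul_inv_smul δ v]
    exact gec_valuation_smul δ (δ⁻¹ • v) _
  show (p : ℤ) ∣ WithZero.log (v.valuation T (δ • ((Additive.toMul a : Tˣ) : T)))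
  rw [h2]
  exact h1

/-- `X = V_S / Tˣᵖ` -/
abbrev GecX : Type := ↥(gecVAdd T Sset p) ⧸ (gecPowAdd T p).addSubgroupOf (gecVAdd T Sset p)

/-- the action of `Δ` on `X` -/
def gecActX (hS : ∀ (δ : Δ) (v : HeightOneSpectrum (𝓞 T)), v ∈ Sset → δ • v ∈ Sset) :
    EuAct Δ (GecX T Sset p) :=
  gecActQuot (gecActRestr (gecActUnits T Δ) (gecVAdd T Sset p) (gecVAdd_stable T Δ Sset p hS))
    ((gecPowAdd T p).addSubgroupOf (gecVAdd T Sset p))
    (fun δ a ha => gecPowAdd_stable T Δ p δ a ha)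

/-- `A / Tˣᵖ` for a subgroup `A ≤ Tˣ`, in additive notation (`GecX T Sset p = GecQ T p (gkV T Sset p)`
definitionally) -/
abbrev GecQ (A : Subgroup Tˣ) : Type :=
  ↥(Subgroup.toAddSubgroup A) ⧸ (gecPowAdd T p).addSubgroupOf (Subgroup.toAddSubgroup A)

/-- the action of `Δ` on `A / Tˣᵖ` for a `Δ`-stable subgroup `A ≤ Tˣ` -/
def gecActQ (A : Subgroup Tˣ) (hA : ∀ (δ : Δ), ∀ a ∈ A, gecUnitsMap T Δ δ a ∈ A) :
    EuAct Δ (GecQ T p A) :=
  gecActQuot (gecActRestr (gecActUnits T Δ) (Subgroup.toAddSubgroup A)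
      (fun δ a ha => hA δ (Additive.toMul a) ha))
    ((gecPowAdd T p).addSubgroupOf (Subgroup.toAddSubgroup A))
    (fun δ a ha => gecPowAdd_stable T Δ p δ a ha)

theorem gkV_stable (hS : ∀ (δ : Δ) (v : HeightOneSpectrum (𝓞 T)), v ∈ Sset → δ • v ∈ Sset)
    (δ : Δ) (a : Tˣ) (ha : a ∈ gkV T Sset p) : gecUnitsMap T Δ δ a ∈ gkV T Sset p :=
  gecVAdd_stable T Δ Sset p hS δ (Additive.ofMul a) ha

theorem gecActX_eq (hS : ∀ (δ : Δ) (v : HeightOneSpectrum (𝓞 T)), v ∈ Sset → δ • v ∈ Sset) :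
    gecActX T Δ Sset p hS = gecActQ T Δ p (gkV T Sset p) (gkV_stable T Δ Sset p hS) := rfl

/-- the `S`-units are `Δ`-stable -/
theorem gec_unit_stable (hS : ∀ (δ : Δ) (v : HeightOneSpectrum (𝓞 T)), v ∈ Sset → δ • v ∈ Sset)
    (δ : Δ) (u : Tˣ) (hu : u ∈ Sset.unit T) : gecUnitsMap T Δ δ u ∈ Sset.unit T := by
  intro v hv
  have hv' : δ⁻¹ • v ∉ Sset := by
    intro h
    apply hv
    have := hS δ _ h
    rwa [smul_inv_smul] at this
  have h1 : (δ⁻¹ • v).valuation T (u : T) = 1 := hu (δ⁻¹ • v) hv'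
  have h2 : v.valuation T (δ • (u : T)) = (δ⁻¹ • v).valuation T (u : T) := by
    conv_lhs => rw [← smul_inv_smul δ v]
    exact gec_valuation_smul δ (δ⁻¹ • v) _
  show v.valuation T (δ • (u : T)) = 1
  rw [h2, h1]

/-- the action of `Δ` on the `S`-units (a `def`, use `letI`) -/
@[reducible] def gecSUnitAction
    (hS : ∀ (δ : Δ) (v : HeightOneSpectrum (𝓞 T)), v ∈ Sset → δ • v ∈ Sset) :
    MulDistribMulAction Δ ↥(Sset.unit T) where
  smul δ u := ⟨gecUnitsMap T Δ δ u, gec_unit_stable T Δ Sset hS δ u u.2⟩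
  one_smul u := by
    apply Subtype.ext
    apply Units.ext
    show (1 : Δ) • (((u : Tˣ) : T)) = _
    rw [one_smul]
  mul_smul δ δ' u := by
    apply Subtype.ext
    apply Units.ext
    show (δ * δ') • (((u : Tˣ) : T)) = δ • (δ' • (((u : Tˣ) : T)))
    rw [mul_smul]
  smul_mul δ u u' := by
    apply Subtype.ext
    exact map_mul (gecUnitsMap T Δ δ) _ _
  smul_one δ := by
    apply Subtype.ext
    exact map_one (gecUnitsMap T Δ δ)

theorem gecSUnitAction_coe
    (hS : ∀ (δ : Δ) (v : HeightOneSpectrum (𝓞 T)), v ∈ Sset → δ • v ∈ Sset) (δ : Δ)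
    (u : ↥(Sset.unit T)) :
    letI := gecSUnitAction T Δ Sset hS
    (((δ • u : ↥(Sset.unit T)) : Tˣ) : T) = δ • (((u : Tˣ) : T)) := rfl

end Units

/-! ### divisors and `Cl_S / p` -/

section Divisors

variable (T : Type) [Field T] [NumberField T] (Δ : Type) [Group Δ] [MulSemiringAction Δ T]

/-- the action on divisors: permutation of the places -/
def gecActDiv : EuAct Δ (S14.Div T) where
  toFun δ := Finsupp.mapDomain.addMonoidHom (fun v : HeightOneSpectrum (𝓞 T) => δ • v)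
  map_one' := by
    refine AddMonoidHom.ext fun D => ?_
    show Finsupp.mapDomain (fun v : HeightOneSpectrum (𝓞 T) => (1 : Δ) • v) D = D
    simp only [one_smul]
    exact Finsupp.mapDomain_id
  map_mul' δ δ' := by
    refine AddMonoidHom.ext fun D => ?_
    show Finsupp.mapDomain (fun v : HeightOneSpectrum (𝓞 T) => (δ * δ') • v) D =
      Finsupp.mapDomain (fun v : HeightOneSpectrum (𝓞 T) => δ • v)
        (Finsupp.mapDomain (fun v : HeightOneSpectrum (𝓞 T) => δ' • v) D)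
    rw [← Finsupp.mapDomain_comp]
    congr 1
    funext v
    exact mul_smul δ δ' v

theorem gecActDiv_apply (δ : Δ) (D : S14.Div T) (v : HeightOneSpectrum (𝓞 T)) :
    gecActDiv T Δ δ D (δ • v) = D v := by
  show Finsupp.mapDomain (fun v : HeightOneSpectrum (𝓞 T) => δ • v) D (δ • v) = D v
  exact Finsupp.mapDomain_apply (MulAction.injective δ) D v

theorem gecActDiv_apply' (δ : Δ) (D : S14.Div T) (v : HeightOneSpectrum (𝓞 T)) :
    gecActDiv T Δ δ D v = D (δ⁻¹ • v) := by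
  conv_lhs => rw [← smul_inv_smul δ v]
  exact gecActDiv_apply T Δ δ D _

theorem gecActDiv_single (δ : Δ) (v : HeightOneSpectrum (𝓞 T)) (n : ℤ) :
    gecActDiv T Δ δ (Finsupp.single v n) = Finsupp.single (δ • v) n := by
  show Finsupp.mapDomain (fun v : HeightOneSpectrum (𝓞 T) => δ • v) (Finsupp.single v n) = _
  exact Finsupp.mapDomain_single

/-- `div (δ x) = δ (div x)` -/
theorem gecActDiv_divOf (δ : Δ) {x : T} (hx : x ≠ 0) :
    gecActDiv T Δ δ (S14.divOf T x) = S14.divOf T (δ • x) := by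
  have hx' : δ • x ≠ 0 := by
    intro h
    apply hx
    have h1 : δ⁻¹ • (δ • x) = δ⁻¹ • (0 : T) := by rw [h]
    rwa [inv_smul_smul, smul_zero] at h1
  ext v
  rw [gecActDiv_apply', gkt_divOf_eq_neg_log x hx, gkt_divOf_eq_neg_log (δ • x) hx']
  conv_rhs => rw [← smul_inv_smul δ v]
  rw [gec_valuation_smul]

variable (Sset : Set (HeightOneSpectrum (𝓞 T))) (p : ℕ)

theorem gecClSub_stable
    (hS : ∀ (δ : Δ) (v : HeightOneSpectrum (𝓞 T)), v ∈ Sset → δ • v ∈ Sset)
    (δ : Δ) (D : S14.Div T) (hD : D ∈ gkClSub T Sset p) :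
    gecActDiv T Δ δ D ∈ gkClSub T Sset p := by
  unfold gkClSub at hD ⊢
  rw [AddSubgroup.mem_sup] at hD
  obtain ⟨D₁, hD₁, D₂, hD₂, rfl⟩ := hD
  rw [AddSubgroup.mem_sup] at hD₁
  obtain ⟨D₃, hD₃, D₄, hD₄, rfl⟩ := hD₁
  rw [map_add, map_add]
  refine AddSubgroup.add_mem _ (AddSubgroup.add_mem _ ?_ ?_) ?_
  · apply AddSubgroup.mem_sup_left
    apply AddSubgroup.mem_sup_left
    obtain ⟨a, rfl⟩ := hD₃
    refine ⟨Additive.ofMul (gecUnitsMap T Δ δ (Additive.toMul a)), ?_⟩
    rw [gkDivHom_apply, gecUnitsMap_coe]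
    have h1 : gkDivHom T a = S14.divOf T ((Additive.toMul a : Tˣ) : T) := rfl
    rw [h1, gecActDiv_divOf T Δ δ (Additive.toMul a).ne_zero]
  · apply AddSubgroup.mem_sup_left
    apply AddSubgroup.mem_sup_right
    intro v hv
    rw [gecActDiv_apply']
    apply hD₄
    intro h
    apply hv
    have := hS δ _ h
    rwa [smul_inv_smul] at this
  · apply AddSubgroup.mem_sup_right
    obtain ⟨D₅, rfl⟩ := hD₂
    refine ⟨gecActDiv T Δ δ D₅, ?_⟩
    simp only [zsmulAddGroupHom_apply, map_zsmul]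

/-- `Cl_S(T) / p` -/
abbrev GecC : Type := S14.Div T ⧸ gkClSub T Sset p

/-- the action of `Δ` on `Cl_S(T)/p` -/
def gecActC (hS : ∀ (δ : Δ) (v : HeightOneSpectrum (𝓞 T)), v ∈ Sset → δ • v ∈ Sset) :
    EuAct Δ (GecC T Sset p) :=
  gecActQuot (gecActDiv T Δ) (gkClSub T Sset p) (gecClSub_stable T Δ Sset p hS)

end Divisors

end Fermat.Agent.S56

end
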