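/-
S56 / GEC, leaf G10 (AR): `d_χ(V_S/Tˣᵖ) = d_χ(U_S) + d_χ(Cl_S/p)`.
Equivariant exact sequence `U_S → V_S/Tˣᵖ → Cl_S[p] → 0` (`a ↦ [(1/p) div a]`,
`Cl_S = Div / (principal + supported in S)`), pure at `U_S` (`euDim_of_exact_pure`), then
`d_χ(Cl_S[p]) = d_χ(Cl_S)` (`euDim_torsion_eq`, package EU) and `d_χ(Cl_S) = d_χ(Cl_S/p)`.
Helper prefix `gecar`.
-/
import Fermat.Agent.S56.Gec.ArithDefs
import Fermat.Agent.S56.EU.Main
import Fermat.Agent.S56.EU.Fin
import Fermat.Agent.S55.GK.CardV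

set_option autoImplicit false
set_option linter.style.haveILetI false
set_option linter.unusedSectionVars false
set_option linter.unusedVariables false

noncomputable section

namespace Fermat.Agent.S56

open Fermat.Agent.S55 NumberField IsDedekindDomain Fermat.Agent.S14

attribute [local instance] gecPlaceMulAction

section Defs

variable (T : Type) [Field T] [NumberField T] (Δ : Type) [Group Δ] [MulSemiringAction Δ T]
  (Sset : Set (HeightOneSpectrum (𝓞 T))) (p : ℕ)

/-- principal divisors + divisors supported in `S` -/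
def gecarP : AddSubgroup (S14.Div T) := (gkDivHom T).range ⊔ gkDivOn T Sset

theorem gecar_divOf_mem (a : Tˣ) : divOf T (a : T) ∈ gecarP T Sset :=
  AddSubgroup.mem_sup_left ⟨Additive.ofMul a, rfl⟩

theorem gecar_divOn_le : gkDivOn T Sset ≤ gecarP T Sset := le_sup_right

theorem gecar_mem_gecarP {D : S14.Div T} :
    D ∈ gecarP T Sset ↔ ∃ a : Tˣ, D - divOf T (a : T) ∈ gkDivOn T Sset := by
  rw [gecarP, AddSubgroup.mem_sup]
  constructor
  · rintro ⟨_, ⟨a, rfl⟩, E, hE, rfl⟩
    refine ⟨Additive.toMul a, ?_⟩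
    have : gkDivHom T a + E - divOf T ((Additive.toMul a : Tˣ) : T) = E := by
      show divOf T ((Additive.toMul a : Tˣ) : T) + E - divOf T ((Additive.toMul a : Tˣ) : T) = E
      abel
    rw [this]
    exact hE
  · rintro ⟨a, ha⟩
    exact ⟨divOf T (a : T), ⟨Additive.ofMul a, rfl⟩, _, ha, by abel⟩

theorem gecarP_le_gkClSub : gecarP T Sset ≤ gkClSub T Sset p := le_sup_left

theorem gecarP_stable
    (hS : ∀ (δ : Δ) (v : HeightOneSpectrum (𝓞 T)), v ∈ Sset → δ • v ∈ Sset)
    (δ : Δ) (D : S14.Div T) (hD : D ∈ gecarP T Sset) :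
    gecActDiv T Δ δ D ∈ gecarP T Sset := by
  unfold gecarP at hD ⊢
  rw [AddSubgroup.mem_sup] at hD
  obtain ⟨D₃, hD₃, D₄, hD₄, rfl⟩ := hD
  rw [map_add]
  refine AddSubgroup.add_mem _ ?_ ?_
  · apply AddSubgroup.mem_sup_left
    obtain ⟨a, rfl⟩ := hD₃
    refine ⟨Additive.ofMul (gecUnitsMap T Δ δ (Additive.toMul a)), ?_⟩
    rw [gkDivHom_apply, gecUnitsMap_coe]
    have h1 : gkDivHom T a = S14.divOf T ((Additive.toMul a : Tˣ) : T) := rfl
    rw [h1, gecActDiv_divOf T Δ δ (Additive.toMul a).ne_zero]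
  · apply AddSubgroup.mem_sup_right
    intro v hv
    rw [gecActDiv_apply']
    apply hD₄
    intro h
    apply hv
    have := hS δ _ h
    rwa [smul_inv_smul] at this

/-- `Cl_S(T) = Div / (principal + supported in S)` -/
abbrev GecarCl : Type := S14.Div T ⧸ gecarP T Sset

/-- the action of `Δ` on `Cl_S(T)` -/
def gecarActCl (hS : ∀ (δ : Δ) (v : HeightOneSpectrum (𝓞 T)), v ∈ Sset → δ • v ∈ Sset) :
    EuAct Δ (GecarCl T Sset) :=
  gecActQuot (gecActDiv T Δ) (gecarP T Sset) (gecarP_stable T Δ Sset hS)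

/-- `Cl_S(T)` is finite -/
theorem gecarCl_finite : Finite (GecarCl T Sset) := by
  have h1 : (gecarP T Sset).index ≠ 0 :=
    ne_zero_of_dvd_ne_zero (gkv_divHom_range_index_ne_zero T)
      (AddSubgroup.index_dvd_of_le le_sup_left)
  haveI : (gecarP T Sset).FiniteIndex := ⟨h1⟩
  exact AddSubgroup.finite_quotient_of_finiteIndex

/-- the divisor `(1/p) div(a)` -/
def gecarDivp (a : Tˣ) : S14.Div T :=
  (divOf T (a : T)).mapRange (fun m => m / (p : ℤ)) (by simp)

theorem gecarDivp_apply (a : Tˣ) (v : HeightOneSpectrum (𝓞 T)) :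
    gecarDivp T p a v = divOf T (a : T) v / (p : ℤ) := by
  unfold gecarDivp
  rw [Finsupp.mapRange_apply]

variable {T Sset p}

theorem gecar_mem_gkV_iff {a : Tˣ} :
    a ∈ gkV T Sset p ↔ ∀ v : HeightOneSpectrum (𝓞 T), v ∉ Sset → (p : ℤ) ∣ divOf T (a : T) v := by
  rw [mem_gkV_iff]
  refine forall_congr' fun v => forall_congr' fun hv => ?_
  rw [gkv_log_valuation, dvd_neg]

theorem gecar_mem_unit_iff {a : Tˣ} :
    a ∈ Sset.unit T ↔ ∀ v : HeightOneSpectrum (𝓞 T), v ∉ Sset → divOf T (a : T) v = 0 := by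
  constructor
  · intro hb v hv
    have h1 : v.valuation T (a : T) = 1 := hb v hv
    have h2 := gkv_log_valuation T a v
    rw [h1, WithZero.log_one] at h2
    omega
  · intro hb v hv
    show v.valuation T (a : T) = 1
    rw [approx_valuation_eq (a : T) a.ne_zero v, hb v hv, neg_zero, WithZero.exp_zero]

theorem gecar_unit_le_gkV : Sset.unit T ≤ gkV T Sset p := by
  intro a ha
  rw [gecar_mem_gkV_iff]
  intro v hv
  rw [gecar_mem_unit_iff.1 ha v hv]
  exact dvd_zero _

end Defs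


section Maps

variable (T : Type) [Field T] [NumberField T] (Δ : Type) [Group Δ] [MulSemiringAction Δ T]
  (Sset : Set (HeightOneSpectrum (𝓞 T))) (p : ℕ) [Fact p.Prime]

theorem gecar_p_ne_zero : (p : ℤ) ≠ 0 := by
  exact_mod_cast (Fact.out : p.Prime).ne_zero

/-- `p • divp a - div a` is supported in `S` for `a ∈ V_S` -/
theorem gecar_smul_divp_sub {a : Tˣ} (ha : a ∈ gkV T Sset p) :
    (p : ℤ) • gecarDivp T p a - divOf T (a : T) ∈ gkDivOn T Sset := by
  intro v hv
  rw [Finsupp.sub_apply, Finsupp.smul_apply, gecarDivp_apply, smul_eq_mul,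
    Int.mul_ediv_cancel' (gecar_mem_gkV_iff.1 ha v hv), sub_self]

/-- `a ↦ [(1/p) div a]`, on `V_S` -/
def gecarPi0 : ↥(gecVAdd T Sset p) →+ GecarCl T Sset where
  toFun a := QuotientAddGroup.mk (gecarDivp T p (Additive.toMul (a : Additive Tˣ)))
  map_zero' := by
    rw [QuotientAddGroup.eq_zero_iff]
    apply gecar_divOn_le
    intro v hv
    rw [gecarDivp_apply]
    have : ((Additive.toMul ((0 : ↥(gecVAdd T Sset p)) : Additive Tˣ) : Tˣ) : T) = 1 := rfl
    rw [this, fi_divOf_one, Finsupp.zero_apply, Int.zero_ediv]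
  map_add' a b := by
    rw [← QuotientAddGroup.mk_add, QuotientAddGroup.eq]
    apply gecar_divOn_le
    intro v hv
    have ha : (p : ℤ) ∣ divOf T ((Additive.toMul (a : Additive Tˣ) : Tˣ) : T) v :=
      gecar_mem_gkV_iff.1 a.2 v hv
    have hab : ((Additive.toMul ((a + b : ↥(gecVAdd T Sset p)) : Additive Tˣ) : Tˣ) : T) =
        ((Additive.toMul (a : Additive Tˣ) : Tˣ) : T) *
          ((Additive.toMul (b : Additive Tˣ) : Tˣ) : T) := rfl
    rw [Finsupp.add_apply, Finsupp.neg_apply, Finsupp.add_apply, gecarDivp_apply, gecarDivp_apply,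
      gecarDivp_apply, hab, fi_divOf_mul T (Units.ne_zero _) (Units.ne_zero _), Finsupp.add_apply,
      Int.add_ediv_of_dvd_left ha]
    ring

theorem gecarPi0_apply (a : ↥(gecVAdd T Sset p)) :
    gecarPi0 T Sset p a =
      QuotientAddGroup.mk (gecarDivp T p (Additive.toMul (a : Additive Tˣ))) := rfl

theorem gecarPi0_pow (a : ↥(gecVAdd T Sset p))
    (ha : a ∈ (gecPowAdd T p).addSubgroupOf (gecVAdd T Sset p)) : gecarPi0 T Sset p a = 0 := by
  obtain ⟨c, hc⟩ := ha
  rw [gecarPi0_apply, QuotientAddGroup.eq_zero_iff]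
  have h1 : Additive.toMul (a : Additive Tˣ) = c ^ p := hc.symm
  have h2 : gecarDivp T p (c ^ p) = divOf T (c : T) := by
    ext v
    rw [gecarDivp_apply, Units.val_pow_eq_pow_val, fi_divOf_pow T c.ne_zero, Finsupp.smul_apply,
      nsmul_eq_mul, Int.mul_ediv_cancel_left _ (gecar_p_ne_zero p)]
  rw [h1, h2]
  exact gecar_divOf_mem T Sset c

/-- `π : X = V_S/Tˣᵖ → Cl_S`, `a ↦ [(1/p) div a]` -/
def gecarPi : GecX T Sset p →+ GecarCl T Sset :=
  QuotientAddGroup.lift _ (gecarPi0 T Sset p) (fun a ha => gecarPi0_pow T Sset p a ha)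

theorem gecarPi_mk (a : ↥(gecVAdd T Sset p)) :
    gecarPi T Sset p (QuotientAddGroup.mk a) = gecarPi0 T Sset p a := rfl

/-- `ι : U_S → X` -/
def gecarIota : Additive ↥(Sset.unit T) →+ GecX T Sset p where
  toFun u := QuotientAddGroup.mk
    (⟨Additive.ofMul ((Additive.toMul u : ↥(Sset.unit T)) : Tˣ),
      gecar_unit_le_gkV (Additive.toMul u).2⟩ : ↥(gecVAdd T Sset p))
  map_zero' := rfl
  map_add' _ _ := rfl

theorem gecarIota_apply (u : Additive ↥(Sset.unit T)) :
    gecarIota T Sset p u = QuotientAddGroup.mk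
      (⟨Additive.ofMul ((Additive.toMul u : ↥(Sset.unit T)) : Tˣ),
        gecar_unit_le_gkV (Additive.toMul u).2⟩ : ↥(gecVAdd T Sset p)) := rfl

/-- `X` is killed by `p` -/
theorem gecarX_torsion (x : GecX T Sset p) : p • x = 0 := by
  induction x using QuotientAddGroup.induction_on with
  | H a =>
    rw [← QuotientAddGroup.mk_nsmul, QuotientAddGroup.eq_zero_iff]
    exact ⟨Additive.toMul (a : Additive Tˣ), rfl⟩

end Maps


section Exact

variable (T : Type) [Field T] [NumberField T] (Δ : Type) [Group Δ] [MulSemiringAction Δ T]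
  (Sset : Set (HeightOneSpectrum (𝓞 T))) (p : ℕ) [Fact p.Prime]

/-- the image of `π` is killed by `p` -/
theorem gecarPi_torsion (x : GecX T Sset p) : p • gecarPi T Sset p x = 0 := by
  rw [← map_nsmul, gecarX_torsion, map_zero]

/-- `π` is onto the `p`-torsion of `Cl_S` -/
theorem gecarPi_surj (c : GecarCl T Sset) (hc : p • c = 0) : ∃ x, gecarPi T Sset p x = c := by
  induction c using QuotientAddGroup.induction_on with
  | H D =>
    rw [← QuotientAddGroup.mk_nsmul, QuotientAddGroup.eq_zero_iff, gecar_mem_gecarP] at hc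
    obtain ⟨a, ha⟩ := hc
    have hav : ∀ v : HeightOneSpectrum (𝓞 T), v ∉ Sset → divOf T (a : T) v = (p : ℤ) * D v := by
      intro v hv
      have := ha v hv
      rw [Finsupp.sub_apply, Finsupp.smul_apply, nsmul_eq_mul] at this
      linarith
    have haV : a ∈ gkV T Sset p := by
      rw [gecar_mem_gkV_iff]
      intro v hv
      rw [hav v hv]
      exact dvd_mul_right _ _
    refine ⟨QuotientAddGroup.mk (⟨Additive.ofMul a, haV⟩ : ↥(gecVAdd T Sset p)), ?_⟩
    rw [gecarPi_mk, gecarPi0_apply, QuotientAddGroup.eq]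
    apply gecar_divOn_le
    intro v hv
    have h1 : ((Additive.toMul ((⟨Additive.ofMul a, haV⟩ : ↥(gecVAdd T Sset p)) : Additive Tˣ) :
        Tˣ)) = a := rfl
    rw [Finsupp.add_apply, Finsupp.neg_apply, h1, gecarDivp_apply, hav v hv,
      Int.mul_ediv_cancel_left _ (gecar_p_ne_zero p)]
    ring

/-- exactness at `X` -/
theorem gecar_exact (x : GecX T Sset p) :
    gecarPi T Sset p x = 0 ↔ ∃ u, gecarIota T Sset p u = x := by
  constructor
  · induction x using QuotientAddGroup.induction_on with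
    | H a =>
      intro hx
      rw [gecarPi_mk, gecarPi0_apply, QuotientAddGroup.eq_zero_iff, gecar_mem_gecarP] at hx
      obtain ⟨b, hb⟩ := hx
      set a' : Tˣ := Additive.toMul (a : Additive Tˣ) with ha'
      have haV : a' ∈ gkV T Sset p := a.2
      set u : Tˣ := a' * (b ^ p)⁻¹ with hu
      have huU : u ∈ Sset.unit T := by
        rw [gecar_mem_unit_iff]
        intro v hv
        have h1 := hb v hv
        rw [Finsupp.sub_apply, gecarDivp_apply] at h1
        have h2 : (p : ℤ) ∣ divOf T (a' : T) v := gecar_mem_gkV_iff.1 haV v hv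
        have h3 : ((u : Tˣ) : T) = (a' : T) * ((b : T) ^ p)⁻¹ := by
          rw [hu, Units.val_mul, Units.val_inv_eq_inv_val, Units.val_pow_eq_pow_val]
        rw [h3, fi_divOf_mul T a'.ne_zero (inv_ne_zero (pow_ne_zero _ b.ne_zero)), fi_divOf_inv,
          fi_divOf_pow T b.ne_zero, Finsupp.add_apply, Finsupp.neg_apply, Finsupp.smul_apply,
          nsmul_eq_mul]
        obtain ⟨m, hm⟩ := h2
        rw [hm, Int.mul_ediv_cancel_left _ (gecar_p_ne_zero p)] at h1
        rw [hm]
        have : m = divOf T (b : T) v := by linarith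
        rw [this]
        ring
      refine ⟨Additive.ofMul (⟨u, huU⟩ : ↥(Sset.unit T)), ?_⟩
      rw [gecarIota_apply, QuotientAddGroup.eq]
      refine ⟨b, ?_⟩
      show b ^ p = (u)⁻¹ * a'
      rw [hu, mul_inv_rev, inv_inv, mul_assoc, inv_mul_cancel, mul_one]
  · rintro ⟨u, rfl⟩
    rw [gecarIota_apply, gecarPi_mk, gecarPi0_apply, QuotientAddGroup.eq_zero_iff]
    apply gecar_divOn_le
    intro v hv
    have h1 : divOf T (((Additive.toMul u : ↥(Sset.unit T)) : Tˣ) : T) v = 0 :=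
      gecar_mem_unit_iff.1 (Additive.toMul u).2 v hv
    rw [gecarDivp_apply]
    show divOf T (((Additive.toMul u : ↥(Sset.unit T)) : Tˣ) : T) v / (p : ℤ) = 0
    rw [h1, Int.zero_ediv]

/-- purity of `ι` -/
theorem gecar_pure (u : Additive ↥(Sset.unit T)) (b : GecX T Sset p)
    (h : gecarIota T Sset p u = p • b) : ∃ u', u = p • u' := by
  have hp0 : p ≠ 0 := (Fact.out : p.Prime).ne_zero
  rw [gecarX_torsion, gecarIota_apply, QuotientAddGroup.eq_zero_iff] at h
  obtain ⟨c, hc⟩ := h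
  have hc' : c ^ p = ((Additive.toMul u : ↥(Sset.unit T)) : Tˣ) := hc
  have hcU : c ∈ Sset.unit T := by
    intro v hv
    have h1 : v.valuation T ((((Additive.toMul u : ↥(Sset.unit T)) : Tˣ)) : T) = 1 :=
      (Additive.toMul u).2 v hv
    rw [← hc', Units.val_pow_eq_pow_val, map_pow] at h1
    exact (pow_eq_one_iff_of_nonneg zero_le hp0).mp h1
  refine ⟨Additive.ofMul (⟨c, hcU⟩ : ↥(Sset.unit T)), ?_⟩
  apply Additive.toMul.injective
  apply Subtype.ext
  show ((Additive.toMul u : ↥(Sset.unit T)) : Tˣ) = c ^ p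
  exact hc'.symm

end Exact


section Equivariance

variable (T : Type) [Field T] [NumberField T] (Δ : Type) [Group Δ] [MulSemiringAction Δ T]
  (Sset : Set (HeightOneSpectrum (𝓞 T))) (p : ℕ) [Fact p.Prime]
  (hS : ∀ (δ : Δ) (v : HeightOneSpectrum (𝓞 T)), v ∈ Sset → δ • v ∈ Sset)

theorem gecarIota_equivariant (δ : Δ) (u : Additive ↥(Sset.unit T)) :
    letI := gecSUnitAction T Δ Sset hS
    gecarIota T Sset p (euActMul Δ ↥(Sset.unit T) δ u) =
      gecActX T Δ Sset p hS δ (gecarIota T Sset p u) := rfl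

theorem gecarDivp_smul (δ : Δ) (a : Tˣ) :
    gecarDivp T p (gecUnitsMap T Δ δ a) = gecActDiv T Δ δ (gecarDivp T p a) := by
  ext v
  rw [gecarDivp_apply, gecActDiv_apply', gecarDivp_apply, gecUnitsMap_coe,
    ← gecActDiv_divOf T Δ δ a.ne_zero, gecActDiv_apply']

theorem gecarPi_equivariant (δ : Δ) (x : GecX T Sset p) :
    gecarPi T Sset p (gecActX T Δ Sset p hS δ x) =
      gecarActCl T Δ Sset hS δ (gecarPi T Sset p x) := by
  induction x using QuotientAddGroup.induction_on with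
  | H a =>
    show gecarPi T Sset p (QuotientAddGroup.mk _) = _
    rw [gecarPi_mk, gecarPi_mk, gecarPi0_apply, gecarPi0_apply]
    show (QuotientAddGroup.mk (gecarDivp T p
      (gecUnitsMap T Δ δ (Additive.toMul (a : Additive Tˣ)))) : GecarCl T Sset) = _
    rw [gecarDivp_smul]
    rfl

end Equivariance

section Finite

variable (T : Type) [Field T] [NumberField T] (p : ℕ) [Fact p.Prime]
  (Sset : Finset (HeightOneSpectrum (𝓞 T)))

/-- `X = V_S / Tˣᵖ` is finite (no root of unity needed) -/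
theorem gecarX_finite : Finite (GecX T (Sset : Set (HeightOneSpectrum (𝓞 T))) p) := by
  haveI : NeZero p := ⟨(Fact.out : p.Prime).ne_zero⟩
  have hle : (Sset : Set (HeightOneSpectrum (𝓞 T))).unit T ⊔ (powMonoidHom p : Tˣ →* Tˣ).range ≤
      gkV T (Sset : Set (HeightOneSpectrum (𝓞 T))) p :=
    sup_le gecar_unit_le_gkV (gk_pow_le_gkV T p _)
  have h1 : (powMonoidHom p : Tˣ →* Tˣ).range.relIndex
      (gkV T (Sset : Set (HeightOneSpectrum (𝓞 T))) p) ≠ 0 := by
    rw [← Subgroup.relIndex_mul_relIndex _ _ _ le_sup_right hle, gkv_relIndex_pow_unit_sup,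
      gkv_relIndex_unit_sup_pow, sunit_index_pow T Sset p]
    refine mul_ne_zero (mul_ne_zero (pow_ne_zero _ (NeZero.ne p)) ?_) (gkClSub_index_ne_zero T p _)
    exact Nat.card_pos.ne'
  have h2 : ((gecPowAdd T p).addSubgroupOf
      (gecVAdd T (Sset : Set (HeightOneSpectrum (𝓞 T))) p)).index ≠ 0 := by
    have : ((gecPowAdd T p).addSubgroupOf
        (gecVAdd T (Sset : Set (HeightOneSpectrum (𝓞 T))) p)).index =
        (gecPowAdd T p).relIndex (gecVAdd T (Sset : Set (HeightOneSpectrum (𝓞 T))) p) := rfl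
    rw [this, gecPowAdd, gecVAdd, Subgroup.relIndex_toAddSubgroup]
    exact h1
  haveI : ((gecPowAdd T p).addSubgroupOf
      (gecVAdd T (Sset : Set (HeightOneSpectrum (𝓞 T))) p)).FiniteIndex := ⟨h2⟩
  exact AddSubgroup.finite_quotient_of_finiteIndex

end Finite


section Final

variable (T : Type) [Field T] [NumberField T] (Δ : Type) [Group Δ] [MulSemiringAction Δ T]
  (p : ℕ) [Fact p.Prime]

/-- the `p`-torsion of `Cl_S` -/
def gecarTors (Sset : Set (HeightOneSpectrum (𝓞 T))) : AddSubgroup (GecarCl T Sset) :=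
  (nsmulAddMonoidHom p : GecarCl T Sset →+ GecarCl T Sset).ker

theorem mem_gecarTors {Sset : Set (HeightOneSpectrum (𝓞 T))} {c : GecarCl T Sset} :
    c ∈ gecarTors T p Sset ↔ p • c = 0 := by
  rw [gecarTors, AddMonoidHom.mem_ker, nsmulAddMonoidHom_apply]

variable [Finite Δ] {k : Type} [Field k] [Algebra (ZMod p) k]

/-- `d_χ(Cl_S) = d_χ(Cl_S / p)` (`char k = p`) -/
theorem gecar_euDim_cl (χ : Δ →* kˣ) (Sset : Set (HeightOneSpectrum (𝓞 T)))
    (hS : ∀ (δ : Δ) (v : HeightOneSpectrum (𝓞 T)), v ∈ Sset → δ • v ∈ Sset) :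
    euDim χ (gecarActCl T Δ Sset hS) = euDim χ (gecActC T Δ Sset p hS) := by
  haveI : CharP k p := charP_of_injective_algebraMap (algebraMap (ZMod p) k).injective p
  set q : GecarCl T Sset →+ GecC T Sset p :=
    QuotientAddGroup.map (gecarP T Sset) (gkClSub T Sset p) (AddMonoidHom.id _)
      (fun D hD => gecarP_le_gkClSub T Sset p hD) with hq
  have hqmk : ∀ D : S14.Div T, q (QuotientAddGroup.mk D) = QuotientAddGroup.mk D := fun D => rfl
  have hqeq : ∀ δ c, q (gecarActCl T Δ Sset hS δ c) = gecActC T Δ Sset p hS δ (q c) := by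
    intro δ c
    induction c using QuotientAddGroup.induction_on with
    | H D => rfl
  have hqsurj : Function.Surjective q := by
    intro c
    induction c using QuotientAddGroup.induction_on with
    | H D => exact ⟨QuotientAddGroup.mk D, rfl⟩
  have hbij : Function.Bijective (euRes χ q hqeq) := by
    refine ⟨euRes_injective_of_surjective χ q hqeq hqsurj, ?_⟩
    intro g
    have hkill : ∀ D ∈ gkClSub T Sset p,
        (g.1.comp (QuotientAddGroup.mk' (gecarP T Sset))) D = 0 := by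
      intro D hD
      rw [gkClSub, AddSubgroup.mem_sup] at hD
      obtain ⟨D₁, hD₁, _, ⟨D₂, rfl⟩, rfl⟩ := hD
      have hD₁' : D₁ ∈ gecarP T Sset := hD₁
      rw [map_add, AddMonoidHom.comp_apply, AddMonoidHom.comp_apply, QuotientAddGroup.mk'_apply,
        (QuotientAddGroup.eq_zero_iff D₁).2 hD₁', map_zero, zero_add, zsmulAddGroupHom_apply,
        map_zsmul, map_zsmul, zsmul_eq_mul, Int.cast_natCast, CharP.cast_eq_zero k p, zero_mul]
    set h : GecC T Sset p →+ k :=
      QuotientAddGroup.lift (gkClSub T Sset p)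
        (g.1.comp (QuotientAddGroup.mk' (gecarP T Sset))) hkill with hh
    have hhq : ∀ c, h (q c) = g.1 c := by
      intro c
      induction c using QuotientAddGroup.induction_on with
      | H D => rfl
    refine ⟨⟨h, ?_⟩, ?_⟩
    · intro δ c
      obtain ⟨c', rfl⟩ := hqsurj c
      rw [← hqeq, hhq, hhq, g.2 δ c']
    · apply Subtype.ext
      exact AddMonoidHom.ext fun c => hhq c
  exact (LinearEquiv.finrank_eq (LinearEquiv.ofBijective (euRes χ q hqeq) hbij)).symm

/-- AR for a `Δ`-stable set of places with `V_S/Tˣᵖ` finite -/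
theorem gecar_main (hΔ : (Nat.card Δ).Coprime p) (χ : Δ →* kˣ)
    (SS : Set (HeightOneSpectrum (𝓞 T)))
    (hS : ∀ (δ : Δ) (v : HeightOneSpectrum (𝓞 T)), v ∈ SS → δ • v ∈ SS)
    [Finite (GecX T SS p)] :
    euDim χ (gecActX T Δ SS p hS) =
      euDim χ (@euActMul Δ _ ↥(SS.unit T) _ (gecSUnitAction T Δ SS hS)) +
        euDim χ (gecActC T Δ SS p hS) := by
  classical
  haveI : Fintype Δ := Fintype.ofFinite Δ
  haveI : CharP k p := charP_of_injective_algebraMap (algebraMap (ZMod p) k).injective p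
  -- the torsion subgroup with its action
  have hTst : ∀ δ : Δ, ∀ c ∈ gecarTors T p SS, gecarActCl T Δ SS hS δ c ∈ gecarTors T p SS := by
    intro δ c hc
    rw [mem_gecarTors] at hc ⊢
    rw [← map_nsmul, hc, map_zero]
  set ρT := gecActRestr (gecarActCl T Δ SS hS) (gecarTors T p SS) hTst with hρT
  set πT : GecX T SS p →+ ↥(gecarTors T p SS) :=
    (gecarPi T SS p).codRestrict (gecarTors T p SS)
      (fun x => (mem_gecarTors T p).2 (gecarPi_torsion T SS p x)) with hπT
  haveI : Module.Finite ℤ (GecX T SS p) := Module.Finite.of_finite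
  haveI : Module.Finite k ↥(euX χ (gecActX T Δ SS p hS)) := eu_finite χ _
  have h1 := euDim_of_exact_pure p χ
    (@euActMul Δ _ ↥(SS.unit T) _ (gecSUnitAction T Δ SS hS)) (gecActX T Δ SS p hS) ρT hΔ
    (gecarIota T SS p) πT
    (fun δ u => gecarIota_equivariant T Δ SS p hS δ u)
    (fun δ x => Subtype.ext (gecarPi_equivariant T Δ SS p hS δ x))
    (by
      rintro ⟨c, hc⟩
      obtain ⟨x, hx⟩ := gecarPi_surj T SS p c ((mem_gecarTors T p).1 hc)
      exact ⟨x, Subtype.ext hx⟩)
    (by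
      intro x
      rw [← gecar_exact T SS p x]
      constructor
      · intro h
        exact congrArg Subtype.val h
      · intro h
        exact Subtype.ext h)
    (fun u b h => gecar_pure T SS p u b h)
  haveI : Finite (GecarCl T SS) := gecarCl_finite T SS
  have h2 := euDim_torsion_eq p χ hΔ (gecarActCl T Δ SS hS) ρT (gecarTors T p SS).subtype
    (fun δ t => rfl) Subtype.val_injective
    (fun a => ⟨fun h => ⟨⟨a, (mem_gecarTors T p).2 h⟩, rfl⟩,
      by rintro ⟨t, rfl⟩; exact (mem_gecarTors T p).1 t.2⟩)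
  rw [h1, h2, gecar_euDim_cl T Δ p χ SS hS]

/-- **G10 AR.** `d_χ(V_S/Tˣᵖ) = d_χ(U_S) + d_χ(Cl_S/p)` -/
theorem gec_ar (hΔ : (Nat.card Δ).Coprime p) (χ : Δ →* kˣ)
    (Sset : Finset (HeightOneSpectrum (𝓞 T)))
    (hS : ∀ (δ : Δ) (v : HeightOneSpectrum (𝓞 T)),
      v ∈ (Sset : Set (HeightOneSpectrum (𝓞 T))) → δ • v ∈ (Sset : Set (HeightOneSpectrum (𝓞 T)))) :
    letI := gecSUnitAction T Δ (Sset : Set (HeightOneSpectrum (𝓞 T))) hS
    euDim χ (gecActX T Δ (Sset : Set (HeightOneSpectrum (𝓞 T))) p hS) =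
      euDim χ (euActMul Δ ↥((Sset : Set (HeightOneSpectrum (𝓞 T))).unit T)) +
        euDim χ (gecActC T Δ (Sset : Set (HeightOneSpectrum (𝓞 T))) p hS) := by
  haveI : Finite (GecX T (Sset : Set (HeightOneSpectrum (𝓞 T))) p) := gecarX_finite T p Sset
  exact gecar_main T Δ p hΔ χ _ hS

end Final

end Fermat.Agent.S56
end
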