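/-
S56 / GEC (global Euler characteristic, base case): definitions (sorry-free).

* `GecStable H E`     : the subfield `E ≤ ℚ̄` is stable under the subgroup `H ≤ GQ`;
* `gecRestr hst`      : the restriction homomorphism `H →* (E ≃ₐ[ℚ] E)`;
* `GecDelta hst`      : `Δ = H ⧸ ker (restriction)` (a finite group when `E` is a number field),
                        with its `MulSemiringAction` on `E`;
* `gecQuotChar`       : a character of `H` trivial on the kernel, as a character of `Δ`.
-/
import Fermat.Agent.S56.EU.Defs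
import Fermat.Agent.S55.Bridge.Levels

set_option autoImplicit false

noncomputable section

namespace Fermat.Agent.S56

open Fermat.Agent.S55

section Restr

variable {H : Subgroup GQ} {E : IntermediateField ℚ (AlgebraicClosure ℚ)}

/-- `E` is stable under `H`. -/
def GecStable (H : Subgroup GQ) (E : IntermediateField ℚ (AlgebraicClosure ℚ)) : Prop :=
  ∀ h ∈ H, ∀ x ∈ E, (h : GQ) x ∈ E

/-- the restriction of `h ∈ H` to the `H`-stable field `E` -/
def gecRestrEquiv (hst : GecStable H E) (h : ↥H) : ↥E ≃ₐ[ℚ] ↥E where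
  toFun x := ⟨(h : GQ) x, hst h h.2 x x.2⟩
  invFun x := ⟨((h⁻¹ : ↥H) : GQ) x, hst _ (h⁻¹).2 x x.2⟩
  left_inv x := Subtype.ext (by
    show ((h⁻¹ : ↥H) : GQ) ((h : GQ) x) = x
    rw [Subgroup.coe_inv]
    exact (h : GQ).symm_apply_apply _)
  right_inv x := Subtype.ext (by
    show (h : GQ) (((h⁻¹ : ↥H) : GQ) x) = x
    rw [Subgroup.coe_inv]
    exact (h : GQ).apply_symm_apply _)
  map_mul' x y := Subtype.ext (map_mul (h : GQ) _ _)
  map_add' x y := Subtype.ext (map_add (h : GQ) _ _)
  commutes' r := Subtype.ext ((h : GQ).commutes r)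

@[simp] theorem gecRestrEquiv_apply (hst : GecStable H E) (h : ↥H) (x : ↥E) :
    ((gecRestrEquiv hst h x : ↥E) : AlgebraicClosure ℚ) = (h : GQ) x := rfl

/-- the restriction homomorphism `H →* Aut(E)` -/
def gecRestr (hst : GecStable H E) : ↥H →* (↥E ≃ₐ[ℚ] ↥E) where
  toFun := gecRestrEquiv hst
  map_one' := by
    ext x
    rfl
  map_mul' h h' := by
    ext x
    rfl

@[simp] theorem gecRestr_apply (hst : GecStable H E) (h : ↥H) (x : ↥E) :
    ((gecRestr hst h x : ↥E) : AlgebraicClosure ℚ) = (h : GQ) x := rfl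

theorem mem_gecRestr_ker (hst : GecStable H E) (h : ↥H) :
    h ∈ (gecRestr hst).ker ↔ (h : GQ) ∈ E.fixingSubgroup := by
  rw [MonoidHom.mem_ker, IntermediateField.mem_fixingSubgroup_iff]
  constructor
  · intro h1 x hx
    have h2 := congrArg (fun e : ↥E ≃ₐ[ℚ] ↥E => ((e ⟨x, hx⟩ : ↥E) : AlgebraicClosure ℚ)) h1
    exact h2
  · intro h1
    ext x
    exact h1 x x.2

/-- `Δ = H ⧸ ker(restriction to E)` -/
abbrev GecDelta (hst : GecStable H E) : Type := ↥H ⧸ (gecRestr hst).ker

/-- the injection `Δ ↪ Aut(E)` -/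
def gecDeltaHom (hst : GecStable H E) : GecDelta hst →* (↥E ≃ₐ[ℚ] ↥E) :=
  QuotientGroup.kerLift (gecRestr hst)

theorem gecDeltaHom_injective (hst : GecStable H E) : Function.Injective (gecDeltaHom hst) :=
  QuotientGroup.kerLift_injective (gecRestr hst)

@[simp] theorem gecDeltaHom_mk (hst : GecStable H E) (h : ↥H) :
    gecDeltaHom hst (QuotientGroup.mk h) = gecRestr hst h := rfl

instance gecDelta_finite (hst : GecStable H E) [FiniteDimensional ℚ ↥E] :
    Finite (GecDelta hst) :=
  Finite.of_injective _ (gecDeltaHom_injective hst)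

/-- the action of `Δ` on `E` -/
instance gecDelta_mulSemiringAction (hst : GecStable H E) :
    MulSemiringAction (GecDelta hst) ↥E :=
  MulSemiringAction.compHom ↥E (gecDeltaHom hst)

theorem gecDelta_smul_def (hst : GecStable H E) (δ : GecDelta hst) (x : ↥E) :
    δ • x = gecDeltaHom hst δ x := rfl

@[simp] theorem gecDelta_mk_smul (hst : GecStable H E) (h : ↥H) (x : ↥E) :
    (((QuotientGroup.mk h : GecDelta hst) • x : ↥E) : AlgebraicClosure ℚ) = (h : GQ) x := rfl

/-- a character of `H` trivial on the kernel of the restriction, as a character of `Δ` -/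
def gecQuotChar (hst : GecStable H E) {k : Type*} [Field k] (ψ : ↥H →* kˣ)
    (hψ : (gecRestr hst).ker ≤ ψ.ker) : GecDelta hst →* kˣ :=
  QuotientGroup.lift _ ψ hψ

@[simp] theorem gecQuotChar_mk (hst : GecStable H E) {k : Type*} [Field k] (ψ : ↥H →* kˣ)
    (hψ : (gecRestr hst).ker ≤ ψ.ker) (h : ↥H) :
    gecQuotChar hst ψ hψ (QuotientGroup.mk h) = ψ h := rfl

end Restr

end Fermat.Agent.S56

end
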