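/-
S56 / GEC, leaf G2 (core formula): Galois conjugation of the global Kummer function.

For `g : GQ` stabilising `E` (`ζ ∈ E` a primitive `p`-th root of unity), `a ∈ Eˣ`,
`σ ∈ Gal(ℚ̄/E)`:   `f_{g a}(σ) = ω(g) · f_a(g⁻¹ σ g)`   (`ω = cycloChar p`).
-/
import Fermat.Agent.S55.SB.KummerGlobal
import Fermat.Agent.S55.SB.Root

set_option autoImplicit false

namespace Fermat.Agent.S56

open Fermat.Agent.S55 ExtCitation

variable {p : ℕ} [Fact p.Prime] {ζ : AlgebraicClosure ℚ}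

theorem gec_pow_val_mul (hζ : IsPrimitiveRoot ζ p) (x y : ZMod p) :
    ζ ^ (x * y).val = ζ ^ (x.val * y.val) := by
  have : NeZero p := ⟨(Fact.out : p.Prime).ne_zero⟩
  rw [ZMod.val_mul]
  conv_rhs => rw [← Nat.mod_add_div (x.val * y.val) p]
  rw [pow_add, pow_mul, hζ.pow_eq_one, one_pow, mul_one]

/-- `g⁻¹ σ g` fixes `E` when `g` stabilises `E` and `σ` fixes `E`. -/
theorem gec_conj_mem_fixingSubgroup (E : IntermediateField ℚ (AlgebraicClosure ℚ)) (g : GQ)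
    (hg : ∀ x, x ∈ E → g x ∈ E) {σ : GQ} (hσ : σ ∈ E.fixingSubgroup) :
    g⁻¹ * σ * g ∈ E.fixingSubgroup := by
  rw [IntermediateField.mem_fixingSubgroup_iff] at hσ ⊢
  intro x hx
  show g⁻¹ (σ (g x)) = x
  rw [hσ (g x) (hg x hx)]
  exact g.symm_apply_apply x

/-- **Conjugation formula for the Kummer function.** -/
theorem gec_kumFun_conj (hζ : IsPrimitiveRoot ζ p)
    (E : IntermediateField ℚ (AlgebraicClosure ℚ)) (hζE : ζ ∈ E) (g : GQ)
    (a b : (↥E)ˣ)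
    (hb : (((b : (↥E)ˣ) : ↥E) : AlgebraicClosure ℚ) = g (((a : (↥E)ˣ) : ↥E) : AlgebraicClosure ℚ))
    (σ τ : ↥E.fixingSubgroup) (hτ : (τ : GQ) = g⁻¹ * (σ : GQ) * g) :
    sbKumFun (p := p) ζ E.fixingSubgroup (((b : (↥E)ˣ) : ↥E) : AlgebraicClosure ℚ) σ =
      ((cycloChar p g : (ZMod p)ˣ) : ZMod p) *
        sbKumFun (p := p) ζ E.fixingSubgroup (((a : (↥E)ˣ) : ↥E) : AlgebraicClosure ℚ) τ := by
  have : NeZero p := ⟨(Fact.out : p.Prime).ne_zero⟩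
  set α := sbRoot p ((((a : (↥E)ˣ) : ↥E) : AlgebraicClosure ℚ)) with hα
  have hαp : α ^ p = (((a : (↥E)ˣ) : ↥E) : AlgebraicClosure ℚ) := sbRoot_pow (p := p) _
  have hgαp : (g α) ^ p = (((b : (↥E)ˣ) : ↥E) : AlgebraicClosure ℚ) := by
    rw [← map_pow, hαp, hb]
  rw [sbk_kumFun_eq_iff hζ E hζE b (g α) hgαp σ]
  have h1 := sbKumFun_spec hζ E hζE a α hαp τ
  have h2 : (σ : GQ) (g α) = g ((τ : GQ) α) := by
    rw [hτ]
    show (σ : GQ) (g α) = g (g⁻¹ ((σ : GQ) (g α)))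
    exact (g.apply_symm_apply _).symm
  rw [h2, h1, map_mul, map_pow, sb_cycloChar_spec g hζ.pow_eq_one, ← pow_mul,
    gec_pow_val_mul hζ]

end Fermat.Agent.S56
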