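/-
S56 / GEC (base case of Tate's global Euler characteristic): the definitions of the main cut
(sorry-free).

Setting: `H ≤ GQ` open for `levelsS S`, `k` a field of characteristic `p` (`[Algebra (ZMod p) k]`),
`ψ : ↥H →* kˣ`, `E` a number field inside `ℚ̄`, stable under `H`, containing `ζ_p`, with
`N = Gal(ℚ̄/E) = E.fixingSubgroup ≤ H`, `ψ|_N = 1`; `Δ = GecDelta hst = H/N` acts on `↥E`.

* `gecOmega p k`      : the mod `p` cyclotomic character with values in `kˣ`;
* `gecStar p k ψ`     : `ψ* = ω ψ⁻¹` (restricted to `H`);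
* `gecKumFun p k ζ E a` : the `k`-valued Kummer function `σ ↦ (sbKumFun ζ N a σ : k)` on `N`;
* `gecKumHom k S E`   : the smooth (for `levelsS S`) additive functions `N → k` (`= smZ1` of the
                        trivial representation on `k`), a `k`-subspace of `↥N → k`;
* `gecKumEq k H E ψ`  : the functions `φ : N → k` with `φ (h n h⁻¹) = ψ h * φ n` for `h ∈ H`;
* `gecKumSpan p k ζ E A` : the `k`-span of the `gecKumFun a`, `a ∈ A ≤ (↥E)ˣ`;
* `gecDecVanish k S E`: the functions `N → k` vanishing on `N ∩ g D_q g⁻¹` for all `q ∈ S`, `g ∈ GQ`;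
* `gecSubtypeMulAction` : the action of `Δ` on a stable set of places.
-/
import Fermat.Agent.S56.Gec.Defs
import Fermat.Agent.S56.Gec.ArithDefs
import Fermat.Agent.S56.Gec.KummerConj
import Fermat.Agent.S55.SB.KummerGlobal
import Fermat.Agent.S55.Asm.Defs

set_option autoImplicit false

noncomputable section

namespace Fermat.Agent.S56

open Fermat.Agent.S55 NumberField IsDedekindDomain ExtCitation

/-! ### the cyclotomic character with values in `k` and `ψ* = ω ψ⁻¹` -/

section Omega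

variable (p : ℕ) [Fact p.Prime] (k : Type) [Field k] [Algebra (ZMod p) k]

/-- the mod `p` cyclotomic character with values in `kˣ` -/
def gecOmega : GQ →* kˣ :=
  (Units.map (algebraMap (ZMod p) k : ZMod p →* k)).comp (cycloChar p)

theorem gecOmega_apply (g : GQ) :
    ((gecOmega p k g : kˣ) : k) = algebraMap (ZMod p) k ((cycloChar p g : (ZMod p)ˣ) : ZMod p) := rfl

variable {k}

/-- `ψ* = ω ψ⁻¹` -/
def gecStar {H : Subgroup GQ} (ψ : ↥H →* kˣ) : ↥H →* kˣ :=
  ((gecOmega p k).comp H.subtype) * ψ⁻¹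

theorem gecStar_apply {H : Subgroup GQ} (ψ : ↥H →* kˣ) (h : ↥H) :
    gecStar p ψ h = gecOmega p k (h : GQ) * (ψ h)⁻¹ := rfl

theorem gecStar_gecStar {H : Subgroup GQ} (ψ : ↥H →* kˣ) : gecStar p (gecStar p ψ) = ψ := by
  ext h
  rw [gecStar_apply, gecStar_apply, mul_inv, inv_inv, ← mul_assoc, mul_inv_cancel, one_mul]

end Omega

/-! ### spaces of functions on `N = Gal(ℚ̄/E)` -/

section Spaces

variable (p : ℕ) [Fact p.Prime] (k : Type) [Field k] [Algebra (ZMod p) k]
  (ζ : AlgebraicClosure ℚ) (S : Finset Nat.Primes) (H : Subgroup GQ)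
  (E : IntermediateField ℚ (AlgebraicClosure ℚ))

/-- the `k`-valued Kummer function of `a ∈ Eˣ` on `N = Gal(ℚ̄/E)` -/
def gecKumFun (a : (↥E)ˣ) : ↥E.fixingSubgroup → k :=
  fun σ => algebraMap (ZMod p) k
    (sbKumFun (p := p) ζ E.fixingSubgroup ((((a : (↥E)ˣ) : ↥E) : AlgebraicClosure ℚ)) σ)

/-- the `k`-span of the Kummer functions of the elements of `A ≤ Eˣ` -/
def gecKumSpan (A : Subgroup (↥E)ˣ) : Submodule k (↥E.fixingSubgroup → k) :=
  Submodule.span k (Set.range fun a : ↥A => gecKumFun p k ζ E (a : (↥E)ˣ))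

/-- the smooth additive functions `N → k` -/
def gecKumHom : Submodule k (↥E.fixingSubgroup → k) :=
  smZ1 ((levelsS S).sub E.fixingSubgroup) (1 : Representation k ↥E.fixingSubgroup k)

variable {k H} in
/-- the functions `φ : N → k` with `φ (h n h⁻¹) = ψ h * φ n` for all `h ∈ H` -/
def gecKumEq (ψ : ↥H →* kˣ) : Submodule k (↥E.fixingSubgroup → k) where
  carrier := {φ | ∀ (h : ↥H) (n : ↥E.fixingSubgroup)
    (hn : (h : GQ) * (n : GQ) * ((h : GQ))⁻¹ ∈ E.fixingSubgroup),
    φ ⟨(h : GQ) * (n : GQ) * ((h : GQ))⁻¹, hn⟩ = ((ψ h : kˣ) : k) * φ n}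
  add_mem' := by
    intro φ φ' hφ hφ' h n hn
    simp only [Pi.add_apply, hφ h n hn, hφ' h n hn, mul_add]
  zero_mem' := by
    intro h n hn
    simp
  smul_mem' := by
    intro c φ hφ h n hn
    simp only [Pi.smul_apply, hφ h n hn, smul_eq_mul]
    ring

variable {k H E} in
theorem mem_gecKumEq {ψ : ↥H →* kˣ} {φ : ↥E.fixingSubgroup → k} :
    φ ∈ gecKumEq E ψ ↔ ∀ (h : ↥H) (n : ↥E.fixingSubgroup)
      (hn : (h : GQ) * (n : GQ) * ((h : GQ))⁻¹ ∈ E.fixingSubgroup),
      φ ⟨(h : GQ) * (n : GQ) * ((h : GQ))⁻¹, hn⟩ = ((ψ h : kˣ) : k) * φ n := Iff.rfl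

/-- the functions `N → k` vanishing on `N ∩ g D_q g⁻¹` for all `q ∈ S` and all `g ∈ GQ`
(`D_q` = the image of the local Galois group at `q`) -/
def gecDecVanish : Submodule k (↥E.fixingSubgroup → k) where
  carrier := {φ | ∀ (q : ↥S) (g : GQ) (γ : primeLocalGaloisGroup q.1)
    (hn : g * primeLocalToGlobal q.1 γ * g⁻¹ ∈ E.fixingSubgroup),
    φ ⟨g * primeLocalToGlobal q.1 γ * g⁻¹, hn⟩ = 0}
  add_mem' := by
    intro φ φ' hφ hφ' q g γ hn
    simp only [Pi.add_apply, hφ q g γ hn, hφ' q g γ hn, add_zero]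
  zero_mem' := by
    intro q g γ hn
    rfl
  smul_mem' := by
    intro c φ hφ q g γ hn
    simp only [Pi.smul_apply, hφ q g γ hn, smul_zero]

variable {k S E} in
theorem mem_gecDecVanish {φ : ↥E.fixingSubgroup → k} :
    φ ∈ gecDecVanish k S E ↔ ∀ (q : ↥S) (g : GQ) (γ : primeLocalGaloisGroup q.1)
      (hn : g * primeLocalToGlobal q.1 γ * g⁻¹ ∈ E.fixingSubgroup),
      φ ⟨g * primeLocalToGlobal q.1 γ * g⁻¹, hn⟩ = 0 := Iff.rfl

end Spaces

/-! ### the action on a stable set of places -/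

section SubtypeAction

attribute [local instance] gecPlaceMulAction

variable {T : Type*} [Field T] [NumberField T] {Δ : Type*} [Group Δ] [MulSemiringAction Δ T]

/-- the action of `Δ` on a `Δ`-stable set of finite places (a `def`; use `letI`) -/
@[reducible] def gecSubtypeMulAction (Sset : Set (HeightOneSpectrum (𝓞 T)))
    (hS : ∀ (δ : Δ) (v : HeightOneSpectrum (𝓞 T)), v ∈ Sset → δ • v ∈ Sset) :
    MulAction Δ ↥Sset where
  smul δ v := ⟨δ • (v : HeightOneSpectrum (𝓞 T)), hS δ v v.2⟩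
  one_smul v := Subtype.ext (one_smul Δ (v : HeightOneSpectrum (𝓞 T)))
  mul_smul δ δ' v := Subtype.ext (mul_smul δ δ' (v : HeightOneSpectrum (𝓞 T)))

end SubtypeAction

/-! ### the places above `S` are stable -/

section Stable

attribute [local instance] gecPlaceMulAction

variable (S : Finset Nat.Primes) {T : Type} [Field T] [NumberField T] {Δ : Type*} [Group Δ]
  [MulSemiringAction Δ T]

theorem gec_gkT_stable (δ : Δ) (v : HeightOneSpectrum (𝓞 T))
    (hv : v ∈ (gkT S T : Set (HeightOneSpectrum (𝓞 T)))) :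
    δ • v ∈ (gkT S T : Set (HeightOneSpectrum (𝓞 T))) := by
  rw [Finset.mem_coe, mem_gkT] at hv ⊢
  obtain ⟨q, hq, hqv⟩ := hv
  refine ⟨q, hq, ?_⟩
  rw [gec_smul_asIdeal]
  have h1 : δ • ((((q : Nat.Primes) : ℕ) : 𝓞 T)) = ((((q : Nat.Primes) : ℕ) : 𝓞 T)) := by
    apply Subtype.ext
    show δ • (((((q : Nat.Primes) : ℕ) : 𝓞 T)) : T) = (((((q : Nat.Primes) : ℕ) : 𝓞 T)) : T)
    have : (((((q : Nat.Primes) : ℕ) : 𝓞 T)) : T) = (((q : Nat.Primes) : ℕ) : T) := by simp
    rw [this]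
    exact map_natCast (MulSemiringAction.toRingHom Δ T δ) _
  rw [← h1]
  exact Ideal.smul_mem_pointwise_smul δ _ _ hqv

end Stable

end Fermat.Agent.S56

end
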