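/-
S56 / GEC, leaf G13 (C5): the archimedean count.  For `g : GQ` let `w_g` be the infinite place
`x ↦ |complexEmbedding (g⁻¹ x)|` of `E`.  (a) every infinite place of `E` is some `w_g`;
(b) `w_g = w_g'` iff `g' ∈ N g ⟨c⟩`; (c) `(mk h) • w_g = w_{h g}`; hence the `Δ`-orbits are the
double cosets `H \ GQ / ⟨c⟩`, the stabiliser of `w_t` is the image of `{1, t c t⁻¹} ∩ H`.
Helper prefix `gecap`.
-/
import Fermat.Agent.S56.Gec.MainDefs
import Fermat.Prelude.Def_GaloisRep_ComplexConjugation

set_option autoImplicit false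
set_option linter.style.haveILetI false
set_option linter.unusedSectionVars false

noncomputable section

namespace Fermat.Agent.S56

open Fermat.Agent.S55 NumberField IsDedekindDomain ExtCitation

attribute [local instance] gecInfPlaceMulAction

section ArchPlace

variable {H : Subgroup GQ} (E : IntermediateField ℚ (AlgebraicClosure ℚ))

/-- the embedding `x ↦ complexEmbedding (g⁻¹ x)` of `E` in `ℂ` -/
def gecapEmb (g : GQ) : ↥E →+* ℂ :=
  (complexEmbedding : AlgebraicClosure ℚ →+* ℂ).comp
    (((g⁻¹ : GQ) : AlgebraicClosure ℚ →+* AlgebraicClosure ℚ).comp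
      (E.val : ↥E →+* AlgebraicClosure ℚ))

theorem gecapEmb_apply (g : GQ) (x : ↥E) :
    gecapEmb E g x = complexEmbedding (g⁻¹ (x : AlgebraicClosure ℚ)) := rfl

variable [NumberField ↥E]

/-- the infinite place `x ↦ |complexEmbedding (g⁻¹ x)|` of `E` -/
def gecapPlace (g : GQ) : InfinitePlace ↥E := InfinitePlace.mk (gecapEmb E g)

theorem gecapPlace_apply (g : GQ) (x : ↥E) :
    gecapPlace E g x = ‖complexEmbedding (g⁻¹ (x : AlgebraicClosure ℚ))‖ := rfl

variable {E}

/-- (c) `(mk h) • w_g = w_{h g}` -/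
theorem gecap_smul_place (hst : GecStable H E) (h : ↥H) (g : GQ) :
    (QuotientGroup.mk h : GecDelta hst) • gecapPlace E g = gecapPlace E ((h : GQ) * g) := by
  apply InfinitePlace.ext
  intro x
  rw [gec_infPlace_smul_apply, gecapPlace_apply, gecapPlace_apply]
  have h1 : (((QuotientGroup.mk h : GecDelta hst)⁻¹ • x : ↥E) : AlgebraicClosure ℚ) =
      ((h⁻¹ : ↥H) : GQ) (x : AlgebraicClosure ℚ) := by
    rw [← QuotientGroup.mk_inv]
    rfl
  rw [h1, mul_inv_rev, Subgroup.coe_inv]
  rfl

theorem gecap_complexEmbedding_injective : Function.Injective complexEmbedding :=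
  complexEmbedding.toRingHom.injective

/-- (b) `w_g = w_g'` iff `g' ∈ N g ⟨c⟩` -/
theorem gecapPlace_eq_iff (g g' : GQ) :
    gecapPlace E g = gecapPlace E g' ↔
      g' * g⁻¹ ∈ E.fixingSubgroup ∨ g' * complexConjugation * g⁻¹ ∈ E.fixingSubgroup := by
  unfold gecapPlace
  rw [InfinitePlace.mk_eq_iff]
  have key1 : gecapEmb E g = gecapEmb E g' ↔ g' * g⁻¹ ∈ E.fixingSubgroup := by
    rw [IntermediateField.mem_fixingSubgroup_iff]
    constructor
    · intro h x hx
      have h1 := congrArg (fun f : ↥E →+* ℂ => f ⟨x, hx⟩) h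
      have h2 : g⁻¹ x = g'⁻¹ x := gecap_complexEmbedding_injective h1
      show g' (g⁻¹ x) = x
      rw [h2]
      exact g'.apply_symm_apply x
    · intro h
      ext x
      rw [gecapEmb_apply, gecapEmb_apply]
      congr 1
      have h1 : g' (g⁻¹ (x : AlgebraicClosure ℚ)) = x := h x x.2
      calc g⁻¹ (x : AlgebraicClosure ℚ) = g'⁻¹ (g' (g⁻¹ (x : AlgebraicClosure ℚ))) :=
            (g'.symm_apply_apply _).symm
        _ = g'⁻¹ (x : AlgebraicClosure ℚ) := by rw [h1]
  have key2 : ComplexEmbedding.conjugate (gecapEmb E g) = gecapEmb E g' ↔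
      g' * complexConjugation * g⁻¹ ∈ E.fixingSubgroup := by
    rw [IntermediateField.mem_fixingSubgroup_iff]
    constructor
    · intro h x hx
      have h1 := congrArg (fun f : ↥E →+* ℂ => f ⟨x, hx⟩) h
      have h1' : starRingEnd ℂ (complexEmbedding (g⁻¹ x)) = complexEmbedding (g'⁻¹ x) := h1
      rw [← complexEmbedding_complexConjugation] at h1'
      have h2 : complexConjugation (g⁻¹ x) = g'⁻¹ x := gecap_complexEmbedding_injective h1'
      show g' (complexConjugation (g⁻¹ x)) = x
      rw [h2]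
      exact g'.apply_symm_apply x
    · intro h
      ext x
      show starRingEnd ℂ (complexEmbedding (g⁻¹ (x : AlgebraicClosure ℚ))) =
        complexEmbedding (g'⁻¹ (x : AlgebraicClosure ℚ))
      rw [← complexEmbedding_complexConjugation]
      congr 1
      have h1 : g' (complexConjugation (g⁻¹ (x : AlgebraicClosure ℚ))) = x := h x x.2
      calc complexConjugation (g⁻¹ (x : AlgebraicClosure ℚ)) =
            g'⁻¹ (g' (complexConjugation (g⁻¹ (x : AlgebraicClosure ℚ)))) :=
            (g'.symm_apply_apply _).symm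
        _ = g'⁻¹ (x : AlgebraicClosure ℚ) := by rw [h1]
  rw [key1, key2]

end ArchPlace

section Surj

local instance gecap_isAlgebraic : Algebra.IsAlgebraic ℚ (AlgebraicClosure ℚ) :=
  AlgebraicClosure.isAlgebraic ℚ
local instance gecap_isAlgClosure : IsAlgClosure ℚ (AlgebraicClosure ℚ) :=
  ⟨inferInstance, inferInstance⟩
local instance gecap_normal : Normal ℚ (AlgebraicClosure ℚ) :=
  IsAlgClosure.normal ℚ (AlgebraicClosure ℚ)

/-- algebraic numbers in `ℂ` are in the range of `complexEmbedding` -/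
theorem gecap_mem_range (z : ℂ) (hz : IsIntegral ℚ z) :
    z ∈ (complexEmbedding : AlgebraicClosure ℚ →+* ℂ).range := by
  have hsplit : ((minpoly ℚ z).map (algebraMap ℚ (AlgebraicClosure ℚ))).Splits :=
    IsAlgClosed.splits _
  have h0 : (minpoly ℚ z).map (algebraMap ℚ (AlgebraicClosure ℚ)) ≠ 0 :=
    Polynomial.map_ne_zero (minpoly.ne_zero hz)
  refine hsplit.mem_range_of_isRoot h0 (i := (complexEmbedding : AlgebraicClosure ℚ →+* ℂ)) ?_
  rw [Polynomial.map_map, Polynomial.IsRoot.def, Polynomial.eval_map]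
  have h1 : (complexEmbedding : AlgebraicClosure ℚ →+* ℂ).comp
      (algebraMap ℚ (AlgebraicClosure ℚ)) = algebraMap ℚ ℂ := Subsingleton.elim _ _
  rw [h1]
  exact minpoly.aeval ℚ z

variable (E : IntermediateField ℚ (AlgebraicClosure ℚ)) [NumberField ↥E]

/-- (a) every infinite place of `E` is some `w_g` -/
theorem gecapPlace_surjective (w : InfinitePlace ↥E) : ∃ g : GQ, gecapPlace E g = w := by
  set φ : ↥E →+* ℂ := w.embedding with hφ
  -- `σ : E → ℚ̄` with `ce ∘ σ = φ`
  have hex : ∀ x : ↥E, ∃ y : AlgebraicClosure ℚ, complexEmbedding y = φ x := by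
    intro x
    have hx : IsIntegral ℚ x := Algebra.IsIntegral.isIntegral x
    have hz : IsIntegral ℚ (φ x) := by
      have := hx.map (φ.toRatAlgHom)
      exact this
    obtain ⟨y, hy⟩ := gecap_mem_range (φ x) hz
    exact ⟨y, hy⟩
  choose σ0 hσ0 using hex
  have hinj := gecap_complexEmbedding_injective
  set σ : ↥E →ₐ[ℚ] AlgebraicClosure ℚ :=
    { toFun := σ0
      map_one' := hinj (by rw [hσ0, map_one, map_one])
      map_mul' := fun x y => hinj (by rw [hσ0, map_mul, map_mul, hσ0, hσ0])
      map_zero' := hinj (by rw [hσ0, map_zero, map_zero])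
      map_add' := fun x y => hinj (by rw [hσ0, map_add, map_add, hσ0, hσ0])
      commutes' := fun r => hinj (by
        rw [hσ0]
        show φ ((algebraMap ℚ ↥E) r) = complexEmbedding ((algebraMap ℚ (AlgebraicClosure ℚ)) r)
        rw [AlgHom.commutes]
        exact map_ratCast φ r |>.trans (by simp)) } with hσ
  have hσapp : ∀ x : ↥E, complexEmbedding (σ x) = φ x := hσ0
  -- extend to an automorphism of `ℚ̄`
  set χ : ↥E ≃ₐ[ℚ] ↥σ.fieldRange := AlgEquiv.ofInjectiveField σ with hχ
  set τ : GQ := χ.liftNormal (AlgebraicClosure ℚ) with hτ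
  have hτapp : ∀ x : ↥E, τ (x : AlgebraicClosure ℚ) = σ x := by
    intro x
    have := AlgEquiv.liftNormal_commutes χ (AlgebraicClosure ℚ) x
    exact this
  refine ⟨τ⁻¹, ?_⟩
  have h1 : gecapEmb E τ⁻¹ = φ := by
    ext x
    rw [gecapEmb_apply, inv_inv, hτapp, hσapp]
  unfold gecapPlace
  rw [h1, hφ, InfinitePlace.mk_embedding]

end Surj


section Count

variable {p : ℕ} [Fact p.Prime] {k : Type} [Field k] [Algebra (ZMod p) k]
  {H : Subgroup GQ} {E : IntermediateField ℚ (AlgebraicClosure ℚ)} [NumberField ↥E]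

theorem gecap_zpowers_cases {c' : GQ} (hc' : c' ∈ Subgroup.zpowers complexConjugation) :
    c' = 1 ∨ c' = complexConjugation := by
  obtain ⟨n, rfl⟩ := Subgroup.mem_zpowers_iff.1 hc'
  rcases Int.even_or_odd n with ⟨m, rfl⟩ | ⟨m, rfl⟩
  · left
    rw [← two_mul, zpow_mul, zpow_two, complexConjugation_mul_self, one_zpow]
  · right
    rw [zpow_add, zpow_mul, zpow_two, complexConjugation_mul_self, one_zpow, one_mul, zpow_one]

/-- `w_{g c'} = w_g` for `c' ∈ ⟨c⟩` -/
theorem gecapPlace_mul_zpowers (g : GQ) {c' : GQ}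
    (hc' : c' ∈ Subgroup.zpowers complexConjugation) :
    gecapPlace E (g * c') = gecapPlace E g := by
  rw [eq_comm, gecapPlace_eq_iff]
  rcases gecap_zpowers_cases hc' with rfl | rfl
  · left
    rw [mul_one, mul_inv_cancel]
    exact one_mem _
  · right
    rw [mul_assoc g, complexConjugation_mul_self, mul_one, mul_inv_cancel]
    exact one_mem _

/-- the orbit of `w_g` under `Δ = H/N`: the `w_{g'}` with `g' ∈ H g ⟨c⟩` -/
theorem gecap_mem_orbit_iff (hEH : E.fixingSubgroup ≤ H) (hst : GecStable H E) (g g' : GQ) :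
    gecapPlace E g' ∈ MulAction.orbit (GecDelta hst) (gecapPlace E g) ↔
      ∃ h ∈ H, ∃ c' ∈ Subgroup.zpowers complexConjugation, g' = h * g * c' := by
  constructor
  · rintro ⟨δ, hδ⟩
    obtain ⟨h, rfl⟩ := QuotientGroup.mk_surjective δ
    have h1 : (QuotientGroup.mk h : GecDelta hst) • gecapPlace E g = gecapPlace E g' := hδ
    rw [gecap_smul_place hst h g, gecapPlace_eq_iff] at h1
    rcases h1 with h1 | h1
    · refine ⟨g' * ((h : GQ) * g)⁻¹ * h, H.mul_mem (hEH h1) h.2, 1, one_mem _, ?_⟩
      group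
    · refine ⟨g' * complexConjugation * ((h : GQ) * g)⁻¹ * h, H.mul_mem (hEH h1) h.2,
        complexConjugation, Subgroup.mem_zpowers _, ?_⟩
      have h2 : g' * complexConjugation * ((h : GQ) * g)⁻¹ * h * g * complexConjugation =
          g' * (complexConjugation * complexConjugation) := by group
      rw [h2, complexConjugation_mul_self, mul_one]
  · rintro ⟨h, hh, c', hc', rfl⟩
    refine ⟨(QuotientGroup.mk ⟨h, hh⟩ : GecDelta hst), ?_⟩
    show (QuotientGroup.mk ⟨h, hh⟩ : GecDelta hst) • gecapPlace E g = gecapPlace E (h * g * c')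
    rw [gecap_smul_place hst ⟨h, hh⟩ g]
    exact (gecapPlace_mul_zpowers (h * g) hc').symm

/-- the stabiliser of `w_g` in `Δ = H/N` -/
theorem gecap_mem_stabilizer_iff (hst : GecStable H E) (g : GQ) (h : ↥H) :
    (QuotientGroup.mk h : GecDelta hst) ∈
        MulAction.stabilizer (GecDelta hst) (gecapPlace E g) ↔
      (h : GQ) ∈ E.fixingSubgroup ∨
        (h : GQ) * (g * complexConjugation * g⁻¹) ∈ E.fixingSubgroup := by
  rw [MulAction.mem_stabilizer_iff, gecap_smul_place hst h g, eq_comm, gecapPlace_eq_iff]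
  have h1 : (h : GQ) * g * g⁻¹ = h := by group
  have h2 : (h : GQ) * g * complexConjugation * g⁻¹ = (h : GQ) * (g * complexConjugation * g⁻¹) := by
    group
  rw [h1, h2]

/-- **G13 (C5).** the archimedean count -/
theorem gec_arch_count (hEH : E.fixingSubgroup ≤ H)
    (hst : GecStable H E) (lam : ↥H →* kˣ) (hlam : (gecRestr hst).ker ≤ lam.ker)
    (R : Finset GQ)
    (hR : ∀ g : GQ, ∃! t, t ∈ R ∧ ∃ h ∈ H, ∃ c ∈ Subgroup.zpowers complexConjugation,
      g = h * t * c) :
    euOrbCount (gecQuotChar hst lam hlam) (InfinitePlace ↥E) =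
      open Classical in
      (R.filter (fun t => ∀ hc : t * complexConjugation * t⁻¹ ∈ H,
        lam ⟨t * complexConjugation * t⁻¹, hc⟩ = 1)).card := by
  classical
  -- `λ` is trivial on `N`
  have hlamN : ∀ (n : GQ) (hn : n ∈ E.fixingSubgroup), lam ⟨n, hEH hn⟩ = 1 := by
    intro n hn
    exact hlam ((mem_gecRestr_ker hst ⟨n, hEH hn⟩).2 hn)
  set P : GQ → Prop := fun t => ∀ hc : t * complexConjugation * t⁻¹ ∈ H,
    lam ⟨t * complexConjugation * t⁻¹, hc⟩ = 1 with hP
  set Q : MulAction.orbitRel.Quotient (GecDelta hst) (InfinitePlace ↥E) → Prop := fun o =>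
    ∀ x : InfinitePlace ↥E,
      (Quotient.mk'' x : MulAction.orbitRel.Quotient (GecDelta hst) (InfinitePlace ↥E)) = o →
      ∀ δ ∈ MulAction.stabilizer (GecDelta hst) x, gecQuotChar hst lam hlam δ = 1 with hQ
  -- the condition at `w_g`
  have hcond : ∀ g : GQ, (∀ δ ∈ MulAction.stabilizer (GecDelta hst) (gecapPlace E g),
      gecQuotChar hst lam hlam δ = 1) ↔ P g := by
    intro g
    constructor
    · intro h hc
      set x : ↥H := ⟨g * complexConjugation * g⁻¹, hc⟩ with hx
      have h1 : (QuotientGroup.mk x⁻¹ : GecDelta hst) ∈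
          MulAction.stabilizer (GecDelta hst) (gecapPlace E g) := by
        rw [gecap_mem_stabilizer_iff hst g x⁻¹]
        right
        have : ((x⁻¹ : ↥H) : GQ) * (g * complexConjugation * g⁻¹) = 1 := by
          rw [Subgroup.coe_inv]
          exact inv_mul_cancel _
        rw [this]
        exact one_mem _
      have h2 := h _ h1
      rw [gecQuotChar_mk, map_inv, inv_eq_one] at h2
      exact h2
    · intro hPg δ hδ
      obtain ⟨h, rfl⟩ := QuotientGroup.mk_surjective δ
      rw [gecap_mem_stabilizer_iff hst g h] at hδ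
      rw [gecQuotChar_mk]
      rcases hδ with hδ | hδ
      · exact hlamN _ hδ
      · have hc : g * complexConjugation * g⁻¹ ∈ H := by
          have h1 : g * complexConjugation * g⁻¹ =
              ((h⁻¹ : ↥H) : GQ) * ((h : GQ) * (g * complexConjugation * g⁻¹)) := by
            rw [Subgroup.coe_inv]
            group
          rw [h1]
          exact H.mul_mem (h⁻¹).2 (hEH hδ)
        have h2 := hPg hc
        have h3 : h * ⟨g * complexConjugation * g⁻¹, hc⟩ =
            (⟨(h : GQ) * (g * complexConjugation * g⁻¹), hEH hδ⟩ : ↥H) := rfl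
        have h4 := hlamN _ hδ
        rw [← h3, map_mul, h2, mul_one] at h4
        exact h4
  -- the map `t ↦ Δ w_t`
  set F : ↥R → MulAction.orbitRel.Quotient (GecDelta hst) (InfinitePlace ↥E) := fun t =>
    Quotient.mk'' (gecapPlace E (t : GQ)) with hF
  have hFinj : Function.Injective F := by
    rintro ⟨t, ht⟩ ⟨t', ht'⟩ h
    have h1 : gecapPlace E t ∈ MulAction.orbit (GecDelta hst) (gecapPlace E t') :=
      MulAction.orbitRel_apply.1 (Quotient.exact' h)
    rw [gecap_mem_orbit_iff hEH hst t' t] at h1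
    obtain ⟨h', hh', c', hc', hγ⟩ := h1
    obtain ⟨s, -, hs⟩ := hR t
    have e1 : t = s := hs t ⟨ht, 1, one_mem _, 1, one_mem _, by rw [one_mul, mul_one]⟩
    have e2 : t' = s := hs t' ⟨ht', h', hh', c', hc', hγ⟩
    exact Subtype.ext (e1.trans e2.symm)
  have hFsurj : Function.Surjective F := by
    intro o
    induction o using Quotient.inductionOn' with
    | h x =>
      obtain ⟨g, rfl⟩ := gecapPlace_surjective E x
      obtain ⟨t, ⟨ht, h, hh, c', hc', hγ⟩, -⟩ := hR g
      refine ⟨⟨t, ht⟩, ?_⟩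
      symm
      apply Quotient.sound'
      apply MulAction.orbitRel_apply.2
      exact (gecap_mem_orbit_iff hEH hst t g).2 ⟨h, hh, c', hc', hγ⟩
  have hPQ : ∀ t : ↥R, P (t : GQ) ↔ Q (F t) := by
    rintro ⟨t, ht⟩
    constructor
    · intro hPt x hx
      have h1 : x ∈ MulAction.orbit (GecDelta hst) (gecapPlace E t) :=
        MulAction.orbitRel_apply.1 (Quotient.exact' hx)
      obtain ⟨δ₀, hδ₀⟩ := h1
      obtain ⟨h, rfl⟩ := QuotientGroup.mk_surjective δ₀
      have h2 : x = gecapPlace E ((h : GQ) * t) := by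
        rw [← gecap_smul_place hst h t]
        exact hδ₀.symm
      subst h2
      rw [hcond]
      intro hc
      have hc' : t * complexConjugation * t⁻¹ ∈ H := by
        have h3 : t * complexConjugation * t⁻¹ =
            ((h⁻¹ : ↥H) : GQ) * ((h : GQ) * t * complexConjugation * ((h : GQ) * t)⁻¹) * h := by
          rw [Subgroup.coe_inv]
          group
        rw [h3]
        exact H.mul_mem (H.mul_mem (h⁻¹).2 hc) h.2
      have h4 : (⟨(h : GQ) * t * complexConjugation * ((h : GQ) * t)⁻¹, hc⟩ : ↥H) =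
          h * ⟨t * complexConjugation * t⁻¹, hc'⟩ * h⁻¹ := by
        apply Subtype.ext
        rw [Subgroup.coe_mul, Subgroup.coe_mul, Subgroup.coe_inv]
        show (h : GQ) * t * complexConjugation * ((h : GQ) * t)⁻¹ =
          (h : GQ) * (t * complexConjugation * t⁻¹) * ((h : GQ))⁻¹
        group
      rw [h4, map_mul, map_mul, hPt hc', mul_one, map_inv, mul_inv_cancel]
    · intro hQt
      exact (hcond t).1 (hQt (gecapPlace E t) rfl)
  -- counting
  rw [euOrbCount]
  have hcard : (R.filter P).card = Fintype.card {t : ↥R // P (t : GQ)} := by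
    rw [Fintype.card_subtype]
    rw [← Finset.card_map (Function.Embedding.subtype (· ∈ R))]
    congr 1
    ext t
    simp only [Finset.mem_filter, Finset.mem_map, Finset.mem_univ, true_and,
      Function.Embedding.coe_subtype]
    constructor
    · rintro ⟨ht, hPt⟩
      exact ⟨⟨t, ht⟩, hPt, rfl⟩
    · rintro ⟨⟨t', ht'⟩, hPt, rfl⟩
      exact ⟨ht', hPt⟩
  rw [hcard, ← Nat.card_eq_fintype_card]
  exact (Nat.card_congr ((Equiv.ofBijective F ⟨hFinj, hFsurj⟩).subtypeEquiv hPQ)).symm

end Count

end Fermat.Agent.S56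
end
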