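/-
S56 / GEC: two small `Prop`-valued lemmas which occur INSIDE the statements of the leaves
(`gecStar_ker` in G3/G16, `gec_gkDelta_stable` in G9), now PROVED (sorry-free).  Leaf files import
THIS file (never `Gec/Spec.lean`).

Also exported: `gec_lgPlace_comp` (the place induced by `i ∘ δ` is `δ⁻¹ •` the place induced by `i`),
`gec_pow_transfer` (being a local `p`-th power is transported by `δ`, for ARBITRARY local embedding
data at `v` and `δ⁻¹ v`), `gec_cycloChar_eq_one_of_fix`.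
-/
import Fermat.Agent.S56.Gec.MainDefs
import Fermat.Agent.S55.SB.Root
import Fermat.Agent.S55.LG.Exists
import Fermat.Agent.S55.LG.Dense

set_option autoImplicit false

noncomputable section

namespace Fermat.Agent.S56

open Fermat.Agent.S55 NumberField IsDedekindDomain ExtCitation

open scoped Pointwise

attribute [local instance] gecPlaceMulAction

theorem gec_cycloChar_eq_one_of_fix {p : ℕ} [Fact p.Prime] {ζ : AlgebraicClosure ℚ}
    (hζ : IsPrimitiveRoot ζ p) (g : GQ) (hg : g ζ = ζ) : cycloChar p g = 1 := by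
  have h1 := sb_cycloChar_spec (p := p) g hζ.pow_eq_one
  rw [hg] at h1
  have h2 : ζ ^ 1 = ζ ^ ((cycloChar p g : (ZMod p)ˣ) : ZMod p).val := by rw [pow_one]; exact h1
  have hp1 : 1 < p := (Fact.out : p.Prime).one_lt
  have h3 := hζ.pow_inj hp1 (ZMod.val_lt _) h2
  apply Units.ext
  rw [Units.val_one]
  apply ZMod.val_injective p
  rw [← h3, ZMod.val_one'' (Fact.out : p.Prime).ne_one]

theorem gecStar_ker {p : ℕ} [Fact p.Prime] {k : Type} [Field k] [Algebra (ZMod p) k]
    {H : Subgroup GQ} {E : IntermediateField ℚ (AlgebraicClosure ℚ)} {ζ : AlgebraicClosure ℚ}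
    (hζ : IsPrimitiveRoot ζ p) (hζE : ζ ∈ E) (hst : GecStable H E)
    (ψ : ↥H →* kˣ) (hψ : (gecRestr hst).ker ≤ ψ.ker) :
    (gecRestr hst).ker ≤ (gecStar p ψ).ker := by
  intro h hh
  have h1 : ψ h = 1 := hψ hh
  rw [mem_gecRestr_ker, IntermediateField.mem_fixingSubgroup_iff] at hh
  have h2 : cycloChar p (h : GQ) = 1 := gec_cycloChar_eq_one_of_fix hζ _ (hh ζ hζE)
  rw [MonoidHom.mem_ker, gecStar_apply, h1, inv_one, mul_one]
  unfold gecOmega
  rw [MonoidHom.comp_apply, h2, map_one]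


section PlaceComp

variable {T : Type} [Field T] [NumberField T] {Δ : Type} [Group Δ] [MulSemiringAction Δ T]

/-- the place induced by `i ∘ δ` is `δ⁻¹ • (the place induced by i)` -/
theorem gec_lgPlace_comp (q : ℕ) [Fact q.Prime] (i : T →+* PadicAlgCl q) (δ : Δ) :
    lgPlace q (i.comp (MulSemiringAction.toRingHom Δ T δ)) = δ⁻¹ • lgPlace q i := by
  apply HeightOneSpectrum.ext
  ext x
  rw [gec_smul_asIdeal, lgPlace_asIdeal, lgPlace_asIdeal, mem_lgIdeal_iff,
    Ideal.mem_inv_pointwise_smul_iff, mem_lgIdeal_iff]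
  rfl

theorem gec_prime_unique {R : Type*} [CommRing R] (P : Ideal R) (hP : P.IsPrime) {q q' : ℕ}
    (hq : q.Prime) (hq' : q'.Prime) (h : (q : R) ∈ P) (h' : (q' : R) ∈ P) : q = q' := by
  by_contra hne
  have hco : Nat.Coprime q q' := (Nat.coprime_primes hq hq').2 hne
  obtain ⟨a, b, hab⟩ := (Nat.isCoprime_iff_coprime.2 hco)
  have h1 : ((a : R) * (q : R) + (b : R) * (q' : R)) = 1 := by
    have := congrArg (Int.cast : ℤ → R) hab
    push_cast at this
    exact this
  apply hP.ne_top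
  rw [Ideal.eq_top_iff_one, ← h1]
  exact P.add_mem (P.mul_mem_left _ h) (P.mul_mem_left _ h')

/-- transfer of "local `p`-th power" along `δ` -/
theorem gec_pow_transfer (p : ℕ) (δ : Δ) (v : HeightOneSpectrum (𝓞 T)) (φ : GkEmb T v)
    (φ' : GkEmb T (δ⁻¹ • v)) (a : Tˣ)
    (h : ∃ c : (lgField φ'.q φ'.emb)ˣ,
      c ^ p = Units.map (lgEmb φ'.q φ'.emb : T →* lgField φ'.q φ'.emb) a) :
    ∃ c : (lgField φ.q φ.emb)ˣ,
      c ^ p = Units.map (lgEmb φ.q φ.emb : T →* lgField φ.q φ.emb) (gecUnitsMap T Δ δ a) := by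
  obtain ⟨q, hq, emb, hpl⟩ := φ
  obtain ⟨q', hq', emb', hpl'⟩ := φ'
  have hqq : q = q' := by
    refine gec_prime_unique (δ⁻¹ • v).asIdeal (δ⁻¹ • v).isPrime hq.out hq'.out ?_ ?_
    · have h1 : ((q : ℕ) : 𝓞 T) ∈ v.asIdeal := by
        rw [← hpl]
        exact natCast_mem_lgIdeal q emb
      have h2 : δ⁻¹ • (((q : ℕ) : 𝓞 T)) = (((q : ℕ) : 𝓞 T)) := by
        apply Subtype.ext
        show δ⁻¹ • ((((q : ℕ) : 𝓞 T)) : T) = ((((q : ℕ) : 𝓞 T)) : T)
        have : ((((q : ℕ) : 𝓞 T)) : T) = ((q : ℕ) : T) := by simp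
        rw [this]
        exact map_natCast (MulSemiringAction.toRingHom Δ T δ⁻¹) _
      rw [gec_smul_asIdeal, ← h2]
      exact Ideal.smul_mem_pointwise_smul δ⁻¹ _ _ h1
    · rw [← hpl']
      exact natCast_mem_lgIdeal q' emb'
  subst hqq
  obtain ⟨c', hc'⟩ := h
  have hplace : lgPlace q emb' = lgPlace q (emb.comp (MulSemiringAction.toRingHom Δ T δ)) := by
    rw [gec_lgPlace_comp, hpl, hpl']
  obtain ⟨τ, hτ⟩ := (lgPlace_eq_iff q emb' _).mp hplace
  -- `τ c'` lies in the local field of `emb`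
  have hmem : τ ((c' : lgField q emb') : PadicAlgCl q) ∈ lgField q emb := by
    have h1 : τ ((c' : lgField q emb') : PadicAlgCl q) ∈
        (lgField q emb').map (τ : PadicAlgCl q →ₐ[ℚ_[q]] PadicAlgCl q) :=
      ⟨_, (c' : lgField q emb').2, rfl⟩
    rw [← lgField_comp_algEquiv, ← hτ] at h1
    refine (?_ : lgField q (emb.comp (MulSemiringAction.toRingHom Δ T δ)) ≤ lgField q emb) h1
    rw [lgField, IntermediateField.adjoin_le_iff]
    rintro _ ⟨x, rfl⟩
    exact range_le_lgField q emb _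
  have hne : (⟨τ ((c' : lgField q emb') : PadicAlgCl q), hmem⟩ : lgField q emb) ≠ 0 := by
    intro h0
    have h1 : τ ((c' : lgField q emb') : PadicAlgCl q) = 0 := congrArg Subtype.val h0
    have h2 : ((c' : lgField q emb') : PadicAlgCl q) = 0 := by
      rw [← map_zero τ] at h1
      exact τ.injective h1
    exact c'.ne_zero (Subtype.ext h2)
  refine ⟨Units.mk0 _ hne, ?_⟩
  apply Units.ext
  apply Subtype.ext
  rw [Units.val_pow_eq_pow_val, Units.val_mk0, SubmonoidClass.coe_pow]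
  show (τ ((c' : lgField q emb') : PadicAlgCl q)) ^ p = emb (δ • (a : T))
  have h3 : (((c' : lgField q emb') : PadicAlgCl q)) ^ p = emb' (a : T) := by
    have := congrArg (fun u : (lgField q emb')ˣ => ((u : lgField q emb') : PadicAlgCl q)) hc'
    simpa using this
  rw [← map_pow, h3]
  have h4 := congrArg (fun f : T →+* PadicAlgCl q => f (a : T)) hτ
  exact h4.symm

end PlaceComp

/-- `Δ_S` is `Δ`-stable (being a `p`-th power in the completion at `v` does not depend on the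
embedding inducing `v`: `lgPlace_eq_iff`) -/
theorem gec_gkDelta_stable (T : Type) [Field T] [NumberField T] (Δ : Type) [Group Δ]
    [MulSemiringAction Δ T] (p : ℕ) [Fact p.Prime]
    (Φ : ∀ v : HeightOneSpectrum (𝓞 T), GkEmb T v)
    (Sset : Set (HeightOneSpectrum (𝓞 T)))
    (hS : ∀ (δ : Δ) (v : HeightOneSpectrum (𝓞 T)), v ∈ Sset → δ • v ∈ Sset)
    (δ : Δ) (a : Tˣ) (ha : a ∈ gkDelta Φ Sset p) : gecUnitsMap T Δ δ a ∈ gkDelta Φ Sset p := by
  rw [mem_gkDelta_iff] at ha ⊢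
  refine ⟨gkV_stable T Δ Sset p hS δ a ha.1, fun v hv => ?_⟩
  have hu : δ⁻¹ • v ∈ Sset := hS δ⁻¹ v hv
  exact gec_pow_transfer p δ v (Φ v) (Φ (δ⁻¹ • v)) a (ha.2 _ hu)

end Fermat.Agent.S56

end
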