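/-
S56 / GEC, leaf G7 (ART): equivariance of the Artin pairing `gkArtin : Δ_S × Div → 𝔽_p`:
`⟨δ a, δ D⟩ = m ⟨a, D⟩` if `δ ζ = ζ ^ m`.  (Symbol transfer along `δ` through an isomorphism of
local fields [`lfSymbol_baseChange` in degree 1], change of the root of unity `lfSymbol_pow_root`,
independence of the uniformizer `gkSym_eq_ord_mul_gkChi`.)  Helper prefix `gecart_`.
-/
import Fermat.Agent.S56.Gec.Stable
import Fermat.Agent.S55.GK.IsotropicB

set_option autoImplicit false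
set_option linter.style.haveILetI false
set_option linter.unusedSectionVars false
set_option linter.unusedVariables false
noncomputable section
namespace Fermat.Agent.S56
open Fermat.Agent.S55 NumberField IsDedekindDomain Fermat.Agent.S14

attribute [local instance] gecPlaceMulAction

/-- the norm residue symbol is invariant under isomorphisms of local fields -/
theorem gecart_lfSymbol_algEquiv (q : ℕ) [Fact q.Prime] (K K' : Type) [Field K] [Field K']
    [Algebra ℚ_[q] K] [FiniteDimensional ℚ_[q] K] [Algebra ℚ_[q] K'] [FiniteDimensional ℚ_[q] K']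
    (e : K ≃ₐ[ℚ_[q]] K') (n : ℕ) [NeZero n] (ζ : K) (hζ : IsPrimitiveRoot ζ n) (a b : Kˣ) :
    lfSymbol q K' n (e ζ) (Units.map (e : K →* K') a) (Units.map (e : K →* K') b) =
      lfSymbol q K n ζ a b := by
  letI : Algebra K K' := (e : K →+* K').toAlgebra
  haveI : IsScalarTower ℚ_[q] K K' :=
    IsScalarTower.of_algebraMap_eq (fun x => (e.commutes x).symm)
  have h1 := lfSymbol_baseChange q K n ζ hζ K' a b
  have h2 : Module.finrank K K' = 1 := by
    have e' : K ≃ₗ[K] K' :=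
      { toFun := e
        invFun := e.symm
        left_inv := e.left_inv
        right_inv := e.right_inv
        map_add' := map_add e
        map_smul' := fun c x => by
          show e (c * x) = (algebraMap K K' c) * e x
          rw [map_mul]
          rfl }
    rw [← e'.finrank_eq, Module.finrank_self]
  rw [h2, Nat.cast_one, one_mul] at h1
  exact h1

section Transfer

variable {T : Type} [Field T] [NumberField T] {Δ : Type} [Group Δ] [MulSemiringAction Δ T]

theorem gecart_lgField_comp (q : ℕ) [Fact q.Prime] (i : T →+* PadicAlgCl q) (δ : Δ) :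
    lgField q (i.comp (MulSemiringAction.toRingHom Δ T δ)) = lgField q i := by
  rw [lgField, lgField]
  congr 1
  ext z
  constructor
  · rintro ⟨x, rfl⟩
    exact ⟨δ • x, rfl⟩
  · rintro ⟨x, rfl⟩
    exact ⟨δ⁻¹ • x, by
      show i (δ • δ⁻¹ • x) = i x
      rw [smul_inv_smul]⟩

/-- transfer of the local symbol along `δ` -/
theorem gecart_sym_transfer (p : ℕ) [Fact p.Prime] (δ : Δ) (v : HeightOneSpectrum (𝓞 T))
    (φ : GkEmb T (δ • v)) (φ' : GkEmb T v) (ζ₀ : T) (hζ₀ : IsPrimitiveRoot ζ₀ p) (x y : Tˣ) :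
    lfSymbol φ.q (lgField φ.q φ.emb) p (lgEmb φ.q φ.emb (δ • ζ₀))
        (Units.map (lgEmb φ.q φ.emb : T →* lgField φ.q φ.emb) (gecUnitsMap T Δ δ x))
        (Units.map (lgEmb φ.q φ.emb : T →* lgField φ.q φ.emb) (gecUnitsMap T Δ δ y)) =
      lfSymbol φ'.q (lgField φ'.q φ'.emb) p (lgEmb φ'.q φ'.emb ζ₀)
        (Units.map (lgEmb φ'.q φ'.emb : T →* lgField φ'.q φ'.emb) x)
        (Units.map (lgEmb φ'.q φ'.emb : T →* lgField φ'.q φ'.emb) y) := by
  obtain ⟨q, hq, emb, hpl⟩ := φ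
  obtain ⟨q', hq', emb', hpl'⟩ := φ'
  have hqq : q = q' := by
    refine gec_prime_unique v.asIdeal v.isPrime hq.out hq'.out ?_ ?_
    · have h1 : ((q : ℕ) : 𝓞 T) ∈ (δ • v).asIdeal := by
        rw [← hpl]
        exact natCast_mem_lgIdeal q emb
      have h2 : δ⁻¹ • (((q : ℕ) : 𝓞 T)) = (((q : ℕ) : 𝓞 T)) := by
        apply Subtype.ext
        show δ⁻¹ • ((((q : ℕ) : 𝓞 T)) : T) = ((((q : ℕ) : 𝓞 T)) : T)
        have : ((((q : ℕ) : 𝓞 T)) : T) = ((q : ℕ) : T) := by simp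
        rw [this]
        exact map_natCast (MulSemiringAction.toRingHom Δ T δ⁻¹) _
      have h3 : v.asIdeal = (δ⁻¹ • (δ • v)).asIdeal := by
        rw [inv_smul_smul]
      rw [h3, gec_smul_asIdeal, ← h2]
      exact Ideal.smul_mem_pointwise_smul δ⁻¹ _ _ h1
    · rw [← hpl']
      exact natCast_mem_lgIdeal q' emb'
  subst hqq
  have hplace : lgPlace q emb' = lgPlace q (emb.comp (MulSemiringAction.toRingHom Δ T δ)) := by
    rw [gec_lgPlace_comp, hpl, hpl', inv_smul_smul]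
  obtain ⟨τ, hτ⟩ := (lgPlace_eq_iff q emb' _).mp hplace
  have hfield : (lgField q emb').map (τ : PadicAlgCl q →ₐ[ℚ_[q]] PadicAlgCl q) = lgField q emb := by
    rw [← lgField_comp_algEquiv, ← hτ, gecart_lgField_comp]
  set e : lgField q emb' ≃ₐ[ℚ_[q]] lgField q emb :=
    ((lgField q emb').equivMap (τ : PadicAlgCl q →ₐ[ℚ_[q]] PadicAlgCl q)).trans
      (IntermediateField.equivOfEq hfield) with he
  have hemb : ∀ z : T, e (lgEmb q emb' z) = lgEmb q emb (δ • z) := by
    intro z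
    apply Subtype.ext
    have h4 := congrArg (fun f : T →+* PadicAlgCl q => f z) hτ
    exact h4.symm
  have hζloc : IsPrimitiveRoot (lgEmb q emb' ζ₀) p :=
    hζ₀.map_of_injective (lgEmb_injective q emb')
  have key := gecart_lfSymbol_algEquiv q (lgField q emb') (lgField q emb) e p
    (lgEmb q emb' ζ₀) hζloc
    (Units.map (lgEmb q emb' : T →* lgField q emb') x)
    (Units.map (lgEmb q emb' : T →* lgField q emb') y)
  rw [← key, hemb]
  congr 1
  · apply Units.ext
    exact (hemb _).symm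
  · apply Units.ext
    exact (hemb _).symm

end Transfer


section Main

variable (T : Type) [Field T] [NumberField T] (Δ : Type) [Group Δ] [MulSemiringAction Δ T]
  (p : ℕ) [Fact p.Prime]

/-- `(π_{δ v}, δ a)_{δ v} = m (π_v, a)_v` for `a ∈ V_S`, `v ∉ S`, `δ ζ = ζ ^ m` -/
theorem gecart_gkChi_smul (ζ : T) (hζ : IsPrimitiveRoot ζ p)
    (Φ : ∀ v : HeightOneSpectrum (𝓞 T), GkEmb T v) (Sset : Set (HeightOneSpectrum (𝓞 T)))
    (hSp : ∀ v : HeightOneSpectrum (𝓞 T), ((p : ℕ) : 𝓞 T) ∈ v.asIdeal → v ∈ Sset)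
    (δ : Δ) (m : ℕ) (hm : δ • ζ = ζ ^ m) (a : Tˣ) (ha : a ∈ gkV T Sset p)
    (v : HeightOneSpectrum (𝓞 T)) (hv : v ∉ Sset) :
    gkChi Φ p ζ (δ • v) (gecUnitsMap T Δ δ a) = (m : ZMod p) * gkChi Φ p ζ v a := by
  have hp : p.Prime := Fact.out
  set ζ' : T := δ⁻¹ • ζ with hζ'
  set π' : Tˣ := gecUnitsMap T Δ δ⁻¹ (gkUnif T (δ • v)) with hπ'
  have h1 : δ • ζ' = ζ := smul_inv_smul δ ζ
  have h2 : gecUnitsMap T Δ δ π' = gkUnif T (δ • v) := by
    apply Units.ext
    show δ • (δ⁻¹ • ((gkUnif T (δ • v) : Tˣ) : T)) = _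
    rw [smul_inv_smul]
  have hζ'prim : IsPrimitiveRoot ζ' p :=
    hζ.map_of_injective (f := MulSemiringAction.toRingHom Δ T δ⁻¹)
      (MulSemiringAction.toRingHom Δ T δ⁻¹).injective
  have hζ'm : ζ' ^ m = ζ := by
    rw [hζ', ← smul_pow', ← hm, inv_smul_smul]
  have hmcop : m.Coprime p := by
    have h3 : IsPrimitiveRoot (ζ ^ m) p := by
      rw [← hm]
      exact hζ.map_of_injective (f := MulSemiringAction.toRingHom Δ T δ)
        (MulSemiringAction.toRingHom Δ T δ).injective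
    exact (hζ.pow_iff_coprime hp.pos m).1 h3
  -- transfer
  have htr := gecart_sym_transfer p δ v (Φ (δ • v)) (Φ v) ζ' hζ'prim π' a
  rw [h1, h2] at htr
  have hL : gkChi Φ p ζ (δ • v) (gecUnitsMap T Δ δ a) =
      lfSymbol (Φ (δ • v)).q (lgField (Φ (δ • v)).q (Φ (δ • v)).emb) p
        (lgEmb (Φ (δ • v)).q (Φ (δ • v)).emb ζ)
        (Units.map (lgEmb (Φ (δ • v)).q (Φ (δ • v)).emb : T →* _) (gkUnif T (δ • v)))
        (Units.map (lgEmb (Φ (δ • v)).q (Φ (δ • v)).emb : T →* _) (gecUnitsMap T Δ δ a)) := rfl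
  rw [hL, htr]
  -- change of root of unity
  have hloc : IsPrimitiveRoot (lgEmb (Φ v).q (Φ v).emb ζ') p :=
    hζ'prim.map_of_injective (lgEmb_injective (Φ v).q (Φ v).emb)
  have hroot := lfSymbol_pow_root (Φ v).q (lgField (Φ v).q (Φ v).emb) p
    (lgEmb (Φ v).q (Φ v).emb ζ') hloc m hmcop
    (Units.map (lgEmb (Φ v).q (Φ v).emb : T →* _) π')
    (Units.map (lgEmb (Φ v).q (Φ v).emb : T →* _) a)
  rw [← map_pow, hζ'm] at hroot
  rw [← hroot]
  -- independence of the uniformizer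
  have hsym : lfSymbol (Φ v).q (lgField (Φ v).q (Φ v).emb) p (lgEmb (Φ v).q (Φ v).emb ζ)
      (Units.map (lgEmb (Φ v).q (Φ v).emb : T →* _) π')
      (Units.map (lgEmb (Φ v).q (Φ v).emb : T →* _) a) = gkSym Φ p ζ v π' a := rfl
  rw [hsym, gkSym_eq_ord_mul_gkChi Φ p ζ hζ Sset hSp ha π' v hv]
  have hord : divOf T ((π' : Tˣ) : T) v = 1 := by
    rw [gkt_divOf_eq_neg_log _ π'.ne_zero]
    have h3 : v.valuation T ((π' : Tˣ) : T) = (δ • v).valuation T ((gkUnif T (δ • v) : Tˣ) : T) := by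
      have h4 := gec_valuation_smul δ⁻¹ (δ • v) ((gkUnif T (δ • v) : Tˣ) : T)
      rw [inv_smul_smul] at h4
      exact h4
    rw [h3, gkUnif_spec, WithZero.log_exp]
    ring
  rw [hord, Int.cast_one, one_mul]

/-- **G7 ART.** equivariance of the Artin pairing -/
theorem gec_artin_equivariant (hp2 : p ≠ 2) (ζ : T) (hζ : IsPrimitiveRoot ζ p)
    (Φ : ∀ v : HeightOneSpectrum (𝓞 T), GkEmb T v) (Sset : Finset (HeightOneSpectrum (𝓞 T)))
    (hSp : ∀ v : HeightOneSpectrum (𝓞 T), ((p : ℕ) : 𝓞 T) ∈ v.asIdeal → v ∈ Sset)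
    (hS : ∀ (δ : Δ) (v : HeightOneSpectrum (𝓞 T)),
      v ∈ (Sset : Set (HeightOneSpectrum (𝓞 T))) → δ • v ∈ (Sset : Set (HeightOneSpectrum (𝓞 T))))
    (δ : Δ) (m : ℕ) (hm : δ • ζ = ζ ^ m) (a : Tˣ)
    (ha : a ∈ gkDelta Φ (Sset : Set (HeightOneSpectrum (𝓞 T))) p) (D : S14.Div T) :
    gkArtin Φ p ζ (Sset : Set (HeightOneSpectrum (𝓞 T))) (gecUnitsMap T Δ δ a)
        (gecActDiv T Δ δ D) =
      (m : ZMod p) * gkArtin Φ p ζ (Sset : Set (HeightOneSpectrum (𝓞 T))) a D := by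
  classical
  have haV : a ∈ gkV T (Sset : Set (HeightOneSpectrum (𝓞 T))) p := (mem_gkDelta_iff.1 ha).1
  have hSp' : ∀ v : HeightOneSpectrum (𝓞 T), ((p : ℕ) : 𝓞 T) ∈ v.asIdeal →
      v ∈ (Sset : Set (HeightOneSpectrum (𝓞 T))) := fun v hv => Finset.mem_coe.2 (hSp v hv)
  induction D using Finsupp.induction_linear with
  | zero => rw [map_zero, map_zero, map_zero, mul_zero]
  | add D1 D2 h1 h2 => rw [map_add, map_add, map_add, h1, h2, mul_add]
  | single v n =>
    rw [gecActDiv_single, gkArtin_single, gkArtin_single]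
    by_cases hv : v ∈ (Sset : Set (HeightOneSpectrum (𝓞 T)))
    · rw [if_pos (hS δ v hv), if_pos hv, mul_zero]
    · have hv' : δ • v ∉ (Sset : Set (HeightOneSpectrum (𝓞 T))) := by
        intro h
        apply hv
        have := hS δ⁻¹ _ h
        rwa [inv_smul_smul] at this
      rw [if_neg hv', if_neg hv,
        gecart_gkChi_smul T Δ p ζ hζ Φ _ hSp' δ m hm a haV v hv]
      ring

end Main

end Fermat.Agent.S56
end
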