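/-
S56 / GEC leaf G4 (TRANSPOSE): the `χ`-eigenspace of a representation of a finite group of order
invertible in `k` and the `χ`-eigenspace of the transposed action on the dual have the same
dimension.  Pure Mathlib.  (Helper names are prefixed `gectr`.)
-/
import Mathlib

set_option autoImplicit false

noncomputable section

namespace Fermat.Agent.S56

open scoped BigOperators

section Transpose

variable {Δ : Type*} [Group Δ] [Fintype Δ] {k : Type*} [Field k]
  {V : Type*} [AddCommGroup V] [Module k V]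
  (ρ : Representation k Δ V) (χ : Δ →* kˣ)

/-- the `χ`-projector `|Δ|⁻¹ Σ χ(δ)⁻¹ ρ(δ)` -/
def gectrProj : V →ₗ[k] V :=
  ((Fintype.card Δ : k)⁻¹) • ∑ δ : Δ, (((χ δ)⁻¹ : kˣ) : k) • ρ δ

theorem gectrProj_apply (v : V) :
    gectrProj ρ χ v = ((Fintype.card Δ : k)⁻¹) • ∑ δ : Δ, (((χ δ)⁻¹ : kˣ) : k) • ρ δ v := by
  simp [gectrProj, LinearMap.sum_apply]

theorem gectr_rho_sum (δ' : Δ) (v : V) :
    ρ δ' (∑ δ : Δ, (((χ δ)⁻¹ : kˣ) : k) • ρ δ v) =
      ((χ δ' : kˣ) : k) • ∑ δ : Δ, (((χ δ)⁻¹ : kˣ) : k) • ρ δ v := by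
  rw [map_sum, Finset.smul_sum]
  apply Fintype.sum_equiv (Equiv.mulLeft δ')
  intro δ
  rw [map_smul, Equiv.coe_mulLeft, map_mul, mul_inv_rev, Units.val_mul, smul_smul, map_mul,
    Module.End.mul_apply]
  congr 1
  rw [← mul_assoc, mul_comm ((χ δ' : kˣ) : k), mul_assoc, ← Units.val_mul, mul_inv_cancel,
    Units.val_one, mul_one]

theorem gectr_sum_rho (δ' : Δ) (v : V) :
    (∑ δ : Δ, (((χ δ)⁻¹ : kˣ) : k) • ρ δ (ρ δ' v)) =
      ((χ δ' : kˣ) : k) • ∑ δ : Δ, (((χ δ)⁻¹ : kˣ) : k) • ρ δ v := by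
  rw [Finset.smul_sum]
  apply Fintype.sum_equiv (Equiv.mulRight δ')
  intro δ
  rw [Equiv.coe_mulRight, map_mul, mul_inv_rev, Units.val_mul, smul_smul,
    map_mul, Module.End.mul_apply]
  congr 1
  rw [← mul_assoc, ← Units.val_mul, mul_inv_cancel, Units.val_one, one_mul]

theorem gectr_rho_proj (δ' : Δ) (v : V) :
    ρ δ' (gectrProj ρ χ v) = ((χ δ' : kˣ) : k) • gectrProj ρ χ v := by
  rw [gectrProj_apply, map_smul, gectr_rho_sum, smul_comm]

theorem gectr_proj_rho (δ' : Δ) (v : V) :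
    gectrProj ρ χ (ρ δ' v) = ((χ δ' : kˣ) : k) • gectrProj ρ χ v := by
  rw [gectrProj_apply, gectrProj_apply, gectr_sum_rho, smul_comm]

theorem gectr_proj_of_mem (hΔ : (Fintype.card Δ : k) ≠ 0) (v : V)
    (hv : ∀ δ : Δ, ρ δ v = ((χ δ : kˣ) : k) • v) : gectrProj ρ χ v = v := by
  rw [gectrProj_apply]
  have : ∀ δ : Δ, (((χ δ)⁻¹ : kˣ) : k) • ρ δ v = v := by
    intro δ
    rw [hv δ, smul_smul, ← Units.val_mul, inv_mul_cancel, Units.val_one, one_smul]
  rw [Finset.sum_congr rfl fun δ _ => this δ, Finset.sum_const, Finset.card_univ,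
    ← Nat.cast_smul_eq_nsmul k, smul_smul, inv_mul_cancel₀ hΔ, one_smul]

omit [Fintype Δ] in
theorem gectr_mem_iInf_ker (v : V) :
    v ∈ ⨅ δ : Δ, LinearMap.ker (ρ δ - ((χ δ : kˣ) : k) • LinearMap.id) ↔
      ∀ δ : Δ, ρ δ v = ((χ δ : kˣ) : k) • v := by
  rw [Submodule.mem_iInf]
  refine forall_congr' fun δ => ?_
  rw [LinearMap.mem_ker, LinearMap.sub_apply, LinearMap.smul_apply, LinearMap.id_apply,
    sub_eq_zero]

omit [Fintype Δ] in
theorem gectr_mem_iInf_ker_dual (f : Module.Dual k V) :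
    f ∈ ⨅ δ : Δ, LinearMap.ker ((ρ δ).dualMap - ((χ δ : kˣ) : k) • LinearMap.id) ↔
      ∀ (δ : Δ) (v : V), f (ρ δ v) = ((χ δ : kˣ) : k) * f v := by
  rw [Submodule.mem_iInf]
  refine forall_congr' fun δ => ?_
  rw [LinearMap.mem_ker, LinearMap.sub_apply, LinearMap.smul_apply, LinearMap.id_apply,
    sub_eq_zero, LinearMap.ext_iff]
  refine forall_congr' fun v => ?_
  rw [LinearMap.dualMap_apply, LinearMap.smul_apply, smul_eq_mul]

theorem gectr_range_proj (hΔ : (Fintype.card Δ : k) ≠ 0) :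
    LinearMap.range (gectrProj ρ χ) =
      ⨅ δ : Δ, LinearMap.ker (ρ δ - ((χ δ : kˣ) : k) • LinearMap.id) := by
  ext v
  rw [gectr_mem_iInf_ker]
  constructor
  · rintro ⟨w, rfl⟩ δ
    exact gectr_rho_proj ρ χ δ w
  · intro hv
    exact ⟨v, gectr_proj_of_mem ρ χ hΔ v hv⟩

theorem gectr_range_proj_dual (hΔ : (Fintype.card Δ : k) ≠ 0) :
    LinearMap.range (gectrProj ρ χ).dualMap =
      ⨅ δ : Δ, LinearMap.ker ((ρ δ).dualMap - ((χ δ : kˣ) : k) • LinearMap.id) := by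
  ext f
  rw [gectr_mem_iInf_ker_dual]
  constructor
  · rintro ⟨g, rfl⟩ δ v
    rw [LinearMap.dualMap_apply, LinearMap.dualMap_apply, gectr_proj_rho, map_smul, smul_eq_mul]
  · intro hf
    refine ⟨f, ?_⟩
    ext v
    rw [LinearMap.dualMap_apply, gectrProj_apply, map_smul, map_sum]
    have : ∀ δ : Δ, f ((((χ δ)⁻¹ : kˣ) : k) • ρ δ v) = f v := by
      intro δ
      rw [map_smul, hf δ v, smul_eq_mul, ← mul_assoc, ← Units.val_mul, inv_mul_cancel,
        Units.val_one, one_mul]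
    rw [Finset.sum_congr rfl fun δ _ => this δ, Finset.sum_const, Finset.card_univ, smul_eq_mul,
      nsmul_eq_mul, ← mul_assoc, inv_mul_cancel₀ hΔ, one_mul]

end Transpose

/-- **G4 TRANSPOSE.** the `χ`-eigenspace of a representation of a finite group of order invertible
in `k` and the `χ`-eigenspace of the transposed action on the dual have the same dimension. -/
theorem gec_transpose {Δ : Type*} [Group Δ] [Finite Δ] {k : Type*} [Field k]
    (hΔ : (Nat.card Δ : k) ≠ 0) {V : Type*} [AddCommGroup V] [Module k V] [FiniteDimensional k V]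
    (ρ : Representation k Δ V) (χ : Δ →* kˣ) :
    Module.finrank k ↥(⨅ δ : Δ, LinearMap.ker (ρ δ - ((χ δ : kˣ) : k) • LinearMap.id)) =
      Module.finrank k
        ↥(⨅ δ : Δ, LinearMap.ker ((ρ δ).dualMap - ((χ δ : kˣ) : k) • LinearMap.id)) := by
  have : Fintype Δ := Fintype.ofFinite Δ
  have hΔ' : (Fintype.card Δ : k) ≠ 0 := by rwa [← Nat.card_eq_fintype_card]
  rw [← gectr_range_proj ρ χ hΔ', ← gectr_range_proj_dual ρ χ hΔ',
    LinearMap.finrank_range_dualMap_eq_finrank_range]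

end Fermat.Agent.S56
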