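/-
S56 / GEC leaf G8 (DUAL), helper4: a perfect `Δ`-equivariant (up to `ω`) pairing `A × C → 𝔽_p` of
finite abelian groups gives `d_μ(A) = d_{ω μ⁻¹}(C)`.
Statement `gec_dual_pairing` VERBATIM from `Gec/Spec.lean` (helper9).  Uses G4 `gec_transpose`
(`Gec/Transpose.lean`, helper12) and the `d_χ` toolbox `EU/Algebra.lean` (helper2).
Helper names are prefixed `gecdp`.
-/
import Fermat.Agent.S56.EU.Algebra
import Fermat.Agent.S56.Gec.Transpose

set_option autoImplicit false

noncomputable section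

namespace Fermat.Agent.S56

/-- a group with a left non-degenerate pairing into `ZMod p` is killed by `p` -/
theorem gecdp_nsmul_eq_zero {p : ℕ} {A C : Type*} [AddCommGroup A] [AddCommGroup C]
    (β : A →+ C →+ ZMod p) (hl : ∀ a, (∀ c, β a c = 0) → a = 0) (a : A) :
    p • a = 0 := by
  apply hl
  intro c
  rw [map_nsmul, AddMonoidHom.nsmul_apply, nsmul_eq_mul, ZMod.natCast_self, zero_mul]

section DualPairing

variable {p : ℕ} [Fact p.Prime] {k : Type*} [Field k] [Algebra (ZMod p) k]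
  {A C : Type*} [AddCommGroup A] [AddCommGroup C]

/-- `a ↦ (c ↦ β a c)` with values in `k` -/
def gecdpBk (β : A →+ C →+ ZMod p) : A →+ (C →+ k) :=
  (AddMonoidHom.compHom (algebraMap (ZMod p) k).toAddMonoidHom).comp β

theorem gecdpBk_apply (β : A →+ C →+ ZMod p) (a : A) (c : C) :
    gecdpBk (k := k) β a c = algebraMap (ZMod p) k (β a c) := rfl

/-- `C →+ k` is finite-dimensional for finite `C` -/
theorem gecdp_finite [Finite C] : Module.Finite k (C →+ k) := by
  let F : (C →+ k) →ₗ[k] (C → k) :=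
    { toFun := fun g => g
      map_add' := fun _ _ => rfl
      map_smul' := fun _ _ => rfl }
  exact Module.Finite.of_injective F (fun g g' h => DFunLike.coe_injective h)

/-- the maps `c ↦ β a c` span `C →+ k`: a functional killing all of them is zero
(version with given `ZMod p`-module structures). -/
theorem gecdp_span_aux [Module (ZMod p) A] [Module (ZMod p) C] [Finite A] [Finite C]
    (β : A →+ C →+ ZMod p) (hr : ∀ c, (∀ a, β a c = 0) → c = 0)
    (lam : Module.Dual k (C →+ k)) (hlam : ∀ a, lam (gecdpBk β a) = 0) : lam = 0 := by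
  classical
  let βl : A →+ (C →ₗ[ZMod p] ZMod p) :=
    { toFun := fun a => (β a).toZModLinearMap p
      map_zero' := by
        ext c
        rw [AddMonoidHom.coe_toZModLinearMap, map_zero]
        rfl
      map_add' := by
        intro a a'
        ext c
        rw [AddMonoidHom.coe_toZModLinearMap, map_add]
        rfl }
  let B : A →ₗ[ZMod p] C →ₗ[ZMod p] ZMod p := βl.toZModLinearMap p
  have hB : ∀ a c, B a c = β a c := fun a c => rfl
  have hinj : Function.Injective B.flip := by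
    rw [injective_iff_map_eq_zero]
    intro c hc
    apply hr
    intro a
    exact LinearMap.congr_fun hc a
  have hsurj : Function.Surjective B := LinearMap.flip_injective_iff₁.mp hinj
  let b := Module.finBasis (ZMod p) C
  choose a ha using fun i => hsurj (b.coord i)
  have hg : ∀ g : C →+ k, g = ∑ i, g (b i) • gecdpBk (k := k) β (a i) := by
    intro g
    have h1 : (g.toZModLinearMap p : C →ₗ[ZMod p] k)
        = (∑ i, g (b i) • gecdpBk (k := k) β (a i)).toZModLinearMap p := by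
      apply b.ext
      intro j
      rw [AddMonoidHom.coe_toZModLinearMap, AddMonoidHom.coe_toZModLinearMap,
        AddMonoidHom.finset_sum_apply, Finset.sum_eq_single j]
      · rw [AddMonoidHom.smul_apply, gecdpBk_apply, ← hB, ha, Module.Basis.coord_apply,
          Module.Basis.repr_self, Finsupp.single_eq_same, map_one, smul_eq_mul, mul_one]
      · intro i _ hij
        rw [AddMonoidHom.smul_apply, gecdpBk_apply, ← hB, ha, Module.Basis.coord_apply,
          Module.Basis.repr_self, Finsupp.single_eq_of_ne hij, map_zero, smul_zero]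
      · intro h
        exact absurd (Finset.mem_univ j) h
    ext c
    exact LinearMap.congr_fun h1 c
  ext g
  have h2 : lam g = lam (∑ i, g (b i) • gecdpBk (k := k) β (a i)) := by rw [← hg g]
  rw [h2, map_sum, LinearMap.zero_apply]
  apply Finset.sum_eq_zero
  intro i _
  rw [map_smul, hlam, smul_zero]

/-- the maps `c ↦ β a c` span `C →+ k`: a functional killing all of them is zero. -/
theorem gecdp_span [Finite A] [Finite C] (β : A →+ C →+ ZMod p)
    (hl : ∀ a, (∀ c, β a c = 0) → a = 0) (hr : ∀ c, (∀ a, β a c = 0) → c = 0)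
    (lam : Module.Dual k (C →+ k)) (hlam : ∀ a, lam (gecdpBk β a) = 0) : lam = 0 :=
  @gecdp_span_aux p _ k _ _ A C _ _ (AddCommGroup.zmodModule (gecdp_nsmul_eq_zero β hl))
    (AddCommGroup.zmodModule (gecdp_nsmul_eq_zero β.flip hr)) _ _ β hr lam hlam

section Rep

variable {Δ : Type*} [Group Δ]

/-- the representation of `Δ` on `C →+ k`: `(δ g)(c) = g (δ⁻¹ c)` -/
def gecdpRep (ρC : EuAct Δ C) : Representation k Δ (C →+ k) where
  toFun δ :=
    { toFun := fun g => g.comp (ρC δ⁻¹)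
      map_add' := fun _ _ => rfl
      map_smul' := fun _ _ => rfl }
  map_one' := by
    ext g c
    show g (ρC (1 : Δ)⁻¹ c) = g c
    rw [inv_one, map_one]
    rfl
  map_mul' := by
    intro δ δ'
    ext g c
    show g (ρC (δ * δ')⁻¹ c) = g (ρC δ'⁻¹ (ρC δ⁻¹ c))
    rw [mul_inv_rev, map_mul]
    rfl

theorem gecdpRep_apply (ρC : EuAct Δ C) (δ : Δ) (g : C →+ k) (c : C) :
    gecdpRep ρC δ g c = g (ρC δ⁻¹ c) := rfl

/-- the `χ`-eigenspace of `gecdpRep` is `Hom_Δ(C, k(χ⁻¹))` -/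
theorem gecdp_eigen_eq (ρC : EuAct Δ C) (χ : Δ →* kˣ) :
    (⨅ δ : Δ, LinearMap.ker (gecdpRep (k := k) ρC δ - ((χ δ : kˣ) : k) • LinearMap.id))
      = euX χ⁻¹ ρC := by
  ext g
  rw [gectr_mem_iInf_ker, mem_euX]
  constructor
  · intro h δ c
    have h1 := DFunLike.congr_fun (h δ⁻¹) c
    rw [gecdpRep_apply, inv_inv, AddMonoidHom.smul_apply, smul_eq_mul] at h1
    rw [h1, MonoidHom.inv_apply, map_inv χ δ]
  · intro h δ
    ext c
    have h1 := h δ⁻¹ c
    rw [MonoidHom.inv_apply, map_inv χ δ, inv_inv] at h1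
    rw [gecdpRep_apply, h1, AddMonoidHom.smul_apply, smul_eq_mul]

end Rep

section LE

variable {Δ : Type*} [Group Δ] [Finite Δ] [Finite A] [Finite C]

/-- one inequality: `d_{ω μ⁻¹}(C) ≤ d_μ(A)`. -/
theorem gecdp_le (hΔ : (Nat.card Δ).Coprime p)
    (ρA : EuAct Δ A) (ρC : EuAct Δ C) (β : A →+ C →+ ZMod p)
    (hl : ∀ a, (∀ c, β a c = 0) → a = 0) (hr : ∀ c, (∀ a, β a c = 0) → c = 0)
    (ω : Δ →* (ZMod p)ˣ)
    (hβ : ∀ δ a c, β (ρA δ a) (ρC δ c) = ((ω δ : (ZMod p)ˣ) : ZMod p) * β a c)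
    (μ : Δ →* kˣ) :
    euDim ((Units.map (algebraMap (ZMod p) k : ZMod p →* k)).comp ω * μ⁻¹) ρC ≤ euDim μ ρA := by
  classical
  have : Fintype Δ := Fintype.ofFinite Δ
  have : CharP k p := charP_of_injective_algebraMap (algebraMap (ZMod p) k).injective p
  set ω' : Δ →* kˣ := (Units.map (algebraMap (ZMod p) k : ZMod p →* k)).comp ω with hω'
  have hω'val : ∀ δ, ((ω' δ : kˣ) : k) = algebraMap (ZMod p) k ((ω δ : (ZMod p)ˣ) : ZMod p) :=
    fun δ => rfl
  set χ : Δ →* kˣ := ω'⁻¹ * μ with hχ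
  have hχinv : χ⁻¹ = ω' * μ⁻¹ := by
    apply MonoidHom.ext
    intro δ
    rw [hχ, MonoidHom.inv_apply, MonoidHom.mul_apply, MonoidHom.mul_apply, MonoidHom.inv_apply,
      MonoidHom.inv_apply, mul_inv_rev, inv_inv, mul_comm]
  have hfin : Module.Finite k (C →+ k) := gecdp_finite
  have hcard : (Nat.card Δ : k) ≠ 0 := by
    rw [Nat.card_eq_fintype_card]; exact eu_card_ne_zero p hΔ
  have h4 := gec_transpose hcard (gecdpRep (k := k) ρC) χ
  rw [gecdp_eigen_eq, hχinv] at h4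
  show Module.finrank k (euX (ω' * μ⁻¹) ρC) ≤ Module.finrank k (euX μ ρA)
  rw [h4]
  set D := ⨅ δ : Δ, LinearMap.ker
    ((gecdpRep (k := k) ρC δ).dualMap - ((χ δ : kˣ) : k) • LinearMap.id) with hD
  -- `Θ lam = lam ∘ βk`
  let Θ : Module.Dual k (C →+ k) →ₗ[k] (A →+ k) :=
    { toFun := fun lam => lam.toAddMonoidHom.comp (gecdpBk β)
      map_add' := fun _ _ => rfl
      map_smul' := fun _ _ => rfl }
  have hΘapp : ∀ lam a, Θ lam a = lam (gecdpBk β a) := fun _ _ => rfl
  -- `βk (δ a) = ω(δ) • δ (βk a)`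
  have hbk : ∀ δ a, gecdpBk (k := k) β (ρA δ a)
      = ((ω' δ : kˣ) : k) • gecdpRep (k := k) ρC δ (gecdpBk β a) := by
    intro δ a
    ext c
    rw [AddMonoidHom.smul_apply, gecdpRep_apply, gecdpBk_apply, gecdpBk_apply, smul_eq_mul,
      hω'val, ← map_mul, ← hβ]
    congr 2
    show c = (ρC δ * ρC δ⁻¹) c
    rw [← map_mul, mul_inv_cancel, map_one]
    rfl
  have hΘ : ∀ lam ∈ D, Θ lam ∈ euX μ ρA := by
    intro lam hlam
    rw [hD, gectr_mem_iInf_ker_dual] at hlam
    rw [mem_euX]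
    intro δ a
    rw [hΘapp, hΘapp, hbk, map_smul, hlam, smul_eq_mul, ← mul_assoc, hχ, MonoidHom.mul_apply,
      MonoidHom.inv_apply, Units.val_mul, ← mul_assoc, ← Units.val_mul, mul_inv_cancel,
      Units.val_one, one_mul]
  let Θ' : D →ₗ[k] euX μ ρA :=
    (Θ.comp D.subtype).codRestrict (euX μ ρA) (fun lam => hΘ lam.1 lam.2)
  have : Module.Finite k (euX μ ρA) := eu_finite μ ρA
  apply LinearMap.finrank_le_finrank_of_injective (f := Θ')
  rw [injective_iff_map_eq_zero]
  intro x hx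
  apply Subtype.ext
  apply gecdp_span β hl hr
  intro a
  have h1 : (Θ' x : A →+ k) a = 0 := by rw [hx]; rfl
  exact h1

end LE

end DualPairing

/-- **G8 DUAL.** a perfect pairing `β : A × C → 𝔽_p` of finite abelian groups with
`β (δ a) (δ c) = ω(δ) β a c` gives `d_μ(A) = d_{ω μ⁻¹}(C)`.
(`Hom(A, k) ≅ C ⊗ k` via `x ↦ (a ↦ β(a, x))`; `F_x (δ a) = ω(δ) F_{δ⁻¹ x} (a)`, so `F_x ∈ euX μ ρA` iff
`δ x = (ω μ⁻¹)(δ) x`; then G4 on `C ⊗ k`, whose dual is `Hom(C, k)`.) -/
theorem gec_dual_pairing {Δ : Type*} [Group Δ] [Finite Δ] {p : ℕ} [Fact p.Prime]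
    {k : Type*} [Field k] [Algebra (ZMod p) k] (hΔ : (Nat.card Δ).Coprime p)
    {A C : Type*} [AddCommGroup A] [AddCommGroup C] [Finite A] [Finite C]
    (ρA : EuAct Δ A) (ρC : EuAct Δ C) (β : A →+ C →+ ZMod p)
    (hl : ∀ a, (∀ c, β a c = 0) → a = 0) (hr : ∀ c, (∀ a, β a c = 0) → c = 0)
    (ω : Δ →* (ZMod p)ˣ)
    (hβ : ∀ δ a c, β (ρA δ a) (ρC δ c) = ((ω δ : (ZMod p)ˣ) : ZMod p) * β a c)
    (μ : Δ →* kˣ) :
    euDim μ ρA =
      euDim ((Units.map (algebraMap (ZMod p) k : ZMod p →* k)).comp ω * μ⁻¹) ρC := by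
  apply le_antisymm
  · have h := gecdp_le (k := k) hΔ ρC ρA β.flip hr hl ω (fun δ c a => hβ δ a c)
      ((Units.map (algebraMap (ZMod p) k : ZMod p →* k)).comp ω * μ⁻¹)
    have hμ : (Units.map (algebraMap (ZMod p) k : ZMod p →* k)).comp ω *
        ((Units.map (algebraMap (ZMod p) k : ZMod p →* k)).comp ω * μ⁻¹)⁻¹ = μ := by
      apply MonoidHom.ext
      intro δ
      rw [MonoidHom.mul_apply, MonoidHom.inv_apply, MonoidHom.mul_apply, MonoidHom.inv_apply,
        mul_inv_rev, inv_inv, mul_comm, mul_assoc, inv_mul_cancel, mul_one]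
    rwa [hμ] at h
  · exact gecdp_le hΔ ρA ρC β hl hr ω hβ μ


end Fermat.Agent.S56
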