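/-
S56 / GEC, leaf G9 (row 426): `gec_artin_duality` (statement VERBATIM from `Gec/Spec.lean`).

`d_μ(Δ_S/Tˣᵖ) = d_{ω μ⁻¹}(Cl_S/p)`: the Artin pairing `Δ_S/Tˣᵖ × Cl_S/p → 𝔽_p`,
`(a, D) ↦ gkArtin Φ p ζ S a D`, is well defined (`gkArtin_mul`, `gkArtin_eq_zero_of_mem_gkClSub`),
has trivial left kernel (`gk_loc_pow_of_gkArtin_eq_zero` + `gk_pow_of_locally_pow`), hence is perfect
because the two groups have the same order (`gk_relIndex_delta_eq`, `gecad_right_nondeg`), and is
equivariant up to `ω` (G7 `gec_artin_equivariant`, `Gec/Art.lean`); conclude by G8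
`gec_dual_pairing` (`Gec/DualPairing.lean`).  Helper names are prefixed `gecad_`.
-/
import Fermat.Agent.S56.Gec.Art
import Fermat.Agent.S56.Gec.DualPairing
import Fermat.Agent.S55.GK.DeltaLe
import Fermat.Agent.S55.GK.Final

set_option autoImplicit false
set_option linter.unusedVariables false
set_option linter.unusedSectionVars false

noncomputable section

namespace Fermat.Agent.S56

open Fermat.Agent.S55 NumberField IsDedekindDomain ExtCitation

attribute [local instance] gecPlaceMulAction gecInfPlaceMulAction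

/-! ## abstract: right non-degeneracy from left non-degeneracy and a count -/

section Abstract

/-- a pairing `A × C → ℤ/p` of finite abelian groups with trivial left kernel and `|C| ≤ |A|` has
trivial right kernel -/
theorem gecad_right_nondeg (p : ℕ) [NeZero p] {A C : Type*} [AddCommGroup A] [AddCommGroup C]
    [Finite A] [Finite C] (β : A →+ C →+ ZMod p) (hl : ∀ a, (∀ c, β a c = 0) → a = 0)
    (hcard : Nat.card C ≤ Nat.card A) : ∀ c, (∀ a, β a c = 0) → c = 0 := by
  -- the right kernel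
  let C₀ : AddSubgroup C :=
    { carrier := {c | ∀ a, β a c = 0}
      zero_mem' := fun a => map_zero _
      add_mem' := fun {c c'} hc hc' a => by rw [map_add, hc a, hc' a, add_zero]
      neg_mem' := fun {c} hc a => by rw [map_neg, hc a, neg_zero] }
  let Ψ : A → (C ⧸ C₀ →+ ZMod p) := fun a => QuotientAddGroup.lift C₀ (β a) (fun c hc => hc a)
  have hΨ : Function.Injective Ψ := by
    intro a a' h
    have h1 : ∀ c, β (a - a') c = 0 := by
      intro c
      have h2 := DFunLike.congr_fun h (QuotientAddGroup.mk c : C ⧸ C₀)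
      have h3 : β a c = β a' c := h2
      rw [map_sub, AddMonoidHom.sub_apply, h3, sub_self]
    exact sub_eq_zero.1 (hl _ h1)
  obtain ⟨hfin, hle⟩ := gkd_card_hom_le p (C ⧸ C₀)
  have h1 : Nat.card A ≤ Nat.card (C ⧸ C₀) := (Nat.card_le_card_of_injective Ψ hΨ).trans hle
  have h2 : Nat.card C = Nat.card (C ⧸ C₀) * Nat.card ↥C₀ :=
    AddSubgroup.card_eq_card_quotient_mul_card_addSubgroup C₀
  have hpos1 : 0 < Nat.card (C ⧸ C₀) := Nat.card_pos
  have hpos2 : 0 < Nat.card ↥C₀ := Nat.card_pos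
  have h3 : Nat.card ↥C₀ = 1 := by nlinarith
  intro c hc
  have hsub : Subsingleton ↥C₀ := (Nat.card_eq_one_iff_unique.1 h3).1
  have h4 : (⟨c, hc⟩ : ↥C₀) = 0 := Subsingleton.elim _ _
  exact congrArg Subtype.val h4

end Abstract

/-! ## the Artin pairing -/

section NumberFieldLeaves

variable (T : Type) [Field T] [NumberField T] (Δ : Type) [Group Δ] [MulSemiringAction Δ T]
  (p : ℕ) [Fact p.Prime]

variable {T p} in
/-- `b ↦ gkArtin b` as a homomorphism `Additive Tˣ →+ (Div T →+ ℤ/p)` -/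
def gecadArtin (Φ : ∀ v : HeightOneSpectrum (𝓞 T), GkEmb T v) (ζ : T) (hζ : IsPrimitiveRoot ζ p)
    (Sset : Set (HeightOneSpectrum (𝓞 T))) : Additive Tˣ →+ (S14.Div T →+ ZMod p) :=
  haveI : NeZero p := ⟨(Fact.out : p.Prime).ne_zero⟩
  AddMonoidHom.mk' (fun b => gkArtin Φ p ζ Sset (Additive.toMul b))
    (fun b b' => gkArtin_mul Φ p ζ hζ Sset (Additive.toMul b) (Additive.toMul b'))

variable {T p} in
theorem gecadArtin_apply (Φ : ∀ v : HeightOneSpectrum (𝓞 T), GkEmb T v) (ζ : T)
    (hζ : IsPrimitiveRoot ζ p) (Sset : Set (HeightOneSpectrum (𝓞 T))) (b : Additive Tˣ) :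
    haveI : NeZero p := ⟨(Fact.out : p.Prime).ne_zero⟩
    gecadArtin Φ ζ hζ Sset b = gkArtin Φ p ζ Sset (Additive.toMul b) := rfl

variable {T p} in
/-- the Artin character of a `p`-th power is trivial -/
theorem gecadArtin_pow (Φ : ∀ v : HeightOneSpectrum (𝓞 T), GkEmb T v) (ζ : T)
    (hζ : IsPrimitiveRoot ζ p) (Sset : Set (HeightOneSpectrum (𝓞 T))) (b : Additive Tˣ)
    (hb : b ∈ gecPowAdd T p) : gecadArtin Φ ζ hζ Sset b = 0 := by
  obtain ⟨c, hc⟩ := hb
  have h1 : b = p • Additive.ofMul c := by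
    apply Additive.toMul.injective
    rw [← hc]
    rfl
  rw [h1, map_nsmul]
  refine AddMonoidHom.ext fun D => ?_
  rw [AddMonoidHom.nsmul_apply, AddMonoidHom.zero_apply, nsmul_eq_mul, ZMod.natCast_self, zero_mul]

variable [Finite Δ] {k : Type} [Field k] [Algebra (ZMod p) k]

/-- **G9 (C2c).** `d_μ(Δ_S/Tˣᵖ) = d_{ω μ⁻¹}(Cl_S/p)`: the Artin pairing `Δ_S/Tˣᵖ × Cl_S/p → 𝔽_p` is
perfect (`gkArtin_eq_zero_of_mem_gkClSub`, `gkArtin_mul`, left kernel `= Tˣᵖ` by
`gk_pow_of_locally_pow`, equal cardinalities by `gk_relIndex_delta_eq`) and equivariant up to `ω`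
(G7), then G8. `ω` is given by `hω`. -/
theorem gec_artin_duality (hp2 : p ≠ 2) (hΔ : (Nat.card Δ).Coprime p) (ζ : T)
    (hζ : IsPrimitiveRoot ζ p) (ω : Δ →* (ZMod p)ˣ)
    (hω : ∀ δ : Δ, δ • ζ = ζ ^ ((ω δ : (ZMod p)ˣ) : ZMod p).val)
    (Φ : ∀ v : HeightOneSpectrum (𝓞 T), GkEmb T v) (Sset : Finset (HeightOneSpectrum (𝓞 T)))
    (hSp : ∀ v : HeightOneSpectrum (𝓞 T), ((p : ℕ) : 𝓞 T) ∈ v.asIdeal → v ∈ Sset)
    (hS : ∀ (δ : Δ) (v : HeightOneSpectrum (𝓞 T)),
      v ∈ (Sset : Set (HeightOneSpectrum (𝓞 T))) → δ • v ∈ (Sset : Set (HeightOneSpectrum (𝓞 T))))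
    (μ : Δ →* kˣ) :
    euDim μ (gecActQ T Δ p (gkDelta Φ (Sset : Set (HeightOneSpectrum (𝓞 T))) p)
        (gec_gkDelta_stable T Δ p Φ _ hS)) =
      euDim ((Units.map (algebraMap (ZMod p) k : ZMod p →* k)).comp ω * μ⁻¹)
        (gecActC T Δ (Sset : Set (HeightOneSpectrum (𝓞 T))) p hS) := by
  have hp : p.Prime := Fact.out
  have hne : NeZero p := ⟨hp.ne_zero⟩
  set DS := gkDelta Φ (Sset : Set (HeightOneSpectrum (𝓞 T))) p with hDS
  -- the pairing on `Δ_S × Cl_S/p`
  let ψ₁ : ↥(Subgroup.toAddSubgroup DS) →+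
      (GecC T (Sset : Set (HeightOneSpectrum (𝓞 T))) p →+ ZMod p) :=
    { toFun := fun b => QuotientAddGroup.lift _
        (gecadArtin Φ ζ hζ (Sset : Set (HeightOneSpectrum (𝓞 T))) (b : Additive Tˣ))
        (fun D hD => gkArtin_eq_zero_of_mem_gkClSub Φ p ζ hp2 hζ Sset hSp b.2 hD)
      map_zero' := by
        refine AddMonoidHom.ext fun D => ?_
        induction D using QuotientAddGroup.induction_on with
        | H D =>
          show gecadArtin Φ ζ hζ (Sset : Set (HeightOneSpectrum (𝓞 T))) 0 D = 0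
          rw [map_zero]
          rfl
      map_add' := fun b b' => by
        refine AddMonoidHom.ext fun D => ?_
        induction D using QuotientAddGroup.induction_on with
        | H D =>
          show gecadArtin Φ ζ hζ (Sset : Set (HeightOneSpectrum (𝓞 T)))
              ((b : Additive Tˣ) + (b' : Additive Tˣ)) D =
            gecadArtin Φ ζ hζ (Sset : Set (HeightOneSpectrum (𝓞 T))) (b : Additive Tˣ) D +
              gecadArtin Φ ζ hζ (Sset : Set (HeightOneSpectrum (𝓞 T))) (b' : Additive Tˣ) D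
          rw [map_add]
          rfl }
  have hψ₁ : ∀ (b : ↥(Subgroup.toAddSubgroup DS)) (D : S14.Div T),
      ψ₁ b (QuotientAddGroup.mk D) =
        gkArtin Φ p ζ (Sset : Set (HeightOneSpectrum (𝓞 T))) (Additive.toMul (b : Additive Tˣ)) D :=
    fun b D => rfl
  let β : GecQ T p DS →+ GecC T (Sset : Set (HeightOneSpectrum (𝓞 T))) p →+ ZMod p :=
    QuotientAddGroup.lift _ ψ₁ (fun b hb => by
      refine AddMonoidHom.ext fun D => ?_
      induction D using QuotientAddGroup.induction_on with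
      | H D =>
        have h1 : (b : Additive Tˣ) ∈ gecPowAdd T p := hb
        show gecadArtin Φ ζ hζ (Sset : Set (HeightOneSpectrum (𝓞 T))) (b : Additive Tˣ) D = 0
        rw [gecadArtin_pow Φ ζ hζ _ _ h1]
        rfl)
  have hβ₀ : ∀ (b : ↥(Subgroup.toAddSubgroup DS)) (D : S14.Div T),
      β (QuotientAddGroup.mk b) (QuotientAddGroup.mk D) =
        gkArtin Φ p ζ (Sset : Set (HeightOneSpectrum (𝓞 T))) (Additive.toMul (b : Additive Tˣ)) D :=
    fun b D => rfl
  -- finiteness and cardinalities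
  obtain ⟨hidx0, -⟩ := gk_relIndex_delta_le Φ p hp2 hζ Sset hSp
  have hidx := gk_relIndex_delta_eq Φ p ζ hp2 hζ Sset hSp
  have hcardA : Nat.card (GecQ T p DS) =
      (powMonoidHom p : Tˣ →* Tˣ).range.relIndex DS := rfl
  have hcardC : Nat.card (GecC T (Sset : Set (HeightOneSpectrum (𝓞 T))) p) =
      (gkClSub T (Sset : Set (HeightOneSpectrum (𝓞 T))) p).index := rfl
  have hfinA : Finite (GecQ T p DS) := by
    apply Nat.finite_of_card_ne_zero
    rw [hcardA]
    exact hidx0
  have hfinC : Finite (GecC T (Sset : Set (HeightOneSpectrum (𝓞 T))) p) := by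
    apply Nat.finite_of_card_ne_zero
    rw [hcardC]
    exact gkClSub_index_ne_zero T p _
  -- left kernel
  have hl : ∀ a, (∀ c, β a c = 0) → a = 0 := by
    intro a ha
    induction a using QuotientAddGroup.induction_on with
    | H b =>
      have hb : Additive.toMul (b : Additive Tˣ) ∈ DS := b.2
      obtain ⟨hbV, hbT⟩ := mem_gkDelta_iff.1 hb
      have h0 : gkArtin Φ p ζ (Sset : Set (HeightOneSpectrum (𝓞 T)))
          (Additive.toMul (b : Additive Tˣ)) = 0 := by
        refine AddMonoidHom.ext fun D => ?_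
        rw [← hβ₀ b D, ha]
        rfl
      obtain ⟨c, hc⟩ := gk_pow_of_locally_pow Φ p hζ (Additive.toMul (b : Additive Tˣ)) ∅
        (fun v _ => by
          by_cases hv : v ∈ (Sset : Set (HeightOneSpectrum (𝓞 T)))
          · exact hbT v hv
          · exact gk_loc_pow_of_gkArtin_eq_zero Φ p ζ hζ _ (fun w hw => hSp w hw) hbV h0 v hv)
      rw [QuotientAddGroup.eq_zero_iff, AddSubgroup.mem_addSubgroupOf]
      exact ⟨c, hc⟩
  -- right kernel
  have hr : ∀ c, (∀ a, β a c = 0) → c = 0 := by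
    refine gecad_right_nondeg p (A := GecQ T p DS)
      (C := GecC T (Sset : Set (HeightOneSpectrum (𝓞 T))) p) β hl ?_
    rw [hcardA, hcardC, hidx]
  -- equivariance
  have hβ : ∀ δ a c,
      β (gecActQ T Δ p DS (gec_gkDelta_stable T Δ p Φ _ hS) δ a)
        (gecActC T Δ (Sset : Set (HeightOneSpectrum (𝓞 T))) p hS δ c) =
      ((ω δ : (ZMod p)ˣ) : ZMod p) * β a c := by
    intro δ a c
    induction a using QuotientAddGroup.induction_on with
    | H b =>
      induction c using QuotientAddGroup.induction_on with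
      | H D =>
        have h1 := gec_artin_equivariant T Δ p hp2 ζ hζ Φ Sset hSp hS δ
          ((ω δ : (ZMod p)ˣ) : ZMod p).val (hω δ) (Additive.toMul (b : Additive Tˣ)) b.2 D
        rw [ZMod.natCast_zmod_val] at h1
        rw [hβ₀ b D, ← h1]
        rfl
  exact gec_dual_pairing hΔ _ _ β hl hr ω hβ μ

end NumberFieldLeaves

end Fermat.Agent.S56

end
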