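/-
S56 / GEC: the easy Galois leaves.
* `gec_h0` (G0): `h⁰(H, λ) = [λ = 1]`;
* `gec_exists_field` (G14): the field `E` = fixed field of `ker ψ ∩ ker ω|_H`;
* `gec_omegaInd` (G16): `[ψ* = ω] = [ψ = 1]`.
-/
import Fermat.Agent.S56.Gec.Stable
import Fermat.Agent.S56.EU.Defs
import Fermat.Agent.S55.Bridge.Pair
import Fermat.Agent.S55.SB.Galois

set_option autoImplicit false
set_option linter.unusedSectionVars false

noncomputable section

namespace Fermat.Agent.S56

open Fermat.Agent.S55 NumberField IsDedekindDomain ExtCitation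


/-- **G0.** `h⁰(G, λ) = [λ = 1]` -/
theorem gecb_h0_gen {G : Type*} [Group G] {k : Type*} [Field k] (lam : G →* kˣ) :
    Module.finrank k ↥(smH0 (chiRep lam)) = euTrivInd lam := by
  classical
  unfold euTrivInd
  split_ifs with h
  · subst h
    have h1 : smH0 (chiRep (1 : G →* kˣ)) = ⊤ := by
      rw [eq_top_iff]
      intro x _
      show dd0 (chiRep (1 : G →* kˣ)) x = 0
      ext g
      simp [dd0]
    rw [h1, finrank_top, Module.finrank_self]
  · have h1 : smH0 (chiRep lam) = ⊥ := by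
      rw [eq_bot_iff]
      intro x hx
      have hx' : dd0 (chiRep lam) x = 0 := hx
      rw [Submodule.mem_bot]
      by_contra hx0
      apply h
      ext g
      have h2 := congrFun hx' g
      have h3 : ((lam g : kˣ) : k) * x - x = 0 := by simpa [dd0] using h2
      have h4 : (((lam g : kˣ) : k) - 1) * x = 0 := by rw [sub_mul, one_mul]; exact h3
      rcases mul_eq_zero.1 h4 with h5 | h5
      · rw [MonoidHom.one_apply, Units.val_one]
        exact sub_eq_zero.1 h5
      · exact absurd h5 hx0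
    rw [h1, finrank_bot]


section G0

variable {p : ℕ} [Fact p.Prime] {k : Type} [Field k] [Algebra (ZMod p) k] {H : Subgroup GQ}

/-- **G0.** `h⁰(H, λ) = [λ = 1]` -/
theorem gec_h0 (lam : ↥H →* kˣ) : Module.finrank k ↥(smH0 (chiRep lam)) = euTrivInd lam :=
  gecb_h0_gen lam

end G0

section G14

local instance gecb_isAlgebraic : Algebra.IsAlgebraic ℚ (AlgebraicClosure ℚ) :=
  AlgebraicClosure.isAlgebraic ℚ
local instance gecb_isAlgClosure : IsAlgClosure ℚ (AlgebraicClosure ℚ) :=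
  ⟨inferInstance, inferInstance⟩
local instance gecb_normal : Normal ℚ (AlgebraicClosure ℚ) :=
  IsAlgClosure.normal ℚ (AlgebraicClosure ℚ)
local instance gecb_isGalois : IsGalois ℚ (AlgebraicClosure ℚ) := inferInstance

variable {p : ℕ} [Fact p.Prime] (S : Finset Nat.Primes) {k : Type} [Field k] [Algebra (ZMod p) k]
  {H : Subgroup GQ}

/-- a group which embeds (as a set of pairs) into `kˣ × (ZMod p)ˣ` has order prime to `p` -/
theorem gecb_coprime_card_of_injective {D : Type*} [Group D] [Finite D]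
    (f : D →* kˣ) (g : D →* (ZMod p)ˣ) (hfg : ∀ d, f d = 1 → g d = 1 → d = 1) :
    (Nat.card D).Coprime p := by
  have hp : p.Prime := Fact.out
  rw [Nat.coprime_comm, hp.coprime_iff_not_dvd]
  intro hdvd
  have : Fintype D := Fintype.ofFinite D
  rw [Nat.card_eq_fintype_card] at hdvd
  obtain ⟨d, hd⟩ := exists_prime_orderOf_dvd_card p hdvd
  have hdp : d ^ p = 1 := by rw [← hd]; exact pow_orderOf_eq_one d
  have hd1 : d ≠ 1 := by
    intro h
    rw [h, orderOf_one] at hd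
    exact hp.one_lt.ne hd
  apply hd1
  apply hfg
  · have : CharP k p := charP_of_injective_algebraMap (algebraMap (ZMod p) k).injective p
    have h1 : (f d) ^ p = 1 := by rw [← map_pow, hdp, map_one]
    have h2 : ((f d : kˣ) : k) ^ p = (1 : k) ^ p := by
      rw [one_pow, ← Units.val_pow_eq_pow_val, h1, Units.val_one]
    exact Units.ext (frobenius_inj k p h2)
  · have h1 : (g d) ^ p = 1 := by rw [← map_pow, hdp, map_one]
    have h2 : ((g d : (ZMod p)ˣ) : ZMod p) ^ p = 1 := by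
      rw [← Units.val_pow_eq_pow_val, h1, Units.val_one]
    rw [ZMod.pow_card] at h2
    exact Units.ext h2

/-- **G14 SETUP.** the field `E`: the fixed field of `ker ψ ∩ ker ω|_H`. -/
theorem gec_exists_field (hpS : pPrime p ∈ S) (hH : (levelsS S).IsOpen H) (ψ : ↥H →* kˣ)
    (hψ : ∃ U, (levelsS S).IsLevel U ∧ ∀ h : ↥H, (h : GQ) ∈ U → ψ h = 1) :
    ∃ (E : IntermediateField ℚ (AlgebraicClosure ℚ)) (hst : GecStable H E),
      E.IsUnramifiedOutside S ∧ E.fixingSubgroup ≤ H ∧ (gecRestr hst).ker ≤ ψ.ker ∧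
      E.fixingSubgroup ≤ (cycloChar p).ker ∧ (Nat.card (GecDelta hst)).Coprime p := by
  classical
  set ωH : ↥H →* (ZMod p)ˣ := (cycloChar p).comp H.subtype with hωH
  set N0 : Subgroup ↥H := ψ.ker ⊓ ωH.ker with hN0
  set N : Subgroup GQ := N0.map H.subtype with hN
  have hNH : N ≤ H := by
    rintro _ ⟨h, -, rfl⟩
    exact h.2
  have hmemN : ∀ g : GQ, g ∈ N ↔ ∃ hg : g ∈ H, ψ ⟨g, hg⟩ = 1 ∧ cycloChar p g = 1 := by
    intro g
    constructor
    · rintro ⟨h, hh, rfl⟩
      exact ⟨h.2, MonoidHom.mem_ker.1 hh.1, MonoidHom.mem_ker.1 hh.2⟩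
    · rintro ⟨hg, h1, h2⟩
      exact ⟨⟨g, hg⟩, ⟨MonoidHom.mem_ker.2 h1, MonoidHom.mem_ker.2 h2⟩, rfl⟩
  -- `N` is open
  have hNopen : (levelsS S).IsOpen N := by
    obtain ⟨U1, hU1, hU1ψ⟩ := hψ
    obtain ⟨U2, hU2, hU2H⟩ := hH
    obtain ⟨U3, hU3, hU3ω⟩ := cycloChar_smooth (p := p) S hpS
    obtain ⟨W1, hW1, hW1le⟩ := (levelsS S).exists_le_inf U1 U2 hU1 hU2
    obtain ⟨W, hW, hWle⟩ := (levelsS S).exists_le_inf W1 U3 hW1 hU3
    refine ⟨W, hW, fun g hg => ?_⟩
    have h1 : g ∈ U1 := (hW1le (hWle hg).1).1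
    have h2 : g ∈ U2 := (hW1le (hWle hg).1).2
    have h3 : g ∈ U3 := (hWle hg).2
    exact (hmemN g).2 ⟨hU2H h2, hU1ψ ⟨g, hU2H h2⟩ h1, MonoidHom.mem_ker.1 (hU3ω h3)⟩
  obtain ⟨E, hES, hNE⟩ := (sb_isOpen_iff S N).1 hNopen
  -- stability
  have hst : GecStable H E := by
    intro h hh x hx
    rw [← InfiniteGalois.fixedField_fixingSubgroup E, IntermediateField.mem_fixedField_iff]
    intro σ hσ
    rw [← hNE] at hσ
    obtain ⟨hσH, hσ1, hσ2⟩ := (hmemN σ).1 hσ
    have hconj : h⁻¹ * σ * h ∈ N := by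
      refine (hmemN _).2 ⟨H.mul_mem (H.mul_mem (H.inv_mem hh) hσH) hh, ?_, ?_⟩
      · have : (⟨h⁻¹ * σ * h, H.mul_mem (H.mul_mem (H.inv_mem hh) hσH) hh⟩ : ↥H) =
            (⟨h, hh⟩ : ↥H)⁻¹ * ⟨σ, hσH⟩ * ⟨h, hh⟩ := rfl
        rw [this, map_mul, map_mul, hσ1, mul_one, map_inv, inv_mul_cancel]
      · rw [map_mul, map_mul, hσ2, mul_one, map_inv, inv_mul_cancel]
    rw [hNE, IntermediateField.mem_fixingSubgroup_iff] at hconj
    have h1 := hconj x hx
    have h2 : (h⁻¹ * σ * h) x = h⁻¹ (σ (h x)) := rfl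
    rw [h2] at h1
    have h3 := congrArg (fun y => h y) h1
    simpa using h3
  have hker : (gecRestr hst).ker = N0 := by
    ext h
    rw [mem_gecRestr_ker, ← hNE, hmemN]
    constructor
    · rintro ⟨hg, h1, h2⟩
      exact ⟨MonoidHom.mem_ker.2 h1, MonoidHom.mem_ker.2 h2⟩
    · rintro ⟨h1, h2⟩
      exact ⟨h.2, MonoidHom.mem_ker.1 h1, MonoidHom.mem_ker.1 h2⟩
  have hkerψ : (gecRestr hst).ker ≤ ψ.ker := by
    rw [hker]; exact inf_le_left
  have hkerω : (gecRestr hst).ker ≤ ωH.ker := by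
    rw [hker]; exact inf_le_right
  refine ⟨E, hst, hES, hNE ▸ hNH, hkerψ, ?_, ?_⟩
  · intro g hg
    rw [← hNE] at hg
    exact MonoidHom.mem_ker.2 ((hmemN g).1 hg).2.2
  · have : NumberField ↥E := sb_numberField hES.1
    refine gecb_coprime_card_of_injective (gecQuotChar hst ψ hkerψ) (gecQuotChar hst ωH hkerω) ?_
    intro d
    induction d using QuotientGroup.induction_on with
    | H h =>
      intro h1 h2
      rw [gecQuotChar_mk] at h1 h2
      rw [QuotientGroup.eq_one_iff, hker]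
      exact ⟨MonoidHom.mem_ker.2 h1, MonoidHom.mem_ker.2 h2⟩


end G14

section G16

variable {p : ℕ} [Fact p.Prime] {k : Type} [Field k] [Algebra (ZMod p) k]
  {H : Subgroup GQ} {E : IntermediateField ℚ (AlgebraicClosure ℚ)} [NumberField ↥E]
  {ζ : AlgebraicClosure ℚ}

theorem gecb_natCast_eq_of_pow_eq {ξ : AlgebraicClosure ℚ} (hξ : IsPrimitiveRoot ξ p) {m m' : ℕ}
    (h : ξ ^ m = ξ ^ m') : (m : k) = (m' : k) := by
  have h1 : m ≡ m' [MOD p] := by
    have hfin : IsOfFinOrder ξ :=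
      isOfFinOrder_iff_pow_eq_one.2 ⟨p, (Fact.out : p.Prime).pos, hξ.pow_eq_one⟩
    have := hfin.pow_eq_pow_iff_modEq.1 h
    rwa [← hξ.eq_orderOf] at this
  have h2 : (m : ZMod p) = (m' : ZMod p) := (ZMod.natCast_eq_natCast_iff _ _ _).2 h1
  rw [← map_natCast (algebraMap (ZMod p) k) m, ← map_natCast (algebraMap (ZMod p) k) m', h2]

/-- **G16.** `[ψ* = ω] = [ψ = 1]` -/
theorem gec_omegaInd (hζ : IsPrimitiveRoot ζ p) (hζE : ζ ∈ E) (hst : GecStable H E)
    (ψ : ↥H →* kˣ) (hψ : (gecRestr hst).ker ≤ ψ.ker) :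
    euOmegaInd ↥E (GecDelta hst) p (gecQuotChar hst (gecStar p ψ) (gecStar_ker hζ hζE hst ψ hψ)) =
      euTrivInd ψ := by
  classical
  unfold euOmegaInd euTrivInd
  have key : (∃ ζ' : ↥E, IsPrimitiveRoot ζ' p ∧ ∀ δ : GecDelta hst, ∃ m : ℕ, δ • ζ' = ζ' ^ m ∧
      ((gecQuotChar hst (gecStar p ψ) (gecStar_ker hζ hζE hst ψ hψ) δ : kˣ) : k) = (m : k)) ↔
      ψ = 1 := by
    constructor
    · rintro ⟨ζ', hζ', hall⟩
      ext h
      obtain ⟨m, hm1, hm2⟩ := hall (QuotientGroup.mk h)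
      have hξ : IsPrimitiveRoot ((ζ' : ↥E) : AlgebraicClosure ℚ) p :=
        hζ'.map_of_injective (f := E.val) E.val.injective
      have h1 : (h : GQ) (ζ' : AlgebraicClosure ℚ) = (ζ' : AlgebraicClosure ℚ) ^ m := by
        have := congrArg (fun x : ↥E => (x : AlgebraicClosure ℚ)) hm1
        simpa using this
      have h2 := sb_cycloChar_spec (p := p) (h : GQ) hξ.pow_eq_one
      rw [h1] at h2
      have h3 : (m : k) = ((((cycloChar p (h : GQ) : (ZMod p)ˣ) : ZMod p).val : ℕ) : k) :=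
        gecb_natCast_eq_of_pow_eq hξ h2
      rw [gecQuotChar_mk, gecStar_apply, Units.val_mul, gecOmega_apply] at hm2
      have h4 : algebraMap (ZMod p) k ((cycloChar p (h : GQ) : (ZMod p)ˣ) : ZMod p) =
          ((((cycloChar p (h : GQ) : (ZMod p)ˣ) : ZMod p).val : ℕ) : k) := by
        rw [← map_natCast (algebraMap (ZMod p) k), ZMod.natCast_zmod_val]
      rw [h3, ← h4] at hm2
      have h5 : algebraMap (ZMod p) k ((cycloChar p (h : GQ) : (ZMod p)ˣ) : ZMod p) ≠ 0 := by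
        rw [← gecOmega_apply]
        exact Units.ne_zero _
      have h6 : (((ψ h)⁻¹ : kˣ) : k) = 1 := by
        have := mul_left_cancel₀ h5 (hm2.trans (mul_one _).symm)
        exact this
      rw [MonoidHom.one_apply, Units.val_one]
      have h7 : (ψ h)⁻¹ = 1 := Units.ext h6
      rw [inv_eq_one.1 h7, Units.val_one]
    · intro hψ1
      subst hψ1
      refine ⟨⟨ζ, hζE⟩, ?_, fun δ => ?_⟩
      · exact IsPrimitiveRoot.of_map_of_injective (f := E.val)
          (show IsPrimitiveRoot (E.val ⟨ζ, hζE⟩) p from hζ) E.val.injective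
      · induction δ using QuotientGroup.induction_on with
        | H h =>
          refine ⟨((cycloChar p (h : GQ) : (ZMod p)ˣ) : ZMod p).val, ?_, ?_⟩
          · apply Subtype.ext
            rw [gecDelta_mk_smul]
            show (h : GQ) ζ = _
            rw [sb_cycloChar_spec (h : GQ) hζ.pow_eq_one]
            rfl
          · rw [gecQuotChar_mk, gecStar_apply, MonoidHom.one_apply, inv_one, mul_one,
              gecOmega_apply, ← map_natCast (algebraMap (ZMod p) k), ZMod.natCast_zmod_val]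
  simp only [key]


end G16

end Fermat.Agent.S56

end
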