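/-
S56 / GEC, leaf G6 (row 430): `gec_span_decVanish` (statement VERBATIM from `Gec/Spec.lean`).

A `k`-combination of Kummer functions of `V_S` vanishes on all decomposition groups above `S` iff it
is a combination of Kummer functions of `Δ_S`, for ANY system `Φ` of local embeddings.

* abstract linear algebra (`gecdv_span_inf_vanish`): for an `F`-subspace `W` of `X → F` and a field
  extension `k/F`, `span_k(W) ∩ {φ | φ|_D = 0} ≤ span_k {f ∈ W | f|_D = 0}` (coordinates with respect
  to an `F`-basis of `k`);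
* local Kummer theory (`gecdv_local_iff`): the Kummer function of `a` vanishes on `N ∩ t D_q t⁻¹` iff
  `a` is a `p`-th power in the completion of `E` at the `t`-twisted `q`-adic embedding
  (`asmk_kumFun_restrict`, `asmk_lbKumFun_eq_zero_iff`);
* independence of the embedding inducing a given place (`gecdv_pow_indep`).
Helper names are prefixed `gecdv_`.
-/
import Fermat.Agent.S56.Gec.MainDefs
import Fermat.Agent.S55.Asm.KumDict
import Fermat.Agent.S55.LG.QbarMackey
import Fermat.Agent.S55.LG.Dense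
import Fermat.Agent.S55.SB.Unram
import Fermat.Agent.S55.GK.Final

set_option autoImplicit false
set_option linter.unusedVariables false
set_option linter.unusedSectionVars false

noncomputable section

namespace Fermat.Agent.S56

open Fermat.Agent.S55 NumberField IsDedekindDomain ExtCitation

/-! ## abstract linear algebra -/

section Abstract

variable {F k X : Type*} [Field F] [Field k] [Algebra F k]

/-- the `k`-valued function attached to an `F`-valued one -/
def gecdvLift (F k : Type*) {X : Type*} [Field F] [Field k] [Algebra F k] (f : X → F) : X → k :=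
  fun x => algebraMap F k (f x)

/-- coordinates of a `k`-combination of `F`-valued functions of `W` lie in `W` -/
theorem gecdv_coord_mem {ι : Type*} (b : Module.Basis ι F k) (W : Submodule F (X → F)) (φ : X → k)
    (hφ : φ ∈ Submodule.span k (gecdvLift F k '' (W : Set (X → F)))) (c : k) (i : ι) :
    (fun x => b.coord i (c * φ x)) ∈ W := by
  induction hφ using Submodule.span_induction generalizing c with
  | mem φ h =>
    obtain ⟨f, hf, rfl⟩ := h
    have : (fun x => b.coord i (c * gecdvLift F k f x)) = b.coord i c • f := by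
      funext x
      rw [Pi.smul_apply, smul_eq_mul, gecdvLift, mul_comm c, ← Algebra.smul_def, map_smul,
        smul_eq_mul, mul_comm]
    rw [this]
    exact W.smul_mem _ hf
  | zero =>
    have : (fun x : X => b.coord i (c * (0 : X → k) x)) = 0 := by
      funext x
      simp
    rw [this]
    exact W.zero_mem
  | add φ ψ _ _ hφ hψ =>
    have : (fun x => b.coord i (c * (φ + ψ) x)) =
        (fun x => b.coord i (c * φ x)) + fun x => b.coord i (c * ψ x) := by
      funext x
      simp [mul_add]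
    rw [this]
    exact W.add_mem (hφ c) (hψ c)
  | smul a φ _ hφ =>
    have : (fun x => b.coord i (c * (a • φ) x)) = fun x => b.coord i (c * a * φ x) := by
      funext x
      rw [Pi.smul_apply, smul_eq_mul, mul_assoc]
    rw [this]
    exact hφ (c * a)

/-- finitely many coordinates suffice -/
theorem gecdv_coord_support {ι : Type*} (b : Module.Basis ι F k) (W : Set (X → F)) (φ : X → k)
    (hφ : φ ∈ Submodule.span k (gecdvLift F k '' W)) (c : k) :
    ∃ I : Finset ι, ∀ (x : X) (i : ι), i ∉ I → b.coord i (c * φ x) = 0 := by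
  classical
  induction hφ using Submodule.span_induction generalizing c with
  | mem φ h =>
    obtain ⟨f, hf, rfl⟩ := h
    refine ⟨(b.repr c).support, fun x i hi => ?_⟩
    rw [gecdvLift, mul_comm c, ← Algebra.smul_def, map_smul, Module.Basis.coord_apply,
      Finsupp.notMem_support_iff.1 hi, smul_zero]
  | zero => exact ⟨∅, fun x i _ => by simp⟩
  | add φ ψ _ _ hφ hψ =>
    obtain ⟨I, hI⟩ := hφ c
    obtain ⟨J, hJ⟩ := hψ c
    refine ⟨I ∪ J, fun x i hi => ?_⟩
    rw [Finset.mem_union, not_or] at hi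
    rw [Pi.add_apply, mul_add, map_add, hI x i hi.1, hJ x i hi.2, add_zero]
  | smul a φ _ hφ =>
    obtain ⟨I, hI⟩ := hφ (c * a)
    refine ⟨I, fun x i hi => ?_⟩
    rw [Pi.smul_apply, smul_eq_mul, ← mul_assoc]
    exact hI x i hi

/-- **abstract core.** a `k`-combination of functions of `W` (an `F`-space of `F`-valued functions)
vanishing on `D` is a `k`-combination of functions of `W` vanishing on `D`. -/
theorem gecdv_span_inf_vanish (W : Submodule F (X → F)) (D : Set X) (φ : X → k)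
    (hφ : φ ∈ Submodule.span k (gecdvLift F k '' (W : Set (X → F))))
    (hD : ∀ x ∈ D, φ x = 0) :
    φ ∈ Submodule.span k (gecdvLift F k '' {f : X → F | f ∈ W ∧ ∀ x ∈ D, f x = 0}) := by
  classical
  set b := Module.Basis.ofVectorSpace F k with hb
  obtain ⟨I, hI⟩ := gecdv_coord_support b (W : Set (X → F)) φ hφ 1
  have hmem : ∀ i, (fun x => b.coord i (φ x)) ∈ W := by
    intro i
    have := gecdv_coord_mem b W φ hφ 1 i
    simpa using this
  have hexp : φ = ∑ i ∈ I, b i • gecdvLift F k (fun x => b.coord i (φ x)) := by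
    funext x
    rw [Finset.sum_apply]
    have h1 : φ x = (b.repr (φ x)).sum fun i c => c • b i := (b.linearCombination_repr (φ x)).symm
    have hsub : (b.repr (φ x)).support ⊆ I := by
      intro i hi
      by_contra hiI
      have := hI x i hiI
      rw [one_mul, Module.Basis.coord_apply] at this
      exact (Finsupp.mem_support_iff.1 hi) this
    have h2 : ((b.repr (φ x)).sum fun i c => c • b i) = ∑ i ∈ I, (b.repr (φ x) i) • b i :=
      Finsupp.sum_of_support_subset _ hsub _ (fun i _ => zero_smul _ _)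
    rw [h2] at h1
    conv_lhs => rw [h1]
    refine Finset.sum_congr rfl fun i _ => ?_
    rw [Pi.smul_apply, gecdvLift, smul_eq_mul, Algebra.smul_def, Module.Basis.coord_apply, mul_comm]
  rw [hexp]
  refine Submodule.sum_mem _ fun i _ => Submodule.smul_mem _ _ (Submodule.subset_span ?_)
  refine ⟨_, ⟨hmem i, fun x hx => ?_⟩, rfl⟩
  show b.coord i (φ x) = 0
  rw [hD x hx, map_zero]

end Abstract

/-! ## local `p`-th powers: two forms, independence of the embedding -/

section LocalPow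

variable {K : Type} [Field K] [NumberField K]

/-- "local `p`-th power" in unit form and in `PadicAlgCl`-form -/
theorem gecdv_pow_units_iff (q : ℕ) [Fact q.Prime] (i : K →+* PadicAlgCl q) (p : ℕ) (hp : p ≠ 0)
    (a : Kˣ) :
    (∃ c : (↥(lgField q i))ˣ, c ^ p = Units.map (lgEmb q i : K →* ↥(lgField q i)) a) ↔
      ∃ c : PadicAlgCl q, c ∈ lgField q i ∧ c ^ p = i (a : K) := by
  constructor
  · rintro ⟨c, hc⟩
    refine ⟨((c : (↥(lgField q i))ˣ) : ↥(lgField q i)), (c : ↥(lgField q i)).2, ?_⟩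
    have h1 := congrArg (fun u : (↥(lgField q i))ˣ =>
      (((u : (↥(lgField q i))ˣ) : ↥(lgField q i)) : PadicAlgCl q)) hc
    simpa using h1
  · rintro ⟨c, hcL, hc⟩
    have hc0 : (⟨c, hcL⟩ : ↥(lgField q i)) ≠ 0 := by
      intro h
      have h0 : c = 0 := congrArg Subtype.val h
      rw [h0, zero_pow hp] at hc
      exact a.ne_zero ((map_eq_zero i).1 hc.symm)
    refine ⟨Units.mk0 ⟨c, hcL⟩ hc0, ?_⟩
    apply Units.ext
    apply Subtype.ext
    rw [Units.val_pow_eq_pow_val, Units.val_mk0]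
    exact hc

/-- being a local `p`-th power does not depend on the embedding inducing the place -/
theorem gecdv_pow_indep (p : ℕ) {v : HeightOneSpectrum (𝓞 K)} (φ φ' : GkEmb K v) (a : K)
    (h : ∃ c : PadicAlgCl φ.q, c ∈ lgField φ.q φ.emb ∧ c ^ p = φ.emb a) :
    ∃ c : PadicAlgCl φ'.q, c ∈ lgField φ'.q φ'.emb ∧ c ^ p = φ'.emb a := by
  obtain ⟨q, hq, i, hi⟩ := φ
  obtain ⟨q', hq', i', hi'⟩ := φ'
  have hqq : q = q' := by
    have hv := v.isPrime
    have h1 : ((q : ℕ) : 𝓞 K) ∈ v.asIdeal := by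
      rw [← hi]
      exact natCast_mem_lgIdeal q i
    have h2 : ((q' : ℕ) : 𝓞 K) ∈ v.asIdeal := by
      rw [← hi']
      exact natCast_mem_lgIdeal q' i'
    exact sbur_eq_of_natCast_mem (P := v.asIdeal) K hq.out hq'.out h1 h2
  subst hqq
  obtain ⟨τ, hτ⟩ := (lgPlace_eq_iff q i i').1 (hi.trans hi'.symm)
  obtain ⟨c, hc, hcp⟩ := h
  refine ⟨τ c, ?_, ?_⟩
  · show τ c ∈ lgField q i'
    rw [hτ, lgField_comp_algEquiv]
    exact ⟨c, hc, rfl⟩
  · show τ c ^ p = i' a
    rw [← map_pow, hτ]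
    show τ (c ^ p) = τ (i a)
    rw [show c ^ p = i a from hcp]

end LocalPow

/-! ## local Kummer theory at a twisted embedding -/

section LocalKummer

variable {p : ℕ} [Fact p.Prime] {ζ : AlgebraicClosure ℚ}
  {E : IntermediateField ℚ (AlgebraicClosure ℚ)} [NumberField ↥E]

/-- the Kummer function of `a` vanishes on `N ∩ t D_q t⁻¹` iff `a` is a `p`-th power in the
completion of `E` at the `t`-twisted `q`-adic embedding -/
theorem gecdv_local_iff (hζ : IsPrimitiveRoot ζ p) (hζE : ζ ∈ E) (q : ℕ) [Fact q.Prime] (t : GQ)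
    (a : (↥E)ˣ) :
    (∀ (γ : lbGal q) (hn : t * localGaloisToGlobal q γ * t⁻¹ ∈ E.fixingSubgroup),
      sbKumFun (p := p) ζ E.fixingSubgroup (((a : (↥E)ˣ) : ↥E) : AlgebraicClosure ℚ)
        ⟨t * localGaloisToGlobal q γ * t⁻¹, hn⟩ = 0) ↔
      ∃ c : PadicAlgCl q, c ∈ lgField q (lgqmEmb q E t) ∧
        c ^ p = lgqmEmb q E t ((a : (↥E)ˣ) : ↥E) := by
  have hp : p.Prime := Fact.out
  set V : Subgroup (lbGal q) := (lgField q (lgqmEmb q E t)).fixingSubgroup with hV
  let r : ↥V →* ↥E.fixingSubgroup :=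
    { toFun := fun γ => ⟨t * localGaloisToGlobal q (γ : lbGal q) * t⁻¹,
        (lgqm_conj_mem_fixingSubgroup_iff q E t (γ : lbGal q)).2 γ.2⟩
      map_one' := by
        apply Subtype.ext
        show t * localGaloisToGlobal q ((1 : ↥V) : lbGal q) * t⁻¹ = 1
        rw [Subgroup.coe_one, map_one, mul_one, mul_inv_cancel]
      map_mul' := fun γ γ' => by
        apply Subtype.ext
        show t * localGaloisToGlobal q ((γ * γ' : ↥V) : lbGal q) * t⁻¹ =
          (t * localGaloisToGlobal q (γ : lbGal q) * t⁻¹) *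
            (t * localGaloisToGlobal q (γ' : lbGal q) * t⁻¹)
        rw [Subgroup.coe_mul, map_mul]
        group }
  have key := asmk_kumFun_restrict hζ E hζE t V rfl r (fun γ => rfl) a
  have hz := asmk_lbKumFun_eq_zero_iff (p := p) (asmk_isPrimitiveRoot_loc (q := q) hζ t)
    (lgField q (lgqmEmb q E t)) (asmk_zeta_mem E hζE t) V rfl (asmkLoc q E t a)
  rw [← gecdv_pow_units_iff q (lgqmEmb q E t) p hp.ne_zero a]
  refine Iff.trans ?_ hz
  constructor
  · intro h
    funext γ
    rw [← key γ]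
    exact h (γ : lbGal q) _
  · intro h γ hn
    have hγ : γ ∈ V := (lgqm_conj_mem_fixingSubgroup_iff q E t γ).1 hn
    have h1 := key ⟨γ, hγ⟩
    rw [h, Pi.zero_apply] at h1
    exact h1

end LocalKummer

/-! ## the global statement -/

section GaloisLeaves

variable {p : ℕ} [Fact p.Prime] (S : Finset Nat.Primes) {k : Type} [Field k] [Algebra (ZMod p) k]
  {H : Subgroup GQ} {E : IntermediateField ℚ (AlgebraicClosure ℚ)} [NumberField ↥E]
  {ζ : AlgebraicClosure ℚ}

/-- the Kummer function of `a` vanishes on all decomposition groups above `S` iff `a` is a local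
`p`-th power at all places above `S` (for any system `Φ`). -/
theorem gecdv_decVanish_iff (hζ : IsPrimitiveRoot ζ p) (hζE : ζ ∈ E)
    (Φ : ∀ v : HeightOneSpectrum (𝓞 ↥E), GkEmb ↥E v) (a : (↥E)ˣ) :
    gecKumFun p k ζ E a ∈ gecDecVanish k S E ↔
      ∀ v ∈ (gkT S ↥E : Set (HeightOneSpectrum (𝓞 ↥E))),
        ∃ c : (gkFld Φ v)ˣ, c ^ p = gkLoc Φ v a := by
  have hp : p.Prime := Fact.out
  have hinj : Function.Injective (algebraMap (ZMod p) k) := (algebraMap (ZMod p) k).injective
  constructor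
  · intro h v hv
    rw [Finset.mem_coe, mem_gkT] at hv
    obtain ⟨q, hqS, hqv⟩ := hv
    have : Fact ((q : Nat.Primes) : ℕ).Prime := ⟨q.2⟩
    obtain ⟨t, ht⟩ := lgqm_exists_lgPlace_eq ((q : Nat.Primes) : ℕ) E v hqv
    have h1 : ∃ c : PadicAlgCl ((q : Nat.Primes) : ℕ),
        c ∈ lgField ((q : Nat.Primes) : ℕ) (lgqmEmb ((q : Nat.Primes) : ℕ) E t) ∧
          c ^ p = lgqmEmb ((q : Nat.Primes) : ℕ) E t ((a : (↥E)ˣ) : ↥E) := by
      rw [← gecdv_local_iff hζ hζE ((q : Nat.Primes) : ℕ) t a]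
      intro γ hn
      have h2 := h ⟨q, hqS⟩ t γ hn
      exact hinj (h2.trans (map_zero _).symm)
    have h3 := gecdv_pow_indep p
      (⟨((q : Nat.Primes) : ℕ), ⟨q.2⟩, lgqmEmb ((q : Nat.Primes) : ℕ) E t, ht⟩ : GkEmb ↥E v) (Φ v)
      ((a : (↥E)ˣ) : ↥E) h1
    exact (gecdv_pow_units_iff (Φ v).q (Φ v).emb p hp.ne_zero a).2 h3
  · intro h q g γ hn
    have : Fact ((q.1 : Nat.Primes) : ℕ).Prime := ⟨q.1.2⟩
    set v : HeightOneSpectrum (𝓞 ↥E) :=
      lgPlace ((q.1 : Nat.Primes) : ℕ) (lgqmEmb ((q.1 : Nat.Primes) : ℕ) E g) with hv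
    have hvT : v ∈ (gkT S ↥E : Set (HeightOneSpectrum (𝓞 ↥E))) := by
      rw [Finset.mem_coe, mem_gkT]
      exact ⟨q.1, q.2, natCast_mem_lgIdeal ((q.1 : Nat.Primes) : ℕ)
        (lgqmEmb ((q.1 : Nat.Primes) : ℕ) E g)⟩
    have h1 := (gecdv_pow_units_iff (Φ v).q (Φ v).emb p hp.ne_zero a).1 (h v hvT)
    have h2 := gecdv_pow_indep p (Φ v)
      (⟨((q.1 : Nat.Primes) : ℕ), ⟨q.1.2⟩, lgqmEmb ((q.1 : Nat.Primes) : ℕ) E g, rfl⟩ :
        GkEmb ↥E v) ((a : (↥E)ˣ) : ↥E) h1
    have h3 := (gecdv_local_iff hζ hζE ((q.1 : Nat.Primes) : ℕ) g a).2 h2 γ hn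
    show algebraMap (ZMod p) k _ = 0
    rw [← map_zero (algebraMap (ZMod p) k)]
    exact congrArg _ h3

/-- **G6 (C2b).** a `k`-combination of Kummer functions of `V_S` vanishes on all decomposition
groups above `S` iff it is a combination of Kummer functions of `Δ_S` (elements which are local
`p`-th powers at the places above `S`), for ANY system `Φ` of local embeddings.
(Write `φ = Σ c_j f_{a_j}` with `c_j` linearly independent over `𝔽_p`: then each `f_{a_j}` vanishes
on the decomposition groups; local Kummer theory: `asmkd_kumFun_comp`/`asm_kumFun_mackeyHom`,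
`lbKumFun` `= 0` iff `p`-th power; `gki_pow_iff` for the independence of the embedding.) -/
theorem gec_span_decVanish (hζ : IsPrimitiveRoot ζ p) (hζE : ζ ∈ E)
    (hpS : ∃ q ∈ S, ((q : Nat.Primes) : ℕ) = p) (hES : E.IsUnramifiedOutside S)
    (Φ : ∀ v : HeightOneSpectrum (𝓞 ↥E), GkEmb ↥E v) :
    gecKumSpan p k ζ E (gkV ↥E (gkT S ↥E : Set (HeightOneSpectrum (𝓞 ↥E))) p) ⊓
        gecDecVanish k S E =
      gecKumSpan p k ζ E (gkDelta Φ (gkT S ↥E : Set (HeightOneSpectrum (𝓞 ↥E))) p) := by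
  apply le_antisymm
  · rintro φ ⟨hφ1, hφ2⟩
    set A := gkV ↥E (gkT S ↥E : Set (HeightOneSpectrum (𝓞 ↥E))) p with hA
    -- the Kummer functions of `V_S` form an `𝔽_p`-space
    let κ : Additive ↥A →+ (↥E.fixingSubgroup → ZMod p) :=
      AddMonoidHom.mk' (fun a => sbKumFun (p := p) ζ E.fixingSubgroup
        (((((Additive.toMul a : ↥A) : (↥E)ˣ)) : ↥E) : AlgebraicClosure ℚ))
        (fun a b => sbKumFun_mul hζ E hζE _ _)
    let W : Submodule (ZMod p) (↥E.fixingSubgroup → ZMod p) :=
      AddSubgroup.toZModSubmodule p κ.range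
    have hspan : (gecKumSpan p k ζ E A : Submodule k (↥E.fixingSubgroup → k)) =
        Submodule.span k (gecdvLift (ZMod p) k '' (W : Set (↥E.fixingSubgroup → ZMod p))) := by
      unfold gecKumSpan
      congr 1
      ext f
      constructor
      · rintro ⟨a, rfl⟩
        exact ⟨_, ⟨Additive.ofMul a, rfl⟩, rfl⟩
      · rintro ⟨_, ⟨a, rfl⟩, rfl⟩
        exact ⟨Additive.toMul a, rfl⟩
    let D : Set ↥E.fixingSubgroup := {n | ∃ (q : ↥S) (g : GQ) (γ : primeLocalGaloisGroup q.1),
      (n : GQ) = g * primeLocalToGlobal q.1 γ * g⁻¹}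
    have hD : ∀ n ∈ D, φ n = 0 := by
      rintro ⟨n, hn⟩ ⟨q, g, γ, hnn⟩
      have hnn' : n = g * primeLocalToGlobal q.1 γ * g⁻¹ := hnn
      subst hnn'
      exact hφ2 q g γ hn
    rw [SetLike.mem_coe, hspan] at hφ1
    have hmain := gecdv_span_inf_vanish W D φ hφ1 hD
    refine Submodule.span_mono ?_ hmain
    rintro _ ⟨f, ⟨hfW, hfD⟩, rfl⟩
    obtain ⟨a, rfl⟩ := hfW
    refine ⟨⟨((Additive.toMul a : ↥A) : (↥E)ˣ), ?_⟩, rfl⟩
    rw [mem_gkDelta_iff]
    refine ⟨(Additive.toMul a : ↥A).2, ?_⟩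
    apply (gecdv_decVanish_iff (k := k) S hζ hζE Φ ((Additive.toMul a : ↥A) : (↥E)ˣ)).1
    intro q g γ hn
    show algebraMap (ZMod p) k _ = 0
    rw [← map_zero (algebraMap (ZMod p) k)]
    exact congrArg _ (hfD ⟨_, hn⟩ ⟨q, g, γ, rfl⟩)
  · apply le_inf
    · apply Submodule.span_mono
      rintro _ ⟨a, rfl⟩
      exact ⟨⟨(a : (↥E)ˣ), gkfin_gkDelta_le_gkV Φ p _ a.2⟩, rfl⟩
    · unfold gecKumSpan
      rw [Submodule.span_le]
      rintro _ ⟨a, rfl⟩
      exact (gecdv_decVanish_iff (k := k) S hζ hζE Φ (a : (↥E)ˣ)).2 (mem_gkDelta_iff.1 a.2).2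

end GaloisLeaves

end Fermat.Agent.S56

end
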