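/-
S56 / GEC (global Euler characteristic, base case), leaf G1: prime-to-`p` descent in degree 1.

`G` a group with levels `𝓛`, `N` an open normal subgroup whose index is invertible in the field
`k`, `ψ : G →* kˣ` a character trivial on `N`.  Then restriction to `N` identifies
`smH1 𝓛 (chiRep ψ)` with the space `gecEqHom 𝓛 N ψ` of level-constant homomorphisms
`φ : N → k` such that `φ (g n g⁻¹) = ψ g * φ n`:

* `gecRes`            : the restriction map `smH1 𝓛 (chiRep ψ) →ₗ[k] gecEqHom 𝓛 N ψ`;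
* `gecRes_injective`  : a class vanishing on `N` is a coboundary (averaging);
* `gecRes_surjective` : the explicit transfer formula
                        `f g = (1/m) ∑_{q ∈ G/N} ψ((g • q).out) φ(((g • q).out)⁻¹ g q.out)`;
* `gecDescent`        : the resulting linear equivalence;
* `gec_smH1π_eq_zero_iff` : a cocycle is a coboundary iff it vanishes on `N`
                        (this is the form used for the local conditions).
-/
import Fermat.Agent.S55.Top.Ind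
import Fermat.Agent.S55.Top.Smooth

set_option autoImplicit false

namespace Fermat.Agent.S56

open Fermat.Agent.S55

variable {k : Type*} [Field k] {G : Type*} [Group G]

/-! ### cocycles for a character -/

section Cocycle

variable {ψ : G →* kˣ} {f : G → k}

theorem gec_cocycle_mul (hf : dd1 (chiRep ψ) f = 0) (g h : G) :
    f (g * h) = f g + (ψ g : k) * f h := by
  have h1 := congrFun hf (g, h)
  rw [dd1_apply, chiRep_apply, Pi.zero_apply] at h1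
  linear_combination -h1

theorem gec_cocycle_one (hf : dd1 (chiRep ψ) f = 0) : f 1 = 0 := by
  have h1 := gec_cocycle_mul hf 1 1
  rw [one_mul, map_one, Units.val_one, one_mul] at h1
  linear_combination -h1

theorem gec_cocycle_inv (hf : dd1 (chiRep ψ) f = 0) (g : G) :
    (ψ g : k) * f g⁻¹ = -f g := by
  have h1 := gec_cocycle_mul hf g g⁻¹
  rw [mul_inv_cancel, gec_cocycle_one hf] at h1
  linear_combination -h1

theorem gec_cocycle_conj (hf : dd1 (chiRep ψ) f = 0) (g n : G) (hn : ψ n = 1) :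
    f (g * n * g⁻¹) = (ψ g : k) * f n := by
  rw [gec_cocycle_mul hf, gec_cocycle_mul hf, map_mul, hn, mul_one]
  linear_combination gec_cocycle_inv hf g

end Cocycle

/-! ### the target of the descent -/

/-- Level-constant homomorphisms `φ : N → k` with `φ (g n g⁻¹) = ψ g * φ n`. -/
def gecEqHom (𝓛 : Levels G) (N : Subgroup G) (ψ : G →* kˣ) : Submodule k (↥N → k) where
  carrier := {φ | IsLC₁ (𝓛.sub N) φ ∧ (∀ n n' : ↥N, φ (n * n') = φ n + φ n') ∧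
    ∀ (g : G) (n : ↥N) (hn : g * (n : G) * g⁻¹ ∈ N), φ ⟨g * (n : G) * g⁻¹, hn⟩ = (ψ g : k) * φ n}
  zero_mem' := ⟨isLC₁_const _ 0, fun _ _ => by simp, fun _ _ _ => by simp⟩
  add_mem' := by
    rintro φ φ' ⟨h1, h2, h3⟩ ⟨h1', h2', h3'⟩
    refine ⟨h1.map₂ h1' (· + ·), fun n n' => ?_, fun g n hn => ?_⟩
    · simp only [Pi.add_apply, h2, h2']; ring
    · simp only [Pi.add_apply, h3, h3']; ring
  smul_mem' := by
    rintro c φ ⟨h1, h2, h3⟩
    refine ⟨h1.comp (c • ·), fun n n' => ?_, fun g n hn => ?_⟩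
    · simp only [Pi.smul_apply, smul_eq_mul, h2]; ring
    · simp only [Pi.smul_apply, smul_eq_mul, h3]; ring

theorem mem_gecEqHom {𝓛 : Levels G} {N : Subgroup G} {ψ : G →* kˣ} {φ : ↥N → k} :
    φ ∈ gecEqHom 𝓛 N ψ ↔ IsLC₁ (𝓛.sub N) φ ∧ (∀ n n' : ↥N, φ (n * n') = φ n + φ n') ∧
      ∀ (g : G) (n : ↥N) (hn : g * (n : G) * g⁻¹ ∈ N),
        φ ⟨g * (n : G) * g⁻¹, hn⟩ = (ψ g : k) * φ n := Iff.rfl

section Descent

variable (𝓛 : Levels G) (N : Subgroup G) (ψ : G →* kˣ)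

/-- restriction of a cocycle to `N` lands in `gecEqHom` -/
theorem gec_res_mem (hψ : N ≤ ψ.ker) (f : ↥(smZ1 𝓛 (chiRep ψ))) :
    (fun n : ↥N => (f : G → k) n) ∈ gecEqHom 𝓛 N ψ := by
  obtain ⟨hf0, hfl⟩ := (mem_smZ1 𝓛 (chiRep ψ) _).1 f.2
  have hf : dd1 (chiRep ψ) (f : G → k) = 0 := hf0
  refine ⟨?_, fun n n' => ?_, fun g n hn => ?_⟩
  · exact IsLC₁.comp_hom 𝓛 (Levels.continuous_comap 𝓛 N.subtype) hfl
  · have h1 : ψ (n : G) = 1 := hψ n.2
    show (f : G → k) ((n : G) * (n' : G)) = _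
    rw [gec_cocycle_mul hf, h1, Units.val_one, one_mul]
  · exact gec_cocycle_conj hf g n (hψ n.2)

/-- restriction on cocycles -/
def gecResZ (hψ : N ≤ ψ.ker) : ↥(smZ1 𝓛 (chiRep ψ)) →ₗ[k] ↥(gecEqHom 𝓛 N ψ) where
  toFun f := ⟨fun n : ↥N => (f : G → k) n, gec_res_mem 𝓛 N ψ hψ f⟩
  map_add' _ _ := rfl
  map_smul' _ _ := rfl

@[simp] theorem gecResZ_apply (hψ : N ≤ ψ.ker) (f : ↥(smZ1 𝓛 (chiRep ψ))) (n : ↥N) :
    (gecResZ 𝓛 N ψ hψ f : ↥N → k) n = (f : G → k) n := rfl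

theorem gecResZ_coboundary (hψ : N ≤ ψ.ker) (f : ↥(smZ1 𝓛 (chiRep ψ)))
    (hf : (f : G → k) ∈ smB1 (chiRep ψ)) : gecResZ 𝓛 N ψ hψ f = 0 := by
  obtain ⟨m, hm⟩ := (mem_smB1 _ _).1 hf
  apply Subtype.ext
  funext n
  have h1 : ψ (n : G) = 1 := hψ n.2
  rw [gecResZ_apply, ← hm, dd0_apply, chiRep_apply, h1, Units.val_one, one_mul, sub_self]
  rfl

/-- the restriction map `H¹(G, ψ) → Hom_G(N, k(ψ))` -/
def gecRes (hψ : N ≤ ψ.ker) : smH1 𝓛 (chiRep ψ) →ₗ[k] ↥(gecEqHom 𝓛 N ψ) :=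
  Submodule.liftQ _ (gecResZ 𝓛 N ψ hψ) (by
    intro f hf
    rw [LinearMap.mem_ker]
    exact gecResZ_coboundary 𝓛 N ψ hψ f hf)

@[simp] theorem gecRes_mk (hψ : N ≤ ψ.ker) (f : ↥(smZ1 𝓛 (chiRep ψ))) :
    gecRes 𝓛 N ψ hψ (smH1π 𝓛 (chiRep ψ) f) = gecResZ 𝓛 N ψ hψ f := rfl

end Descent

/-! ### injectivity: averaging over `G ⧸ N` -/

section Inj

variable {N : Subgroup G} {ψ : G →* kˣ} {f : G → k}

/-- a cocycle vanishing on `N` is constant on left cosets of `N` -/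
theorem gec_cocycle_mul_right (hf : dd1 (chiRep ψ) f = 0) (h0 : ∀ n ∈ N, f n = 0) (g : G)
    {n : G} (hn : n ∈ N) : f (g * n) = f g := by
  rw [gec_cocycle_mul hf, h0 n hn, mul_zero, add_zero]

theorem gec_cocycle_out (hf : dd1 (chiRep ψ) f = 0) (h0 : ∀ n ∈ N, f n = 0) (g : G) :
    f ((g : G ⧸ N).out) = f g := by
  have h1 : (g : G ⧸ N).out = g * (g⁻¹ * (g : G ⧸ N).out) := by group
  have h2 : g⁻¹ * (g : G ⧸ N).out ∈ N := by
    rw [← QuotientGroup.eq]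
    exact (QuotientGroup.out_eq' (g : G ⧸ N)).symm
  rw [h1, gec_cocycle_mul_right hf h0 g h2]

/-- a cocycle for `ψ` vanishing on the finite-index subgroup `N` is a coboundary, if the index
is invertible -/
theorem gec_coboundary_of_vanish [N.FiniteIndex] (hm : (N.index : k) ≠ 0)
    (hf : dd1 (chiRep ψ) f = 0) (h0 : ∀ n ∈ N, f n = 0) : f ∈ smB1 (chiRep ψ) := by
  classical
  let _ : Fintype (G ⧸ N) := Subgroup.fintypeQuotientOfFiniteIndex
  set c : k := ∑ q : G ⧸ N, f q.out with hc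
  have hsum : ∀ g : G, ∑ q : G ⧸ N, f ((g • q).out) = c := fun g =>
    Equiv.sum_comp (MulAction.toPerm g : Equiv.Perm (G ⧸ N)) (fun q => f q.out)
  have hterm : ∀ (g : G) (q : G ⧸ N), f ((g • q).out) = f g + (ψ g : k) * f q.out := by
    intro g q
    have h1 : g • q = ((g * q.out : G) : G ⧸ N) := by
      conv_lhs => rw [← QuotientGroup.out_eq' q]
      rfl
    rw [h1, gec_cocycle_out hf h0, gec_cocycle_mul hf]
  have hcard : (Fintype.card (G ⧸ N) : k) = (N.index : k) := by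
    rw [Subgroup.index_eq_card, Nat.card_eq_fintype_card]
  have key : ∀ g : G, (N.index : k) * f g = c - (ψ g : k) * c := by
    intro g
    have h2 := hsum g
    simp only [hterm, Finset.sum_add_distrib, Finset.sum_const, Finset.card_univ, nsmul_eq_mul,
      ← Finset.mul_sum] at h2
    rw [← hc, hcard] at h2
    linear_combination h2
  rw [mem_smB1]
  refine ⟨-c / (N.index : k), ?_⟩
  funext g
  rw [dd0_apply, chiRep_apply]
  field_simp
  linear_combination -(key g)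

end Inj

/-! ### surjectivity: the transfer formula -/

section Surj

variable {𝓛 : Levels G} {N : Subgroup G} {ψ : G →* kˣ}

/-- extension by zero of a function on `N` -/
noncomputable def gecExt (N : Subgroup G) (φ : ↥N → k) : G → k := by
  classical
  exact fun x => if h : x ∈ N then φ ⟨x, h⟩ else 0

theorem gecExt_of_mem (φ : ↥N → k) {x : G} (hx : x ∈ N) : gecExt N φ x = φ ⟨x, hx⟩ := by
  classical
  simp only [gecExt, dif_pos hx]

theorem gecExt_coe (φ : ↥N → k) (n : ↥N) : gecExt N φ (n : G) = φ n := by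
  rw [gecExt_of_mem φ n.2]

theorem gecExt_mul {φ : ↥N → k} (hφ : φ ∈ gecEqHom 𝓛 N ψ) {x y : G} (hx : x ∈ N) (hy : y ∈ N) :
    gecExt N φ (x * y) = gecExt N φ x + gecExt N φ y := by
  rw [gecExt_of_mem φ (N.mul_mem hx hy), gecExt_of_mem φ hx, gecExt_of_mem φ hy]
  exact hφ.2.1 ⟨x, hx⟩ ⟨y, hy⟩

theorem gecExt_one {φ : ↥N → k} (hφ : φ ∈ gecEqHom 𝓛 N ψ) : gecExt N φ 1 = 0 := by
  have h1 := gecExt_mul hφ N.one_mem N.one_mem
  rw [one_mul] at h1
  linear_combination -h1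

theorem gecExt_conj [hN : N.Normal] {φ : ↥N → k} (hφ : φ ∈ gecEqHom 𝓛 N ψ) (g : G) {x : G}
    (hx : x ∈ N) : gecExt N φ (g * x * g⁻¹) = (ψ g : k) * gecExt N φ x := by
  rw [gecExt_of_mem φ (hN.conj_mem x hx g), gecExt_of_mem φ hx]
  exact hφ.2.2 g ⟨x, hx⟩ (hN.conj_mem x hx g)

/-- the `N`-component of `g * q.out` -/
noncomputable def gecNn (N : Subgroup G) (g : G) (q : G ⧸ N) : G :=
  ((g • q).out)⁻¹ * g * q.out

theorem gec_smul_eq (g : G) (q : G ⧸ N) : g • q = ((g * q.out : G) : G ⧸ N) := by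
  conv_lhs => rw [← QuotientGroup.out_eq' q]
  rfl

theorem gecNn_mem (g : G) (q : G ⧸ N) : gecNn N g q ∈ N := by
  have h1 : (((g • q).out : G) : G ⧸ N) = ((g * q.out : G) : G ⧸ N) := by
    rw [QuotientGroup.out_eq', gec_smul_eq]
  have h2 := QuotientGroup.eq.1 h1
  rw [gecNn, mul_assoc]
  exact h2

theorem gecNn_mul (g h : G) (q : G ⧸ N) :
    gecNn N (g * h) q = gecNn N g (h • q) * gecNn N h q := by
  simp only [gecNn, mul_smul]
  group

theorem gec_psi_out (hψ : N ≤ ψ.ker) (g : G) (q : G ⧸ N) :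
    (ψ ((g • q).out) : k) = (ψ g : k) * (ψ q.out : k) := by
  have h1 : ψ (gecNn N g q) = 1 := hψ (gecNn_mem g q)
  rw [gecNn, map_mul, map_mul, map_inv] at h1
  have h2 : ψ ((g • q).out) = ψ g * ψ q.out := by
    rw [← mul_one (ψ ((g • q).out)), ← h1]
    group
  rw [h2, Units.val_mul]

theorem gec_smul_of_mem [hN : N.Normal] {n : G} (hn : n ∈ N) (q : G ⧸ N) : n • q = q := by
  rw [gec_smul_eq]
  conv_rhs => rw [← QuotientGroup.out_eq' q]
  rw [QuotientGroup.eq]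
  have h1 : (n * q.out)⁻¹ * q.out = (q.out)⁻¹ * n⁻¹ * (q.out)⁻¹⁻¹ := by group
  rw [h1]
  exact hN.conj_mem _ (N.inv_mem hn) _

variable [N.FiniteIndex]

/-- the transfer of `φ` -/
noncomputable def gecTr (N : Subgroup G) [N.FiniteIndex] (ψ : G →* kˣ) (φ : ↥N → k) : G → k :=
  letI : Fintype (G ⧸ N) := Subgroup.fintypeQuotientOfFiniteIndex
  fun g => ∑ q : G ⧸ N, (ψ ((g • q).out) : k) * gecExt N φ (gecNn N g q)

theorem gecTr_mul (hψ : N ≤ ψ.ker) {φ : ↥N → k} (hφ : φ ∈ gecEqHom 𝓛 N ψ) (g h : G) :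
    gecTr N ψ φ (g * h) = gecTr N ψ φ g + (ψ g : k) * gecTr N ψ φ h := by
  classical
  let _ : Fintype (G ⧸ N) := Subgroup.fintypeQuotientOfFiniteIndex
  have h1 : gecTr N ψ φ g
      = ∑ q : G ⧸ N, (ψ ((g • (h • q)).out) : k) * gecExt N φ (gecNn N g (h • q)) :=
    (Equiv.sum_comp (MulAction.toPerm h : Equiv.Perm (G ⧸ N))
      (fun q => (ψ ((g • q).out) : k) * gecExt N φ (gecNn N g q))).symm
  rw [h1]
  simp only [gecTr, Finset.mul_sum, ← Finset.sum_add_distrib]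
  refine Finset.sum_congr rfl fun q _ => ?_
  rw [gecNn_mul, gecExt_mul hφ (gecNn_mem g (h • q)) (gecNn_mem h q), mul_smul,
    gec_psi_out hψ g (h • q)]
  ring

theorem gecTr_of_mem [hN : N.Normal] {φ : ↥N → k} (hφ : φ ∈ gecEqHom 𝓛 N ψ) {n : G}
    (hn : n ∈ N) : gecTr N ψ φ n = (N.index : k) * gecExt N φ n := by
  classical
  let _ : Fintype (G ⧸ N) := Subgroup.fintypeQuotientOfFiniteIndex
  have hterm : ∀ q : G ⧸ N, (ψ ((n • q).out) : k) * gecExt N φ (gecNn N n q) = gecExt N φ n := by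
    intro q
    have h1 : gecNn N n q = (q.out)⁻¹ * n * (q.out)⁻¹⁻¹ := by
      rw [gecNn, gec_smul_of_mem hn q, inv_inv]
    rw [h1, gecExt_conj hφ _ hn, gec_smul_of_mem hn q, map_inv, ← mul_assoc, ← Units.val_mul,
      mul_inv_cancel, Units.val_one, one_mul]
  simp only [gecTr, hterm, Finset.sum_const, Finset.card_univ, nsmul_eq_mul]
  rw [Subgroup.index_eq_card, Nat.card_eq_fintype_card]

theorem gecTr_dd1 (hψ : N ≤ ψ.ker) {φ : ↥N → k} (hφ : φ ∈ gecEqHom 𝓛 N ψ) :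
    dd1 (chiRep ψ) (gecTr N ψ φ) = 0 := by
  funext x
  obtain ⟨g, h⟩ := x
  rw [dd1_apply, chiRep_apply, gecTr_mul hψ hφ, Pi.zero_apply]
  ring

theorem gecTr_isLC [hN : N.Normal] (hNo : 𝓛.IsOpen N) (hψ : N ≤ ψ.ker) {φ : ↥N → k}
    (hφ : φ ∈ gecEqHom 𝓛 N ψ) : IsLC₁ 𝓛 (gecTr N ψ φ) := by
  obtain ⟨U', ⟨U₀, hU₀, rfl⟩, hU'⟩ := hφ.1
  obtain ⟨U₁, hU₁, hU₁N⟩ := hNo
  obtain ⟨W, hW, hWle⟩ := 𝓛.exists_le_inf U₀ U₁ hU₀ hU₁
  refine ⟨W, hW, fun g s hs => ?_⟩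
  have hsN : s ∈ N := hU₁N (hWle hs).2
  have h0 : gecExt N φ s = 0 := by
    rw [gecExt_of_mem φ hsN]
    have h1 := hU' 1 ⟨s, hsN⟩ (by
      rw [Subgroup.mem_comap]
      exact (hWle hs).1)
    rw [one_mul] at h1
    rw [h1, ← gecExt_coe φ 1, Subgroup.coe_one, gecExt_one hφ]
  rw [gecTr_mul hψ hφ, gecTr_of_mem hφ hsN, h0, mul_zero, mul_zero, add_zero]

end Surj

/-! ### the descent theorem -/

section Main

variable (𝓛 : Levels G) (N : Subgroup G) (ψ : G →* kˣ)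

/-- a smooth cocycle for `ψ` is a coboundary iff it vanishes on `N` -/
theorem gec_smH1π_eq_zero_iff [N.FiniteIndex] (hψ : N ≤ ψ.ker) (hm : (N.index : k) ≠ 0)
    (f : ↥(smZ1 𝓛 (chiRep ψ))) :
    smH1π 𝓛 (chiRep ψ) f = 0 ↔ ∀ n ∈ N, (f : G → k) n = 0 := by
  rw [smH1π_eq_zero_iff]
  constructor
  · intro hf n hn
    obtain ⟨m, hm'⟩ := (mem_smB1 _ _).1 hf
    have h1 : ψ n = 1 := hψ hn
    rw [← hm', dd0_apply, chiRep_apply, h1, Units.val_one, one_mul, sub_self]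
  · intro h0
    exact gec_coboundary_of_vanish hm ((mem_smZ1 𝓛 (chiRep ψ) _).1 f.2).1 h0

theorem gecRes_injective [N.FiniteIndex] (hψ : N ≤ ψ.ker) (hm : (N.index : k) ≠ 0) :
    Function.Injective (gecRes 𝓛 N ψ hψ) := by
  rw [← LinearMap.ker_eq_bot, LinearMap.ker_eq_bot']
  intro x hx
  obtain ⟨f, rfl⟩ := Submodule.mkQ_surjective _ x
  show smH1π 𝓛 (chiRep ψ) f = 0
  rw [gec_smH1π_eq_zero_iff 𝓛 N ψ hψ hm]
  intro n hn
  have h1 : (gecRes 𝓛 N ψ hψ (smH1π 𝓛 (chiRep ψ) f) : ↥N → k) ⟨n, hn⟩ = 0 := by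
    have : gecRes 𝓛 N ψ hψ (smH1π 𝓛 (chiRep ψ) f) = 0 := hx
    rw [this]
    rfl
  rw [gecRes_mk, gecResZ_apply] at h1
  exact h1

theorem gecRes_surjective [N.FiniteIndex] [N.Normal] (hNo : 𝓛.IsOpen N) (hψ : N ≤ ψ.ker)
    (hm : (N.index : k) ≠ 0) : Function.Surjective (gecRes 𝓛 N ψ hψ) := by
  intro φ
  have hφ := φ.2
  have hZ : (N.index : k)⁻¹ • gecTr N ψ (φ : ↥N → k) ∈ smZ1 𝓛 (chiRep ψ) := by
    refine Submodule.smul_mem _ _ ?_
    rw [mem_smZ1]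
    exact ⟨gecTr_dd1 hψ hφ, gecTr_isLC hNo hψ hφ⟩
  refine ⟨smH1π 𝓛 (chiRep ψ) ⟨_, hZ⟩, ?_⟩
  rw [gecRes_mk]
  apply Subtype.ext
  funext n
  rw [gecResZ_apply]
  show ((N.index : k)⁻¹ • gecTr N ψ (φ : ↥N → k)) (n : G) = _
  rw [Pi.smul_apply, gecTr_of_mem hφ n.2, gecExt_coe, smul_eq_mul, ← mul_assoc,
    inv_mul_cancel₀ hm, one_mul]

/-- **Prime-to-`p` descent in degree 1**: `H¹(G, k(ψ)) ≃ Hom_G(N, k(ψ))`. -/
noncomputable def gecDescent [N.FiniteIndex] [N.Normal] (hNo : 𝓛.IsOpen N) (hψ : N ≤ ψ.ker)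
    (hm : (N.index : k) ≠ 0) : smH1 𝓛 (chiRep ψ) ≃ₗ[k] ↥(gecEqHom 𝓛 N ψ) :=
  LinearEquiv.ofBijective (gecRes 𝓛 N ψ hψ)
    ⟨gecRes_injective 𝓛 N ψ hψ hm, gecRes_surjective 𝓛 N ψ hNo hψ hm⟩

theorem gecDescent_mk [N.FiniteIndex] [N.Normal] (hNo : 𝓛.IsOpen N) (hψ : N ≤ ψ.ker)
    (hm : (N.index : k) ≠ 0) (f : ↥(smZ1 𝓛 (chiRep ψ))) (n : ↥N) :
    (gecDescent 𝓛 N ψ hNo hψ hm (smH1π 𝓛 (chiRep ψ) f) : ↥N → k) n = (f : G → k) n := rfl

end Main

end Fermat.Agent.S56
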