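/-
S56 / GEC, leaf G1 (C1a): prime-to-`p` descent in Kummer form, from `gecDescent`.
-/
import Fermat.Agent.S56.Gec.MainDefs
import Fermat.Agent.S56.Gec.Stable
import Fermat.Agent.S56.Gec.Descent
import Fermat.Agent.S55.SB.Galois

set_option autoImplicit false
set_option linter.unusedSectionVars false
noncomputable section
namespace Fermat.Agent.S56
open Fermat.Agent.S55 NumberField IsDedekindDomain ExtCitation

variable {p : ℕ} [Fact p.Prime] (S : Finset Nat.Primes) {k : Type} [Field k] [Algebra (ZMod p) k]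
  {H : Subgroup GQ} {E : IntermediateField ℚ (AlgebraicClosure ℚ)} [NumberField ↥E]

/-- the identification `Gal(ℚ̄/E) ≃ ker (H → Aut E)` -/
def gecdkIota (hEH : E.fixingSubgroup ≤ H) (hst : GecStable H E) :
    ↥E.fixingSubgroup ≃ ↥(gecRestr hst).ker where
  toFun n := ⟨⟨(n : GQ), hEH n.2⟩, (mem_gecRestr_ker hst _).2 n.2⟩
  invFun m := ⟨((m : ↥H) : GQ), (mem_gecRestr_ker hst _).1 m.2⟩
  left_inv _ := rfl
  right_inv _ := rfl

theorem gecdk_mem_iff (hEH : E.fixingSubgroup ≤ H) (hst : GecStable H E) (ψ : ↥H →* kˣ)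
    (φ : ↥E.fixingSubgroup → k) :
    φ ∈ gecKumHom k S E ⊓ gecKumEq E ψ ↔
      (φ ∘ (gecdkIota hEH hst).symm) ∈ gecEqHom ((levelsS S).sub H) (gecRestr hst).ker ψ := by
  rw [Submodule.mem_inf, mem_gecEqHom, gecKumHom, mem_smZ1, mem_gecKumEq]
  constructor
  · rintro ⟨⟨h1, U, ⟨U0, hU0, rfl⟩, hU⟩, h2⟩
    refine ⟨⟨(U0.comap H.subtype).comap (gecRestr hst).ker.subtype,
      ⟨U0.comap H.subtype, ⟨U0, hU0, rfl⟩, rfl⟩, ?_⟩, ?_, ?_⟩
    · intro g s hs
      exact hU ((gecdkIota hEH hst).symm g) ((gecdkIota hEH hst).symm s) hs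
    · intro n n'
      have := congrFun h1 ((gecdkIota hEH hst).symm n, (gecdkIota hEH hst).symm n')
      simp only [dd1, LinearMap.coe_mk, AddHom.coe_mk, Pi.zero_apply] at this
      have h3 : (φ ∘ (gecdkIota hEH hst).symm) (n * n') =
          φ ((gecdkIota hEH hst).symm n * (gecdkIota hEH hst).symm n') := rfl
      rw [h3]
      simp only [Function.comp_apply]
      have h4 : (1 : Representation k ↥E.fixingSubgroup k) ((gecdkIota hEH hst).symm n)
          (φ ((gecdkIota hEH hst).symm n')) = φ ((gecdkIota hEH hst).symm n') := rfl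
      rw [h4] at this
      linear_combination -this
    · intro g n hn
      exact h2 g ((gecdkIota hEH hst).symm n) ((mem_gecRestr_ker hst _).1 hn)
  · rintro ⟨⟨U, ⟨U1, ⟨U0, hU0, rfl⟩, rfl⟩, hU⟩, h2, h3⟩
    refine ⟨⟨?_, U0.comap E.fixingSubgroup.subtype, ⟨U0, hU0, rfl⟩, ?_⟩, ?_⟩
    · funext ⟨n, n'⟩
      simp only [dd1, LinearMap.coe_mk, AddHom.coe_mk, Pi.zero_apply]
      have h4 : (1 : Representation k ↥E.fixingSubgroup k) n (φ n') = φ n' := rfl
      rw [h4]
      have := h2 (gecdkIota hEH hst n) (gecdkIota hEH hst n')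
      have h5 : (φ ∘ (gecdkIota hEH hst).symm) (gecdkIota hEH hst n * gecdkIota hEH hst n') =
          φ (n * n') := rfl
      rw [h5] at this
      simp only [Function.comp_apply, Equiv.symm_apply_apply] at this
      rw [this]
      ring
    · intro g s hs
      exact hU (gecdkIota hEH hst g) (gecdkIota hEH hst s) hs
    · intro h n hn
      exact h3 h (gecdkIota hEH hst n) ((mem_gecRestr_ker hst _).2 hn)

/-- **G1 (C1a).** prime-to-`p` descent in Kummer form. -/
theorem gec_descent_kum (hES : E.IsUnramifiedOutside S) (hEH : E.fixingSubgroup ≤ H)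
    (hst : GecStable H E) (hΔ : (Nat.card (GecDelta hst)).Coprime p)
    (ψ : ↥H →* kˣ) (hψ : (gecRestr hst).ker ≤ ψ.ker) :
    ∃ e : smH1 ((levelsS S).sub H) (chiRep ψ) ≃ₗ[k] ↥(gecKumHom k S E ⊓ gecKumEq E ψ),
      ∀ (f : ↥(smZ1 ((levelsS S).sub H) (chiRep ψ))) (n : ↥E.fixingSubgroup),
        ((e (smH1π ((levelsS S).sub H) (chiRep ψ) f) : ↥(gecKumHom k S E ⊓ gecKumEq E ψ)) : ↥E.fixingSubgroup → k) n =
          (f : ↥H → k) ⟨(n : GQ), hEH n.2⟩ := by
  classical
  have hp : p.Prime := Fact.out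
  have hfi : (gecRestr hst).ker.FiniteIndex := Subgroup.finiteIndex_of_finite_quotient
  have hidx : (((gecRestr hst).ker.index : ℕ) : k) ≠ 0 := by
    have : CharP k p := charP_of_injective_algebraMap (algebraMap (ZMod p) k).injective p
    rw [Subgroup.index_eq_card, Ne, CharP.cast_eq_zero_iff k p]
    exact (Nat.Prime.coprime_iff_not_dvd hp).1 hΔ.symm
  have hNo : ((levelsS S).sub H).IsOpen (gecRestr hst).ker := by
    obtain ⟨U, hU, hUE⟩ := (sb_isOpen_iff S E.fixingSubgroup).2 ⟨E, hES, rfl⟩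
    exact ⟨U.comap H.subtype, ⟨U, hU, rfl⟩, fun h hh => (mem_gecRestr_ker hst h).2 (hUE hh)⟩
  set e0 := gecDescent ((levelsS S).sub H) (gecRestr hst).ker ψ hNo hψ hidx with he0
  set e2 : (↥(gecRestr hst).ker → k) ≃ₗ[k] (↥E.fixingSubgroup → k) :=
    LinearEquiv.funCongrLeft k k (gecdkIota hEH hst) with he2
  have hmap : (gecEqHom ((levelsS S).sub H) (gecRestr hst).ker ψ).map
      (e2 : (↥(gecRestr hst).ker → k) →ₗ[k] (↥E.fixingSubgroup → k)) =
      gecKumHom k S E ⊓ gecKumEq E ψ := by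
    ext φ
    rw [Submodule.mem_map_equiv, gecdk_mem_iff S hEH hst ψ φ]
    rfl
  refine ⟨e0.trans (LinearEquiv.ofSubmodules e2 _ _ hmap), fun f n => ?_⟩
  rfl

end Fermat.Agent.S56
end
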