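/-
S56 / GEC / block H2F (row 433, helper18): `gec_h2_formula` VERBATIM from `Gec/Spec.lean`
(origin/helper9 36dd77f) — the duality half of the base case of Tate's global Euler characteristic:
`h²(H, ψ) + h⁰(H, ψ*) = dim Ш¹(H, ψ*) + Σ_w h⁰(H_w, ψ*)`, with finiteness of `H²`.

Assembly: the S55 duality package (`s56base_exists_tr`, `dualityPkg_of_base`,
`pair02_nondeg_left_of_cd2`) applied over `𝔽_p` to the twisted induced perfect pair
`(Ind_H ψ, Ind_H ψ*)` (`h2f_perfPair`) in the general squeeze `h2f_general`; then Shapiro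
(`smShapiro0/2`), Mackey–Shapiro (`asmsSha1`, `mackeyShapiroP0`) and restriction of scalars `k/𝔽_p`
(`Ec/Scalars.lean`, `Gec/H2/Transport.lean`).
-/
import Fermat.Agent.S56.Gec.H2.General
import Fermat.Agent.S56.Gec.H2.Pair
import Fermat.Agent.S56.Gec.H2.Transport
import Fermat.Agent.S56.Top.Base
import Fermat.Agent.S55.Asm.ShaTransport

set_option autoImplicit false
set_option linter.style.haveILetI false

noncomputable section

namespace Fermat.Agent.S56

open Fermat.Agent.S55 ExtCitation Module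

variable {p : ℕ} [Fact p.Prime] (S : Finset Nat.Primes) {k : Type} [Field k] [Algebra (ZMod p) k]
  {H : Subgroup GQ}

set_option maxSynthPendingDepth 3 in
/-- the formula over `𝔽_p` for the induced modules -/
theorem h2f_formula_ind [FiniteDimensional (ZMod p) k] (hp2 : p ≠ 2) (hpS : pPrime p ∈ S)
    (hH : (levelsS S).IsOpen H)
    (ψ : ↥H →* kˣ) (hψ : ∃ U, (levelsS S).IsLevel U ∧ ∀ h : ↥H, (h : GQ) ∈ U → ψ h = 1)
    (hsha : FiniteDimensional (ZMod p)
      ↥(sha1 (locSysS S) (indRep H (ecdChar (ZMod p) (gecStar p ψ))))) :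
    FiniteDimensional (ZMod p) (smH2 (levelsS S) (indRep H (ecdChar (ZMod p) ψ))) ∧
    finrank (ZMod p) (smH2 (levelsS S) (indRep H (ecdChar (ZMod p) ψ))) +
        finrank (ZMod p) ↥(smH0 (indRep H (ecdChar (ZMod p) (gecStar p ψ)))) =
      finrank (ZMod p) ↥(sha1 (locSysS S) (indRep H (ecdChar (ZMod p) (gecStar p ψ)))) +
        ∑ v : ↥S, finrank (ZMod p)
          ↥(smH0 ((locSysS S).rep (indRep H (ecdChar (ZMod p) (gecStar p ψ))) v)) := by
  have hχ := cycloChar_smooth (p := p) S hpS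
  obtain ⟨tr, htr, hlam, hbase⟩ := s56base_exists_tr hp2 S hpS
  obtain ⟨β, hP, hP'⟩ := h2f_perfPair S hpS hH ψ hψ
  have hpkg := dualityPkg_of_base (locSysS S) (cycloChar p) p hχ tr hbase _ _ _ hP
  have hpkg' := dualityPkg_of_base (locSysS S) (cycloChar p) p hχ tr hbase _ _ _ hP'
  have hloc : ∀ b : ∀ v, ↥(smH0 ((locSysS S).rep
      (indRep H (ecdChar (ZMod p) (gecStar p ψ))) v)),
      (∀ c, pair02 (locSysS S) hP'.pd tr b c = 0) → b = 0 := by
    intro b hb
    refine pair02_nondeg_left_of_cd2 (locSysS S) (cycloChar p) tr ?_ hlam _ _ _ hP' b hb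
    intro v N _ _ _ ρN hN x
    have hχv : ∃ U, ((locSysS S).lev v).IsLevel U ∧
        U ≤ ((cycloChar p).comp ((locSysS S).r v)).ker := by
      obtain ⟨U, hU, hle⟩ := hχ
      obtain ⟨W, hW, hWU⟩ := (locSysS S).cont v U hU
      exact ⟨W, hW, fun γ hγ => hle (hWU hγ)⟩
    exact smH3_subsingleton_of_base ((locSysS S).lev v) ((cycloChar p).comp ((locSysS S).r v)) p
      hχv (lb_h3_locSysS S v) ρN hN x
  haveI : Nonempty ↥S := ⟨⟨pPrime p, hpS⟩⟩
  exact h2f_general (locSysS S) (cycloChar p) hP hP' tr hpkg hpkg' hloc hsha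

set_option maxSynthPendingDepth 3 in
/-- **DUALITY HALF = package H2F.** -/
theorem gec_h2_formula [FiniteDimensional (ZMod p) k] (hp2 : p ≠ 2) (hpS : pPrime p ∈ S)
    (hH : (levelsS S).IsOpen H)
    (ψ : ↥H →* kˣ) (hψ : ∃ U, (levelsS S).IsLevel U ∧ ∀ h : ↥H, (h : GQ) ∈ U → ψ h = 1)
    (T : ↥S → Finset GQ) (hT : IsDoubleCosetReps (locSysS S) H T)
    (hfin : FiniteDimensional k ↥(sha1 (locSysMackey (locSysS S) H T) (chiRep (gecStar p ψ)))) :
    FiniteDimensional k (smH2 ((levelsS S).sub H) (chiRep ψ)) ∧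
    Module.finrank k (smH2 ((levelsS S).sub H) (chiRep ψ)) +
        Module.finrank k ↥(smH0 (chiRep (gecStar p ψ))) =
      Module.finrank k ↥(sha1 (locSysMackey (locSysS S) H T) (chiRep (gecStar p ψ))) +
        ∑ w : (Σ q : ↥S, ↥(T q)), Module.finrank k
          ↥(smH0 ((locSysMackey (locSysS S) H T).rep (chiRep (gecStar p ψ)) w)) := by
  classical
  set rep : ∀ v : ↥S, ↥(T v) → GQ := fun v t => (t : GQ) with hrepdef
  have hrep : ∀ v, IsDCReps ((locSysS S).r v) H (rep v) := fun v => hT.isDCReps v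
  -- `Ш¹` of the induced module is finite
  have hsha' : FiniteDimensional (ZMod p)
      ↥(sha1 ((locSysS S).mackey H rep) (ecdChar (ZMod p) (gecStar p ψ))) :=
    h2ft_finite_sha1 ((locSysS S).mackey H rep) (gecStar p ψ) hfin
  have hsha : FiniteDimensional (ZMod p)
      ↥(sha1 (locSysS S) (indRep H (ecdChar (ZMod p) (gecStar p ψ)))) :=
    asms_b2f (locSysS S) H rep _ hrep hH hsha'
  obtain ⟨hf2, hform⟩ := h2f_formula_ind S hp2 hpS hH ψ hψ hsha
  -- transport of the four terms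
  have hd : 0 < finrank (ZMod p) k := Module.finrank_pos
  have t1 : finrank (ZMod p) (smH2 (levelsS S) (indRep H (ecdChar (ZMod p) ψ))) =
      finrank (ZMod p) k * finrank k (smH2 ((levelsS S).sub H) (chiRep ψ)) := by
    rw [LinearEquiv.finrank_eq (smShapiro2 (levelsS S) (ecdChar (ZMod p) ψ) hH),
      ecgs_finrank_smH2]
  have t2 : finrank (ZMod p) ↥(smH0 (indRep H (ecdChar (ZMod p) (gecStar p ψ)))) =
      finrank (ZMod p) k * finrank k ↥(smH0 (chiRep (gecStar p ψ))) := by
    rw [LinearEquiv.finrank_eq (smShapiro0 H (ecdChar (ZMod p) (gecStar p ψ))),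
      ecgs_finrank_smH0]
  have t3 : finrank (ZMod p)
      ↥(sha1 (locSysS S) (indRep H (ecdChar (ZMod p) (gecStar p ψ)))) =
      finrank (ZMod p) k *
        finrank k ↥(sha1 (locSysMackey (locSysS S) H T) (chiRep (gecStar p ψ))) := by
    rw [LinearEquiv.finrank_eq (asmsSha1 (locSysS S) H rep _ hrep hH)]
    exact h2ft_finrank_sha1 ((locSysS S).mackey H rep) (gecStar p ψ)
  have t4 : ∑ v : ↥S, finrank (ZMod p)
        ↥(smH0 ((locSysS S).rep (indRep H (ecdChar (ZMod p) (gecStar p ψ))) v)) =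
      finrank (ZMod p) k * ∑ w : (Σ q : ↥S, ↥(T q)), finrank k
          ↥(smH0 ((locSysMackey (locSysS S) H T).rep (chiRep (gecStar p ψ)) w)) := by
    haveI : H.FiniteIndex := dev_finiteIndex_of_isOpen (levelsS S) H hH
    haveI := indSpace_finiteDimensional H (ecdChar (ZMod p) (gecStar p ψ))
    rw [← Module.finrank_pi_fintype (ZMod p),
      LinearEquiv.finrank_eq (mackeyShapiroP0 (locSysS S) H rep _ hrep),
      Module.finrank_pi_fintype (ZMod p), Finset.mul_sum]
    refine Finset.sum_congr rfl fun w _ => ?_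
    exact h2ft_finrank_locH0 ((locSysS S).mackey H rep) (gecStar p ψ) w
  refine ⟨?_, ?_⟩
  · haveI : Module.Finite (ZMod p) (smH2 ((levelsS S).sub H) (ecdChar (ZMod p) ψ)) :=
      Module.Finite.equiv (smShapiro2 (levelsS S) (ecdChar (ZMod p) ψ) hH)
    exact h2ft_finite_smH2 ψ this
  · rw [t1, t2, t3, t4, ← mul_add, ← mul_add] at hform
    exact Nat.eq_of_mul_eq_mul_left hd hform

end Fermat.Agent.S56

end
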