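/-
S56 / GEC, leaf G2 KSPAN (row 427, helper16): `gec_kumHom_eq_span` + `gec_kumSpan_finite` VERBATIM
from Gec/Spec.lean (helper9 a5fb3b2).  The smooth additive functions `N → k` are the `k`-span of the
`k`-valued Kummer functions of `V_S`; the span of the Kummer functions of `A` is finite-dimensional
when `A/Eˣᵖ` is finite.
-/
import Fermat.Agent.S56.Gec.MainDefs

set_option autoImplicit false
set_option linter.unusedVariables false
set_option linter.unusedSectionVars false

noncomputable section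

namespace Fermat.Agent.S56

open Fermat.Agent.S55 NumberField IsDedekindDomain ExtCitation

section Aux

variable {p : ℕ} [Fact p.Prime] {k : Type} [Field k] [Algebra (ZMod p) k]
  {G : Type*} [Group G]

/-- a `1`-cocycle for the trivial action is additive -/
theorem gecks_add_of_dd1 {R : Type*} [CommRing R] (f : G → R)
    (hf : dd1 (1 : Representation R G R) f = 0) (σ τ : G) : f (σ * τ) = f σ + f τ := by
  have h1 := congrFun hf (σ, τ)
  rw [dd1_apply] at h1
  have h2 : f τ - f (σ * τ) + f σ = 0 := by simpa using h1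
  linear_combination -h2

theorem gecks_dd1_of_add {R : Type*} [CommRing R] (f : G → R)
    (hf : ∀ σ τ : G, f (σ * τ) = f σ + f τ) : dd1 (1 : Representation R G R) f = 0 := by
  funext x
  obtain ⟨σ, τ⟩ := x
  rw [dd1_apply, hf]
  simp

/-- a level-constant function has finite range -/
theorem gecks_finite_range (𝓛 : Levels G) {X : Type*} (f : G → X) (hf : IsLC₁ 𝓛 f) :
    (Set.range f).Finite := by
  obtain ⟨U, hU, h⟩ := hf
  have := 𝓛.finiteIndex U hU
  have : Finite (G ⧸ U) := Subgroup.finite_quotient_of_finiteIndex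
  have hwd : ∀ a b : G, QuotientGroup.leftRel U a b → f a = f b := by
    intro a b hab
    rw [QuotientGroup.leftRel_apply] at hab
    have := h a (a⁻¹ * b) hab
    rw [mul_inv_cancel_left] at this
    exact this.symm
  have : Set.range f ⊆ Set.range (Quotient.lift f hwd : G ⧸ U → X) := by
    rintro _ ⟨g, rfl⟩
    exact ⟨QuotientGroup.mk g, rfl⟩
  exact (Set.finite_range _).subset this

end Aux

section GaloisLeaves

variable {p : ℕ} [Fact p.Prime] (S : Finset Nat.Primes) {k : Type} [Field k] [Algebra (ZMod p) k]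
  {H : Subgroup GQ} {E : IntermediateField ℚ (AlgebraicClosure ℚ)} [NumberField ↥E]
  {ζ : AlgebraicClosure ℚ}

/-- the Kummer functions of `V_S` are smooth and additive -/
theorem gecks_kumFun_mem (hζ : IsPrimitiveRoot ζ p) (hζE : ζ ∈ E)
    (hpS : ∃ q ∈ S, ((q : Nat.Primes) : ℕ) = p) (hES : E.IsUnramifiedOutside S) (a : (↥E)ˣ)
    (ha : a ∈ gkV ↥E (gkT S ↥E : Set (HeightOneSpectrum (𝓞 ↥E))) p) :
    gecKumFun p k ζ E a ∈ gecKumHom k S E := by
  have h1 := (sbKumFun_mem_smZ1_iff hζ E hζE S hpS hES a).mpr ha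
  rw [mem_smZ1] at h1
  obtain ⟨hd, hlc⟩ := h1
  unfold gecKumHom
  rw [mem_smZ1]
  refine ⟨gecks_dd1_of_add _ ?_, hlc.comp (algebraMap (ZMod p) k)⟩
  intro σ τ
  unfold gecKumFun
  rw [gecks_add_of_dd1 _ hd, map_add]

/-- every smooth additive function is in the span of the Kummer functions of `V_S` -/
theorem gecks_mem_span (hζ : IsPrimitiveRoot ζ p) (hζE : ζ ∈ E)
    (hpS : ∃ q ∈ S, ((q : Nat.Primes) : ℕ) = p) (hES : E.IsUnramifiedOutside S)
    (φ : ↥E.fixingSubgroup → k) (hφ : φ ∈ gecKumHom k S E) :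
    φ ∈ gecKumSpan p k ζ E (gkV ↥E (gkT S ↥E : Set (HeightOneSpectrum (𝓞 ↥E))) p) := by
  classical
  unfold gecKumHom at hφ
  rw [mem_smZ1] at hφ
  obtain ⟨hd, hlc⟩ := hφ
  have hadd := gecks_add_of_dd1 φ hd
  have hfin : (Set.range φ).Finite := gecks_finite_range _ φ hlc
  set W : Submodule (ZMod p) k := Submodule.span (ZMod p) (Set.range φ) with hW
  have : FiniteDimensional (ZMod p) ↥W := FiniteDimensional.span_of_finite (ZMod p) hfin
  have hmem : ∀ n, φ n ∈ W := fun n => Submodule.subset_span ⟨n, rfl⟩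
  set b := Module.finBasis (ZMod p) ↥W with hb
  -- the coordinate functions
  set c : Fin (Module.finrank (ZMod p) ↥W) → ↥E.fixingSubgroup → ZMod p :=
    fun i n => b.repr ⟨φ n, hmem n⟩ i with hc
  have hcZ : ∀ i, c i ∈ smZ1 ((levelsS S).sub E.fixingSubgroup)
      (1 : Representation (ZMod p) ↥E.fixingSubgroup (ZMod p)) := by
    intro i
    rw [mem_smZ1]
    constructor
    · apply gecks_dd1_of_add
      intro σ τ
      have : (⟨φ (σ * τ), hmem _⟩ : ↥W) = ⟨φ σ, hmem _⟩ + ⟨φ τ, hmem _⟩ :=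
        Subtype.ext (hadd σ τ)
      simp only [hc, this, map_add, Finsupp.add_apply]
    · have : c i = (fun x : k => if h : x ∈ W then b.repr ⟨x, h⟩ i else 0) ∘ φ := by
        funext n
        simp only [hc, Function.comp_apply, dif_pos (hmem n)]
      rw [this]
      exact hlc.comp _
  choose a ha hca using fun i => sbKumFun_surjective hζ E hζE S hpS hES (c i) (hcZ i)
  have hφeq : φ = ∑ i, ((b i : ↥W) : k) • gecKumFun p k ζ E (a i) := by
    funext n
    have h1 := b.sum_repr ⟨φ n, hmem n⟩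
    have h2 : φ n = ∑ i, (b.repr ⟨φ n, hmem n⟩ i) • ((b i : ↥W) : k) := by
      have := congrArg (fun w : ↥W => (w : k)) h1
      simp only [Submodule.coe_sum, Submodule.coe_smul] at this
      exact this.symm
    rw [h2, Finset.sum_apply]
    apply Finset.sum_congr rfl
    intro i _
    rw [Pi.smul_apply, smul_eq_mul, Algebra.smul_def, mul_comm]
    congr 1
    unfold gecKumFun
    rw [← hca i]
  rw [hφeq]
  apply Submodule.sum_mem
  intro i _
  apply Submodule.smul_mem
  exact Submodule.subset_span ⟨⟨a i, ha i⟩, rfl⟩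

/-- **G2 KSPAN.** -/
theorem gec_kumHom_eq_span (hζ : IsPrimitiveRoot ζ p) (hζE : ζ ∈ E)
    (hpS : ∃ q ∈ S, ((q : Nat.Primes) : ℕ) = p) (hES : E.IsUnramifiedOutside S) :
    gecKumHom k S E =
      gecKumSpan p k ζ E (gkV ↥E (gkT S ↥E : Set (HeightOneSpectrum (𝓞 ↥E))) p) := by
  apply le_antisymm
  · intro φ hφ
    exact gecks_mem_span S hζ hζE hpS hES φ hφ
  · unfold gecKumSpan
    rw [Submodule.span_le]
    rintro _ ⟨a, rfl⟩
    exact gecks_kumFun_mem S hζ hζE hpS hES a a.2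

/-- the `k`-valued Kummer function is additive in `a` -/
theorem gecks_kumFun_mul (hζ : IsPrimitiveRoot ζ p) (hζE : ζ ∈ E) (a b : (↥E)ˣ) :
    gecKumFun p k ζ E (a * b) = gecKumFun p k ζ E a + gecKumFun p k ζ E b := by
  funext σ
  unfold gecKumFun
  rw [sbKumFun_mul hζ E hζE a b, Pi.add_apply, Pi.add_apply, map_add]

/-- the `k`-valued Kummer function of a `p`-th power vanishes -/
theorem gecks_kumFun_pow (hζ : IsPrimitiveRoot ζ p) (hζE : ζ ∈ E) (c : (↥E)ˣ) :
    gecKumFun p k ζ E (c ^ p) = 0 := by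
  funext σ
  unfold gecKumFun
  rw [(sbKumFun_eq_zero_iff hζ E hζE (c ^ p)).mpr ⟨c, rfl⟩, Pi.zero_apply, map_zero,
    Pi.zero_apply]

/-- finiteness of the span (`A/Eˣᵖ` finite) -/
theorem gec_kumSpan_finite (hζ : IsPrimitiveRoot ζ p) (hζE : ζ ∈ E) (A : Subgroup (↥E)ˣ)
    (hfin : (powMonoidHom p : (↥E)ˣ →* (↥E)ˣ).range.relIndex A ≠ 0) :
    FiniteDimensional k ↥(gecKumSpan p k ζ E A) := by
  classical
  set P : Subgroup ↥A := (powMonoidHom p : (↥E)ˣ →* (↥E)ˣ).range.subgroupOf A with hP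
  have : P.FiniteIndex := ⟨hfin⟩
  have : Finite (↥A ⧸ P) := Subgroup.finite_quotient_of_finiteIndex
  have hsub : (Set.range fun a : ↥A => gecKumFun p k ζ E (a : (↥E)ˣ)) ⊆
      Set.range fun q : ↥A ⧸ P => gecKumFun p k ζ E ((q.out : ↥A) : (↥E)ˣ) := by
    rintro _ ⟨a, rfl⟩
    refine ⟨QuotientGroup.mk a, ?_⟩
    have h1 : (QuotientGroup.mk ((QuotientGroup.mk a : ↥A ⧸ P).out) : ↥A ⧸ P) =
        QuotientGroup.mk a := QuotientGroup.out_eq' _
    rw [QuotientGroup.eq] at h1
    rw [hP, Subgroup.mem_subgroupOf] at h1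
    obtain ⟨c, hc⟩ := h1
    have h2 : ((a : ↥A) : (↥E)ˣ) =
        (((QuotientGroup.mk a : ↥A ⧸ P).out : ↥A) : (↥E)ˣ) * c ^ p := by
      have hc' : c ^ p = (((QuotientGroup.mk a : ↥A ⧸ P).out : ↥A) : (↥E)ˣ)⁻¹ * (a : (↥E)ˣ) := by
        rw [← powMonoidHom_apply, hc]
        rfl
      rw [hc']
      simp
    show gecKumFun p k ζ E (((QuotientGroup.mk a : ↥A ⧸ P).out : ↥A) : (↥E)ˣ) =
      gecKumFun p k ζ E (a : (↥E)ˣ)
    rw [h2, gecks_kumFun_mul hζ hζE, gecks_kumFun_pow hζ hζE, add_zero]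
  have hfinset : (Set.range fun a : ↥A => gecKumFun p k ζ E (a : (↥E)ˣ)).Finite :=
    (Set.finite_range _).subset hsub
  unfold gecKumSpan
  exact FiniteDimensional.span_of_finite k hfinset

end GaloisLeaves

end Fermat.Agent.S56
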