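/-
S56 / GEC, leaf G3 KD = KUMMER DUALITY (row 428, helper16): `gec_kummer_duality` VERBATIM from
Gec/Spec.lean (helper9 a5fb3b2 / 1ec7f10).

Route: `Q := A/Eˣᵖ` (finite), `V := Hom(Q, k)` with the representation `(δ F)(a) = F(δ⁻¹ a)` of
`Δ`; `euX χ ρ_Q` is the `χ⁻¹`-eigenspace of `V`; by G4 (`gec_transpose`, helper12) it has the
dimension of the `χ⁻¹`-eigenspace `D` of the transposed action on `Dual V`.  The canonical map
`Ξ : Dual V → (N → k)`, `Λ ↦ (n ↦ Λ(ev_n))`, `ev_n(a) = f_a(n)`, is injective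
(`geckd_core`: `𝔽_p`-independent `𝔽_p`-valued functions are `k`-independent), has range the span of
the Kummer functions of `A`, and `Ξ Λ ∈ gecKumEq ψ ↔ Λ ∈ D` for `χ = ψ* = ω ψ⁻¹`
(`gec_kumFun_conj`: `ev_{h n h⁻¹} = ω(h) · (h̄ · ev_n)`).  Helper names are prefixed `geckd`.
-/
import Fermat.Agent.S56.Gec.MainDefs
import Fermat.Agent.S56.Gec.Stable
import Fermat.Agent.S56.Gec.Transpose
import Fermat.Agent.S56.Gec.KumSpan

set_option autoImplicit false
set_option linter.unusedVariables false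
set_option linter.unusedSectionVars false

noncomputable section

namespace Fermat.Agent.S56

open Fermat.Agent.S55 NumberField IsDedekindDomain ExtCitation

/-! ## abstract linear algebra -/

section Abstract

variable {k : Type*} [Field k] {Q : Type*} [AddCommGroup Q]

/-- additive maps as functions, linearly -/
def geckdCoe (k : Type*) [Field k] (Q : Type*) [AddCommGroup Q] : (Q →+ k) →ₗ[k] (Q → k) where
  toFun F := ⇑F
  map_add' _ _ := rfl
  map_smul' _ _ := rfl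

theorem geckdCoe_injective : Function.Injective (geckdCoe k Q) := by
  intro F G h
  exact DFunLike.coe_injective h

instance geckd_finite [Finite Q] : Module.Finite k (Q →+ k) :=
  Module.Finite.of_injective (geckdCoe k Q) geckdCoe_injective

/-- every linear form on `Hom(Q, k)` (`Q` finite) is a combination of evaluations -/
theorem geckd_dual_eq_sum [Fintype Q] (Λ : Module.Dual k (Q →+ k)) :
    ∃ c : Q → k, ∀ F : Q →+ k, Λ F = ∑ a, c a * F a := by
  classical
  obtain ⟨L, hL⟩ := LinearMap.dualMap_surjective_of_injective (geckdCoe_injective (k := k) (Q := Q)) Λ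
  refine ⟨fun a => L (fun j => if a = j then 1 else 0), fun F => ?_⟩
  rw [← hL, LinearMap.dualMap_apply, LinearMap.pi_apply_eq_sum_univ L]
  apply Finset.sum_congr rfl
  intro a _
  rw [smul_eq_mul, mul_comm]
  rfl

/-- the contragredient-type representation on `Hom(Q, k)`: `(δ F)(a) = F(δ⁻¹ a)` -/
def geckdRep {Δ : Type*} [Group Δ] (ρQ : EuAct Δ Q) : Representation k Δ (Q →+ k) where
  toFun δ :=
    { toFun := fun F => F.comp (ρQ δ⁻¹)
      map_add' := fun F G => rfl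
      map_smul' := fun c F => rfl }
  map_one' := by
    apply LinearMap.ext
    intro F
    apply AddMonoidHom.ext
    intro a
    show F (ρQ (1 : Δ)⁻¹ a) = F a
    rw [inv_one, map_one]
    rfl
  map_mul' δ δ' := by
    apply LinearMap.ext
    intro F
    apply AddMonoidHom.ext
    intro a
    show F (ρQ (δ * δ')⁻¹ a) = F (ρQ δ'⁻¹ (ρQ δ⁻¹ a))
    rw [mul_inv_rev, map_mul]
    rfl

@[simp] theorem geckdRep_apply {Δ : Type*} [Group Δ] (ρQ : EuAct Δ Q) (δ : Δ) (F : Q →+ k)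
    (a : Q) : geckdRep ρQ δ F a = F (ρQ δ⁻¹ a) := rfl

/-- the eigenspace of `geckdRep` for `χ⁻¹` is `euX χ` -/
theorem geckd_eigen_eq_euX {Δ : Type*} [Group Δ] (ρQ : EuAct Δ Q) (χ : Δ →* kˣ) :
    (⨅ δ : Δ, LinearMap.ker (geckdRep (k := k) ρQ δ - (((χ⁻¹ δ : kˣ) : kˣ) : k) • LinearMap.id)) =
      euX χ ρQ := by
  ext F
  simp only [Submodule.mem_iInf, LinearMap.mem_ker, LinearMap.sub_apply, LinearMap.smul_apply,
    LinearMap.id_apply, sub_eq_zero, mem_euX]
  constructor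
  · intro h δ a
    have h1 := congrArg (fun G : Q →+ k => G a) (h δ⁻¹)
    simp only [geckdRep_apply, inv_inv, AddMonoidHom.smul_apply, smul_eq_mul,
      MonoidHom.inv_apply, map_inv] at h1
    exact h1
  · intro h δ
    apply AddMonoidHom.ext
    intro a
    simp only [geckdRep_apply, AddMonoidHom.smul_apply, smul_eq_mul, MonoidHom.inv_apply]
    rw [h δ⁻¹ a, map_inv]

/-- evaluation at `q` as a linear form on `Hom(Q, k)` -/
def geckdEval (k : Type*) [Field k] {Q : Type*} [AddCommGroup Q] (q : Q) :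
    Module.Dual k (Q →+ k) where
  toFun F := F q
  map_add' _ _ := rfl
  map_smul' _ _ := rfl

@[simp] theorem geckdEval_apply (q : Q) (F : Q →+ k) : geckdEval k q F = F q := rfl

end Abstract

section Core

variable {p : ℕ} [Fact p.Prime] {k : Type*} [Field k] [Algebra (ZMod p) k]
  {Q : Type*} [AddCommGroup Q] [Fintype Q] {X : Type*}

theorem geckd_natCast_val (m : ZMod p) : ((m.val : ℕ) : k) = algebraMap (ZMod p) k m := by
  have : NeZero p := ⟨(Fact.out : p.Prime).ne_zero⟩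
  conv_rhs => rw [← ZMod.natCast_zmod_val m]
  rw [map_natCast]

/-- **Core**: `𝔽_p`-independent `𝔽_p`-valued functions are `k`-independent (dual form). -/
theorem geckd_core (κ : Q →+ (X → ZMod p)) (hκ : Function.Injective κ) (c : Q → k)
    (h : ∀ x : X, ∑ a, c a * algebraMap (ZMod p) k (κ a x) = 0) (F : Q →+ k) :
    ∑ a, c a * F a = 0 := by
  classical
  have : NeZero p := ⟨(Fact.out : p.Prime).ne_zero⟩
  set e := Module.Basis.ofVectorSpace (ZMod p) k with he
  have hq : ∀ j, ∑ a, (e.repr (c a) j).val • a = 0 := by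
    intro j
    apply hκ
    rw [map_zero, map_sum]
    funext x
    have hx := congrArg (e.coord j) (h x)
    rw [map_zero, map_sum] at hx
    rw [Finset.sum_apply, Pi.zero_apply, ← hx]
    apply Finset.sum_congr rfl
    intro a _
    rw [map_nsmul, Pi.smul_apply, mul_comm (c a), ← Algebra.smul_def, map_smul,
      Module.Basis.coord_apply, smul_eq_mul, nsmul_eq_mul, ZMod.natCast_zmod_val, mul_comm]
  set J0 : Finset _ := Finset.univ.biUnion (fun a : Q => (e.repr (c a)).support) with hJ0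
  have hc : ∀ a, c a = ∑ j ∈ J0, (e.repr (c a) j) • e j := by
    intro a
    have h1 : c a = (e.repr (c a)).sum fun i x => x • e i := (e.linearCombination_repr (c a)).symm
    have hsub : (e.repr (c a)).support ⊆ J0 := by
      intro i hi
      rw [hJ0, Finset.mem_biUnion]
      exact ⟨a, Finset.mem_univ a, hi⟩
    have h2 : ((e.repr (c a)).sum fun i x => x • e i) = ∑ i ∈ J0, (e.repr (c a) i) • e i :=
      Finsupp.sum_of_support_subset _ hsub _ (fun i _ => zero_smul _ _)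
    rw [h2] at h1
    exact h1
  have h2 : ∑ a, c a * F a = ∑ j ∈ J0, e j * F (∑ a, (e.repr (c a) j).val • a) := by
    have : ∀ a, c a * F a = ∑ j ∈ J0, e j * ((e.repr (c a) j).val • F a) := by
      intro a
      conv_lhs => rw [hc a]
      rw [Finset.sum_mul]
      apply Finset.sum_congr rfl
      intro j _
      rw [Algebra.smul_def, nsmul_eq_mul, geckd_natCast_val]
      ring
    rw [Finset.sum_congr rfl (fun a _ => this a), Finset.sum_comm]
    apply Finset.sum_congr rfl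
    intro j _
    rw [← Finset.mul_sum, map_sum]
    congr 1
    apply Finset.sum_congr rfl
    intro a _
    rw [map_nsmul]
  rw [h2]
  apply Finset.sum_eq_zero
  intro j _
  rw [hq j, map_zero, mul_zero]

end Core


/-! ## the Kummer map on `A / Eˣᵖ` -/

section Concrete

variable {p : ℕ} [Fact p.Prime] {k : Type} [Field k] [Algebra (ZMod p) k]
  {H : Subgroup GQ} {E : IntermediateField ℚ (AlgebraicClosure ℚ)} [NumberField ↥E]
  {ζ : AlgebraicClosure ℚ}

/-- the Kummer map on `A` (additive notation) -/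
def geckdKum₀ (hζ : IsPrimitiveRoot ζ p) (hζE : ζ ∈ E) (A : Subgroup (↥E)ˣ) :
    ↥(Subgroup.toAddSubgroup A) →+ (↥E.fixingSubgroup → ZMod p) :=
  AddMonoidHom.mk' (fun a => sbKumFun (p := p) ζ E.fixingSubgroup
      ((((Additive.toMul (a : Additive (↥E)ˣ) : (↥E)ˣ) : ↥E) : AlgebraicClosure ℚ)))
    (fun a b => sbKumFun_mul hζ E hζE _ _)

theorem geckdKum₀_apply (hζ : IsPrimitiveRoot ζ p) (hζE : ζ ∈ E) (A : Subgroup (↥E)ˣ)
    (a : ↥(Subgroup.toAddSubgroup A)) :
    geckdKum₀ hζ hζE A a = sbKumFun (p := p) ζ E.fixingSubgroup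
      ((((Additive.toMul (a : Additive (↥E)ˣ) : (↥E)ˣ) : ↥E) : AlgebraicClosure ℚ)) := rfl

/-- the Kummer map on `A / Eˣᵖ` -/
def geckdKum (hζ : IsPrimitiveRoot ζ p) (hζE : ζ ∈ E) (A : Subgroup (↥E)ˣ) :
    GecQ ↥E p A →+ (↥E.fixingSubgroup → ZMod p) :=
  QuotientAddGroup.lift _ (geckdKum₀ hζ hζE A) (by
    intro a ha
    rw [AddMonoidHom.mem_ker, geckdKum₀_apply]
    obtain ⟨c, hc⟩ := ha
    exact (sbKumFun_eq_zero_iff hζ E hζE _).mpr ⟨c, hc⟩)

theorem geckdKum_mk (hζ : IsPrimitiveRoot ζ p) (hζE : ζ ∈ E) (A : Subgroup (↥E)ˣ)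
    (a : ↥(Subgroup.toAddSubgroup A)) :
    geckdKum hζ hζE A (QuotientAddGroup.mk a) = sbKumFun (p := p) ζ E.fixingSubgroup
      ((((Additive.toMul (a : Additive (↥E)ˣ) : (↥E)ˣ) : ↥E) : AlgebraicClosure ℚ)) := rfl

theorem geckdKum_injective (hζ : IsPrimitiveRoot ζ p) (hζE : ζ ∈ E) (A : Subgroup (↥E)ˣ) :
    Function.Injective (geckdKum hζ hζE A) := by
  rw [injective_iff_map_eq_zero]
  intro q hq
  induction q using QuotientAddGroup.induction_on with
  | H a =>
    rw [geckdKum_mk] at hq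
    obtain ⟨c, hc⟩ := (sbKumFun_eq_zero_iff hζ E hζE _).mp hq
    rw [QuotientAddGroup.eq_zero_iff]
    exact ⟨c, hc⟩

/-- `ev_n : A / Eˣᵖ → k`, `a ↦ f_a(n)` -/
def geckdEv (hζ : IsPrimitiveRoot ζ p) (hζE : ζ ∈ E) (A : Subgroup (↥E)ˣ)
    (n : ↥E.fixingSubgroup) : GecQ ↥E p A →+ k :=
  ((algebraMap (ZMod p) k : ZMod p →+* k) : ZMod p →+ k).comp
    ((Pi.evalAddMonoidHom (fun _ : ↥E.fixingSubgroup => ZMod p) n).comp (geckdKum hζ hζE A))

theorem geckdEv_apply (hζ : IsPrimitiveRoot ζ p) (hζE : ζ ∈ E) (A : Subgroup (↥E)ˣ)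
    (n : ↥E.fixingSubgroup) (q : GecQ ↥E p A) :
    geckdEv (k := k) hζ hζE A n q = algebraMap (ZMod p) k (geckdKum hζ hζE A q n) := rfl

/-- `Ξ : Dual (Hom(A/Eˣᵖ, k)) → (N → k)`, `Λ ↦ (n ↦ Λ(ev_n))` -/
def geckdXi (hζ : IsPrimitiveRoot ζ p) (hζE : ζ ∈ E) (A : Subgroup (↥E)ˣ) :
    Module.Dual k (GecQ ↥E p A →+ k) →ₗ[k] (↥E.fixingSubgroup → k) :=
  LinearMap.pi (fun n => LinearMap.applyₗ (geckdEv (k := k) hζ hζE A n))

theorem geckdXi_apply (hζ : IsPrimitiveRoot ζ p) (hζE : ζ ∈ E) (A : Subgroup (↥E)ˣ)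
    (Λ : Module.Dual k (GecQ ↥E p A →+ k)) (n : ↥E.fixingSubgroup) :
    geckdXi hζ hζE A Λ n = Λ (geckdEv hζ hζE A n) := rfl

theorem geckdXi_eq_sum (hζ : IsPrimitiveRoot ζ p) (hζE : ζ ∈ E) (A : Subgroup (↥E)ˣ)
    [Fintype (GecQ ↥E p A)] (Λ : Module.Dual k (GecQ ↥E p A →+ k)) (c : GecQ ↥E p A → k)
    (hc : ∀ F : GecQ ↥E p A →+ k, Λ F = ∑ a, c a * F a) (n : ↥E.fixingSubgroup) :
    geckdXi hζ hζE A Λ n = ∑ a, c a * algebraMap (ZMod p) k (geckdKum hζ hζE A a n) := by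
  rw [geckdXi_apply, hc]
  rfl

theorem geckdXi_injective (hζ : IsPrimitiveRoot ζ p) (hζE : ζ ∈ E) (A : Subgroup (↥E)ˣ)
    [Finite (GecQ ↥E p A)] : Function.Injective (geckdXi (k := k) hζ hζE A) := by
  classical
  let _ := Fintype.ofFinite (GecQ ↥E p A)
  rw [injective_iff_map_eq_zero]
  intro Λ hΛ
  obtain ⟨c, hc⟩ := geckd_dual_eq_sum (k := k) (Q := GecQ ↥E p A) Λ
  apply LinearMap.ext
  intro F
  rw [hc F, LinearMap.zero_apply]
  refine geckd_core (geckdKum hζ hζE A) (geckdKum_injective hζ hζE A) c (fun n => ?_) F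
  rw [← geckdXi_eq_sum hζ hζE A Λ c hc n, hΛ]
  rfl

/-- the function `n ↦ alg (κ q n)` is a Kummer function of `A` -/
theorem geckd_kum_mem_span (hζ : IsPrimitiveRoot ζ p) (hζE : ζ ∈ E) (A : Subgroup (↥E)ˣ)
    (q : GecQ ↥E p A) :
    (fun n : ↥E.fixingSubgroup => algebraMap (ZMod p) k (geckdKum hζ hζE A q n)) ∈
      gecKumSpan p k ζ E A := by
  induction q using QuotientAddGroup.induction_on with
  | H a =>
    exact Submodule.subset_span
      ⟨(⟨Additive.toMul (a : Additive (↥E)ˣ), a.2⟩ : ↥A), rfl⟩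

theorem geckdXi_mem_span (hζ : IsPrimitiveRoot ζ p) (hζE : ζ ∈ E) (A : Subgroup (↥E)ˣ)
    [Finite (GecQ ↥E p A)] (Λ : Module.Dual k (GecQ ↥E p A →+ k)) :
    geckdXi hζ hζE A Λ ∈ gecKumSpan p k ζ E A := by
  classical
  let _ := Fintype.ofFinite (GecQ ↥E p A)
  obtain ⟨c, hc⟩ := geckd_dual_eq_sum (k := k) (Q := GecQ ↥E p A) Λ
  have h1 : geckdXi hζ hζE A Λ = ∑ a, c a •
      (fun n : ↥E.fixingSubgroup => algebraMap (ZMod p) k (geckdKum hζ hζE A a n)) := by
    funext n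
    rw [geckdXi_eq_sum hζ hζE A Λ c hc n, Finset.sum_apply]
    rfl
  rw [h1]
  exact Submodule.sum_mem _ fun a _ => Submodule.smul_mem _ _ (geckd_kum_mem_span hζ hζE A a)

theorem geckd_span_le_range (hζ : IsPrimitiveRoot ζ p) (hζE : ζ ∈ E) (A : Subgroup (↥E)ˣ) :
    gecKumSpan p k ζ E A ≤ LinearMap.range (geckdXi (k := k) hζ hζE A) := by
  unfold gecKumSpan
  rw [Submodule.span_le]
  rintro _ ⟨a, rfl⟩
  refine ⟨geckdEval k (QuotientAddGroup.mk
    (⟨Additive.ofMul (a : (↥E)ˣ), a.2⟩ : ↥(Subgroup.toAddSubgroup A))), ?_⟩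
  rfl

/-- **conjugation**: `ev_{h n h⁻¹} = ω(h) · (h̄ · ev_n)` -/
theorem geckd_ev_conj (hζ : IsPrimitiveRoot ζ p) (hζE : ζ ∈ E) (hst : GecStable H E)
    (A : Subgroup (↥E)ˣ)
    (hA : ∀ δ : GecDelta hst, ∀ a ∈ A, gecUnitsMap ↥E (GecDelta hst) δ a ∈ A)
    (h : ↥H) (n : ↥E.fixingSubgroup)
    (hn : (h : GQ) * (n : GQ) * ((h : GQ))⁻¹ ∈ E.fixingSubgroup) (q : GecQ ↥E p A) :
    geckdEv (k := k) hζ hζE A ⟨(h : GQ) * (n : GQ) * ((h : GQ))⁻¹, hn⟩ q =
      ((gecOmega p k (h : GQ) : kˣ) : k) *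
        geckdRep (k := k) (gecActQ ↥E (GecDelta hst) p A hA) (QuotientGroup.mk h)
          (geckdEv hζ hζE A n) q := by
  induction q using QuotientAddGroup.induction_on with
  | H a =>
    rw [geckdRep_apply, gecOmega_apply, geckdEv_apply, geckdEv_apply, ← map_mul]
    congr 1
    have hconj := gec_kumFun_conj hζ E hζE ((h : GQ))⁻¹
      (Additive.toMul (a : Additive (↥E)ˣ))
      (gecUnitsMap ↥E (GecDelta hst) (QuotientGroup.mk h)⁻¹ (Additive.toMul (a : Additive (↥E)ˣ)))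
      rfl n ⟨(h : GQ) * (n : GQ) * ((h : GQ))⁻¹, hn⟩ (by rw [inv_inv])
    have h1 : geckdKum hζ hζE A
        ((gecActQ ↥E (GecDelta hst) p A hA) (QuotientGroup.mk h)⁻¹ (QuotientAddGroup.mk a)) n =
        sbKumFun (p := p) ζ E.fixingSubgroup
          ((((gecUnitsMap ↥E (GecDelta hst) (QuotientGroup.mk h)⁻¹
            (Additive.toMul (a : Additive (↥E)ˣ)) : (↥E)ˣ) : ↥E) : AlgebraicClosure ℚ)) n := rfl
    rw [h1, hconj, geckdKum_mk, map_inv, ← mul_assoc, Units.mul_inv, one_mul]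

end Concrete

/-! ## the main statement -/

section GaloisLeaves

variable {p : ℕ} [Fact p.Prime] (S : Finset Nat.Primes) {k : Type} [Field k] [Algebra (ZMod p) k]
  {H : Subgroup GQ} {E : IntermediateField ℚ (AlgebraicClosure ℚ)} [NumberField ↥E]
  {ζ : AlgebraicClosure ℚ}

theorem geckd_finite_quot (A : Subgroup (↥E)ˣ)
    (hfin : (powMonoidHom p : (↥E)ˣ →* (↥E)ˣ).range.relIndex A ≠ 0) :
    Finite (GecQ ↥E p A) := by
  have hidx : ((gecPowAdd ↥E p).addSubgroupOf (Subgroup.toAddSubgroup A)).index ≠ 0 := by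
    show (gecPowAdd ↥E p).relIndex (Subgroup.toAddSubgroup A) ≠ 0
    rw [gecPowAdd, Subgroup.relIndex_toAddSubgroup]
    exact hfin
  have : ((gecPowAdd ↥E p).addSubgroupOf (Subgroup.toAddSubgroup A)).FiniteIndex := ⟨hidx⟩
  exact AddSubgroup.finite_quotient_of_finiteIndex

theorem geckd_card_ne_zero {Δ : Type*} [Group Δ] (hΔ : (Nat.card Δ).Coprime p) :
    (Nat.card Δ : k) ≠ 0 := by
  have h1 : ((Nat.card Δ : ℕ) : ZMod p) ≠ 0 := by
    rw [Ne, ZMod.natCast_eq_zero_iff]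
    intro hdvd
    have := Nat.Coprime.eq_one_of_dvd hΔ.symm hdvd
    exact (Fact.out : p.Prime).one_lt.ne' this
  have h2 : ((Nat.card Δ : ℕ) : k) = algebraMap (ZMod p) k ((Nat.card Δ : ℕ) : ZMod p) :=
    (map_natCast _ _).symm
  rw [h2]
  exact (map_ne_zero_iff _ (algebraMap (ZMod p) k).injective).mpr h1

/-- **G3 KD (Kummer duality).** -/
theorem gec_kummer_duality (hζ : IsPrimitiveRoot ζ p) (hζE : ζ ∈ E) (hEH : E.fixingSubgroup ≤ H)
    (hst : GecStable H E) (hΔ : (Nat.card (GecDelta hst)).Coprime p)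
    (ψ : ↥H →* kˣ) (hψ : (gecRestr hst).ker ≤ ψ.ker) (A : Subgroup (↥E)ˣ)
    (hpow : (powMonoidHom p : (↥E)ˣ →* (↥E)ˣ).range ≤ A)
    (hfin : (powMonoidHom p : (↥E)ˣ →* (↥E)ˣ).range.relIndex A ≠ 0)
    (hA : ∀ δ : GecDelta hst, ∀ a ∈ A, gecUnitsMap ↥E (GecDelta hst) δ a ∈ A) :
    Module.finrank k ↥(gecKumSpan p k ζ E A ⊓ gecKumEq E ψ) =
      euDim (gecQuotChar hst (gecStar p ψ) (gecStar_ker hζ hζE hst ψ hψ))
        (gecActQ ↥E (GecDelta hst) p A hA) := by
  classical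
  have hQfin : Finite (GecQ ↥E p A) := geckd_finite_quot A hfin
  have hΔk : (Nat.card (GecDelta hst) : k) ≠ 0 := geckd_card_ne_zero hΔ
  set ρQ := gecActQ ↥E (GecDelta hst) p A hA with hρQ
  set χs := gecQuotChar hst (gecStar p ψ) (gecStar_ker hζ hζE hst ψ hψ) with hχs
  have hG4 := gec_transpose hΔk (geckdRep (k := k) ρQ) χs⁻¹
  rw [geckd_eigen_eq_euX] at hG4
  unfold euDim
  rw [hG4]
  set D : Submodule k (Module.Dual k (GecQ ↥E p A →+ k)) :=
    ⨅ δ : GecDelta hst, LinearMap.ker ((geckdRep (k := k) ρQ δ).dualMap -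
      (((χs⁻¹ δ : kˣ) : kˣ) : k) • LinearMap.id) with hD
  have hinj := geckdXi_injective (k := k) hζ hζE A
  -- the character computation
  have hchar : ∀ h : ↥H, ((gecOmega p k (h : GQ) : kˣ) : k) *
      (((χs⁻¹ (QuotientGroup.mk h) : kˣ) : kˣ) : k) = ((ψ h : kˣ) : k) := by
    intro h
    rw [← Units.val_mul]
    congr 1
    rw [MonoidHom.inv_apply, hχs, gecQuotChar_mk, gecStar_apply, mul_inv_rev, inv_inv,
      mul_comm ((ψ h : kˣ)), ← mul_assoc, mul_inv_cancel, one_mul]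
  have hmemD : ∀ Λ : Module.Dual k (GecQ ↥E p A →+ k), Λ ∈ D ↔
      ∀ (δ : GecDelta hst) (F : GecQ ↥E p A →+ k),
        Λ (geckdRep (k := k) ρQ δ F) = (((χs⁻¹ δ : kˣ) : kˣ) : k) * Λ F := by
    intro Λ
    simp only [hD, Submodule.mem_iInf, LinearMap.mem_ker, LinearMap.sub_apply,
      LinearMap.smul_apply, LinearMap.id_apply, sub_eq_zero]
    constructor
    · intro h δ F
      have := congrArg (fun L : Module.Dual k (GecQ ↥E p A →+ k) => L F) (h δ)
      simpa using this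
    · intro h δ
      apply LinearMap.ext
      intro F
      simpa using h δ F
  have hev : ∀ (Λ : Module.Dual k (GecQ ↥E p A →+ k)) (h : ↥H) (n : ↥E.fixingSubgroup)
      (hn : (h : GQ) * (n : GQ) * ((h : GQ))⁻¹ ∈ E.fixingSubgroup),
      Λ (geckdEv hζ hζE A ⟨(h : GQ) * (n : GQ) * ((h : GQ))⁻¹, hn⟩) =
        ((gecOmega p k (h : GQ) : kˣ) : k) *
          Λ (geckdRep (k := k) ρQ (QuotientGroup.mk h) (geckdEv hζ hζE A n)) := by
    intro Λ h n hn
    have h1 : geckdEv (k := k) hζ hζE A ⟨(h : GQ) * (n : GQ) * ((h : GQ))⁻¹, hn⟩ =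
        ((gecOmega p k (h : GQ) : kˣ) : k) •
          geckdRep (k := k) ρQ (QuotientGroup.mk h) (geckdEv hζ hζE A n) := by
      apply AddMonoidHom.ext
      intro q
      rw [geckd_ev_conj hζ hζE hst A hA h n hn q]
      rfl
    rw [h1, map_smul, smul_eq_mul]
  have hmap : D.map (geckdXi (k := k) hζ hζE A) = gecKumSpan p k ζ E A ⊓ gecKumEq E ψ := by
    apply le_antisymm
    · rintro _ ⟨Λ, hΛ, rfl⟩
      refine ⟨geckdXi_mem_span hζ hζE A Λ, ?_⟩
      rw [SetLike.mem_coe, mem_gecKumEq]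
      intro h n hn
      rw [geckdXi_apply, geckdXi_apply, hev Λ h n hn, ((hmemD Λ).mp hΛ) _ _, ← mul_assoc,
        hchar h]
    · rintro φ ⟨hφW, hφE⟩
      obtain ⟨Λ, rfl⟩ := geckd_span_le_range hζ hζE A hφW
      refine ⟨Λ, ?_, rfl⟩
      rw [SetLike.mem_coe, mem_gecKumEq] at hφE
      rw [SetLike.mem_coe, hmemD]
      intro δ F
      induction δ using QuotientGroup.induction_on with
      | H h =>
        -- it suffices to check on `Ξ`
        have hgoal : (geckdRep (k := k) ρQ (QuotientGroup.mk h)).dualMap Λ =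
            (((χs⁻¹ (QuotientGroup.mk h) : kˣ) : kˣ) : k) • Λ := by
          apply hinj
          funext n
          have hn : (h : GQ) * (n : GQ) * ((h : GQ))⁻¹ ∈ E.fixingSubgroup := by
            have := gec_conj_mem_fixingSubgroup E ((h : GQ))⁻¹
              (fun x hx => hst _ (H.inv_mem h.2) x hx) n.2
            rwa [inv_inv] at this
          have h1 := hφE h n hn
          rw [geckdXi_apply, geckdXi_apply, hev Λ h n hn, ← hchar h, mul_assoc] at h1
          have h2 := mul_left_cancel₀ (Units.ne_zero _) h1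
          exact h2
        exact LinearMap.congr_fun hgoal F
  rw [← hmap]
  exact (Submodule.equivMapOfInjective (geckdXi (k := k) hζ hζE A) hinj D).finrank_eq.symm

end GaloisLeaves

end Fermat.Agent.S56
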