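/-
S56 / GEC, leaf G12 (row 431): `gec_local_h0_sum` (statement VERBATIM from `Gec/Spec.lean`).

`Σ_w h⁰(H_w, λ) = #{Δ-orbits of places u of E above S with λ|Stab(u) = 1}`, `w = (q, t)` running over
the double coset representatives `T q` of `H \ GQ / D_q`.

* `gecl0_finrank_smH0` : `h⁰` of a character is `1` or `0`;
* `gecl0Place S q g`   : the place of `E` above `q ∈ S` induced by the `g`-twisted embedding;
* `gecl0_smul_place`   : `h̄ • u_g = u_{hg}`; `gecl0Place_eq_iff`, `gecl0_place_surj`,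
  `gecl0_mem_orbit_iff`, `gecl0_mem_stabilizer_iff`;
* `(q, t) ↦ Δ u_t` is a bijection onto the `Δ`-orbits of places above `S`, under which
  "`λ` trivial on `H ∩ t D_q t⁻¹`" corresponds to "`λ` trivial on the stabilisers".
Helper names are prefixed `gecl0`.
-/
import Fermat.Agent.S56.Gec.MainDefs
import Fermat.Agent.S55.LG.QbarMackey
import Fermat.Agent.S55.SB.Unram
import Fermat.Agent.S55.Asm.Reps

set_option autoImplicit false
set_option linter.unusedVariables false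
set_option linter.unusedSectionVars false

noncomputable section

namespace Fermat.Agent.S56

open Fermat.Agent.S55 NumberField IsDedekindDomain ExtCitation

attribute [local instance] gecPlaceMulAction gecInfPlaceMulAction

/-! ## `h⁰` of a character -/

section H0

/-- `h⁰` of a one-dimensional representation is `1` if it is trivial and `0` otherwise -/
theorem gecl0_finrank_smH0 {G : Type*} [Group G] {k : Type*} [Field k] (ρ : Representation k G k)
    (χ : G → k) (hρ : ∀ g x, ρ g x = χ g * x) [Decidable (∀ g, χ g = 1)] :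
    Module.finrank k ↥(smH0 ρ) = if ∀ g, χ g = 1 then 1 else 0 := by
  split_ifs with h
  · have htop : smH0 ρ = ⊤ := by
      rw [eq_top_iff]
      rintro x -
      show dd0 ρ x = 0
      funext g
      rw [dd0_apply, hρ, h g, one_mul, sub_self]
      rfl
    rw [htop, finrank_top, Module.finrank_self]
  · push Not at h
    obtain ⟨g, hg⟩ := h
    have hbot : smH0 ρ = ⊥ := by
      rw [eq_bot_iff]
      intro x hx
      have h1 : dd0 ρ x g = 0 := by
        have : dd0 ρ x = 0 := hx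
        rw [this]
        rfl
      rw [dd0_apply, hρ] at h1
      have h2 : (χ g - 1) * x = 0 := by rw [sub_mul, one_mul]; exact h1
      rcases mul_eq_zero.1 h2 with h3 | h3
      · exact absurd (sub_eq_zero.1 h3) hg
      · exact h3
    rw [hbot, finrank_bot]

end H0

/-! ## places above `S` and twisted embeddings -/

section Places

variable (S : Finset Nat.Primes) {H : Subgroup GQ}
  {E : IntermediateField ℚ (AlgebraicClosure ℚ)} [NumberField ↥E]

variable (E) in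
/-- the place of `E` above `q ∈ S` induced by the `g`-twisted `q`-adic embedding -/
def gecl0Place (q : ↥S) (g : GQ) : ↥(gkT S ↥E : Set (HeightOneSpectrum (𝓞 ↥E))) :=
  haveI : Fact ((q.1 : Nat.Primes) : ℕ).Prime := ⟨q.1.2⟩
  ⟨lgPlace ((q.1 : Nat.Primes) : ℕ) (lgqmEmb ((q.1 : Nat.Primes) : ℕ) E g), by
    rw [Finset.mem_coe, mem_gkT]
    exact ⟨q.1, q.2, natCast_mem_lgIdeal ((q.1 : Nat.Primes) : ℕ)
      (lgqmEmb ((q.1 : Nat.Primes) : ℕ) E g)⟩⟩

/-- `h̄ • u_g = u_{hg}` on the level of places -/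
theorem gecl0_smul_lgPlace (hst : GecStable H E) (q : ℕ) [Fact q.Prime] (h : ↥H) (g : GQ) :
    ((QuotientGroup.mk h : GecDelta hst) • lgPlace q (lgqmEmb q E g) :
      HeightOneSpectrum (𝓞 ↥E)) = lgPlace q (lgqmEmb q E ((h : GQ) * g)) := by
  apply HeightOneSpectrum.ext
  ext x
  rw [gec_smul_asIdeal, lgPlace_asIdeal, lgPlace_asIdeal,
    Ideal.mem_pointwise_smul_iff_inv_smul_mem, mem_lgIdeal_iff, mem_lgIdeal_iff]
  have h1 : lgqmEmb q E g ((((QuotientGroup.mk h : GecDelta hst)⁻¹ • x : 𝓞 ↥E)) : ↥E) =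
      lgqmEmb q E ((h : GQ) * g) ((x : 𝓞 ↥E) : ↥E) := by
    rw [lgqmEmb_apply, lgqmEmb_apply, mul_inv_rev, AlgEquiv.mul_apply]
    rfl
  rw [h1]

/-- `h̄ • u_g = u_{hg}` -/
theorem gecl0_smul_place (hst : GecStable H E) (q : ↥S) (h : ↥H) (g : GQ) :
    letI := gecSubtypeMulAction (Δ := GecDelta hst)
      (gkT S ↥E : Set (HeightOneSpectrum (𝓞 ↥E))) (gec_gkT_stable S)
    (QuotientGroup.mk h : GecDelta hst) • gecl0Place S E q g = gecl0Place S E q ((h : GQ) * g) := by
  have : Fact ((q.1 : Nat.Primes) : ℕ).Prime := ⟨q.1.2⟩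
  apply Subtype.ext
  exact gecl0_smul_lgPlace hst ((q.1 : Nat.Primes) : ℕ) h g

/-- places above different primes are different -/
theorem gecl0Place_fst_eq {q q' : ↥S} {g g' : GQ} (h : gecl0Place S E q g = gecl0Place S E q' g') :
    q = q' := by
  have hq : Fact ((q.1 : Nat.Primes) : ℕ).Prime := ⟨q.1.2⟩
  have hq' : Fact ((q'.1 : Nat.Primes) : ℕ).Prime := ⟨q'.1.2⟩
  have h0 : lgPlace ((q.1 : Nat.Primes) : ℕ) (lgqmEmb ((q.1 : Nat.Primes) : ℕ) E g) =
      lgPlace ((q'.1 : Nat.Primes) : ℕ) (lgqmEmb ((q'.1 : Nat.Primes) : ℕ) E g') :=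
    congrArg Subtype.val h
  have h1 : ((((q.1 : Nat.Primes) : ℕ) : ℕ) : 𝓞 ↥E) ∈
      (lgPlace ((q.1 : Nat.Primes) : ℕ) (lgqmEmb ((q.1 : Nat.Primes) : ℕ) E g)).asIdeal :=
    natCast_mem_lgIdeal ((q.1 : Nat.Primes) : ℕ) (lgqmEmb ((q.1 : Nat.Primes) : ℕ) E g)
  have h2 : ((((q'.1 : Nat.Primes) : ℕ) : ℕ) : 𝓞 ↥E) ∈
      (lgPlace ((q.1 : Nat.Primes) : ℕ) (lgqmEmb ((q.1 : Nat.Primes) : ℕ) E g)).asIdeal := by
    rw [h0]
    exact natCast_mem_lgIdeal ((q'.1 : Nat.Primes) : ℕ) (lgqmEmb ((q'.1 : Nat.Primes) : ℕ) E g')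
  have hv := (lgPlace ((q.1 : Nat.Primes) : ℕ) (lgqmEmb ((q.1 : Nat.Primes) : ℕ) E g)).isPrime
  have h3 : ((q.1 : Nat.Primes) : ℕ) = ((q'.1 : Nat.Primes) : ℕ) :=
    sbur_eq_of_natCast_mem
      (P := (lgPlace ((q.1 : Nat.Primes) : ℕ) (lgqmEmb ((q.1 : Nat.Primes) : ℕ) E g)).asIdeal)
      ↥E q.1.2 q'.1.2 h1 h2
  exact Subtype.ext (Subtype.ext h3)

/-- two twisted embeddings induce the same place iff they lie in the same double coset
`N g D_q` -/
theorem gecl0Place_eq_iff (q : ↥S) (g g' : GQ) :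
    gecl0Place S E q g = gecl0Place S E q g' ↔
      ∃ n ∈ E.fixingSubgroup, ∃ γ : primeLocalGaloisGroup q.1,
        g' = n * g * primeLocalToGlobal q.1 γ := by
  have hq : Fact ((q.1 : Nat.Primes) : ℕ).Prime := ⟨q.1.2⟩
  exact Subtype.ext_iff.trans (lgqm_lgPlace_eq_iff_locSysS S E q g g')

/-- every place above `S` is induced by a twisted embedding -/
theorem gecl0_place_surj (x : ↥(gkT S ↥E : Set (HeightOneSpectrum (𝓞 ↥E)))) :
    ∃ (q : ↥S) (g : GQ), x = gecl0Place S E q g := by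
  obtain ⟨v, hv⟩ := x
  have hv' := hv
  rw [Finset.mem_coe, mem_gkT] at hv'
  obtain ⟨q, hqS, hqv⟩ := hv'
  have hq : Fact ((q : Nat.Primes) : ℕ).Prime := ⟨q.2⟩
  obtain ⟨g, hg⟩ := lgqm_exists_lgPlace_eq ((q : Nat.Primes) : ℕ) E v hqv
  exact ⟨⟨q, hqS⟩, g, Subtype.ext hg.symm⟩

/-- the orbit of `u_g` under `Δ = H/N`: the `u_{g'}` with `g' ∈ H g D_q` -/
theorem gecl0_mem_orbit_iff (hEH : E.fixingSubgroup ≤ H) (hst : GecStable H E) (q : ↥S)
    (g g' : GQ) :
    letI := gecSubtypeMulAction (Δ := GecDelta hst)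
      (gkT S ↥E : Set (HeightOneSpectrum (𝓞 ↥E))) (gec_gkT_stable S)
    gecl0Place S E q g' ∈ MulAction.orbit (GecDelta hst) (gecl0Place S E q g) ↔
      ∃ h ∈ H, ∃ γ : primeLocalGaloisGroup q.1, g' = h * g * primeLocalToGlobal q.1 γ := by
  let _ := gecSubtypeMulAction (Δ := GecDelta hst)
    (gkT S ↥E : Set (HeightOneSpectrum (𝓞 ↥E))) (gec_gkT_stable S)
  constructor
  · rintro ⟨δ, hδ⟩
    obtain ⟨h, rfl⟩ := QuotientGroup.mk_surjective δ
    have h1 : (QuotientGroup.mk h : GecDelta hst) • gecl0Place S E q g = gecl0Place S E q g' := hδ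
    rw [gecl0_smul_place S hst q h g, gecl0Place_eq_iff] at h1
    obtain ⟨n, hn, γ, hγ⟩ := h1
    refine ⟨n * h, H.mul_mem (hEH hn) h.2, γ, ?_⟩
    rw [hγ]
    group
  · rintro ⟨h, hh, γ, hγ⟩
    refine ⟨(QuotientGroup.mk ⟨h, hh⟩ : GecDelta hst), ?_⟩
    show (QuotientGroup.mk ⟨h, hh⟩ : GecDelta hst) • gecl0Place S E q g = gecl0Place S E q g'
    rw [gecl0_smul_place S hst q ⟨h, hh⟩ g, gecl0Place_eq_iff]
    exact ⟨1, one_mem _, γ, by rw [hγ, one_mul]⟩

/-- the stabiliser of `u_g` in `Δ = H/N` -/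
theorem gecl0_mem_stabilizer_iff (hst : GecStable H E) (q : ↥S) (g : GQ) (h : ↥H) :
    letI := gecSubtypeMulAction (Δ := GecDelta hst)
      (gkT S ↥E : Set (HeightOneSpectrum (𝓞 ↥E))) (gec_gkT_stable S)
    (QuotientGroup.mk h : GecDelta hst) ∈
        MulAction.stabilizer (GecDelta hst) (gecl0Place S E q g) ↔
      ∃ n ∈ E.fixingSubgroup, ∃ γ : primeLocalGaloisGroup q.1,
        (h : GQ) * g = n * g * primeLocalToGlobal q.1 γ := by
  let _ := gecSubtypeMulAction (Δ := GecDelta hst)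
    (gkT S ↥E : Set (HeightOneSpectrum (𝓞 ↥E))) (gec_gkT_stable S)
  rw [MulAction.mem_stabilizer_iff, gecl0_smul_place S hst q h g, eq_comm, gecl0Place_eq_iff]

end Places

/-! ## the statement -/

section GaloisLeaves

variable {p : ℕ} [Fact p.Prime] (S : Finset Nat.Primes) {k : Type} [Field k] [Algebra (ZMod p) k]
  {H : Subgroup GQ} {E : IntermediateField ℚ (AlgebraicClosure ℚ)} [NumberField ↥E]
  {ζ : AlgebraicClosure ℚ}

/-- **G12 (C4).** the local `h⁰`'s: `Σ_w h⁰(H_w, λ) = #{Δ-orbits of places u of E above S with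
λ|Stab(u) = 1}`.  (Places of `K = fix H` above `S` = double cosets `(q, t)` = `Δ`-orbits of places
of `E` above `S`; the stabiliser of `u` in `Δ` is the image of `H ∩ t D_q t⁻¹`.) -/
theorem gec_local_h0_sum (hES : E.IsUnramifiedOutside S) (hEH : E.fixingSubgroup ≤ H)
    (hst : GecStable H E) (lam : ↥H →* kˣ) (hlam : (gecRestr hst).ker ≤ lam.ker)
    (T : ↥S → Finset GQ) (hT : IsDoubleCosetReps (locSysS S) H T) :
    letI := gecSubtypeMulAction (Δ := GecDelta hst)
      (gkT S ↥E : Set (HeightOneSpectrum (𝓞 ↥E))) (gec_gkT_stable S)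
    ∑ w : (Σ q : ↥S, ↥(T q)),
        Module.finrank k ↥(smH0 ((locSysMackey (locSysS S) H T).rep (chiRep lam) w)) =
      euOrbCount (gecQuotChar hst lam hlam)
        ↥(gkT S ↥E : Set (HeightOneSpectrum (𝓞 ↥E))) := by
  classical
  let _ := gecSubtypeMulAction (Δ := GecDelta hst)
    (gkT S ↥E : Set (HeightOneSpectrum (𝓞 ↥E))) (gec_gkT_stable S)
  -- `λ` is trivial on `N`
  have hlamN : ∀ (n : GQ) (hn : n ∈ E.fixingSubgroup), lam ⟨n, hEH hn⟩ = 1 := by
    intro n hn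
    exact hlam ((mem_gecRestr_ker hst ⟨n, hEH hn⟩).2 hn)
  -- the two conditions
  set P : (Σ q : ↥S, ↥(T q)) → Prop := fun w =>
    ∀ γ : ↥(mackeySub ((locSysS S).r w.1) H (w.2 : GQ)),
      lam (mackeyHom ((locSysS S).r w.1) H (w.2 : GQ) γ) = 1 with hP
  set Q : MulAction.orbitRel.Quotient (GecDelta hst)
      ↥(gkT S ↥E : Set (HeightOneSpectrum (𝓞 ↥E))) → Prop := fun o =>
    ∀ x : ↥(gkT S ↥E : Set (HeightOneSpectrum (𝓞 ↥E))),
      (Quotient.mk'' x : MulAction.orbitRel.Quotient (GecDelta hst)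
        ↥(gkT S ↥E : Set (HeightOneSpectrum (𝓞 ↥E)))) = o →
      ∀ δ ∈ MulAction.stabilizer (GecDelta hst) x, gecQuotChar hst lam hlam δ = 1 with hQ
  -- the local `h⁰`
  have hfin : ∀ w : (Σ q : ↥S, ↥(T q)),
      Module.finrank k ↥(smH0 ((locSysMackey (locSysS S) H T).rep (chiRep lam) w)) =
        if P w then 1 else 0 := by
    intro w
    have h1 := gecl0_finrank_smH0 ((locSysMackey (locSysS S) H T).rep (chiRep lam) w)
      (fun γ => ((lam (mackeyHom ((locSysS S).r w.1) H (w.2 : GQ) γ) : kˣ) : k))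
      (fun γ x => chiRep_apply lam _ x)
    rw [h1]
    have h2 : (∀ γ : ↥(mackeySub ((locSysS S).r w.1) H (w.2 : GQ)),
        ((lam (mackeyHom ((locSysS S).r w.1) H (w.2 : GQ) γ) : kˣ) : k) = 1) ↔ P w := by
      constructor
      · intro h γ
        exact Units.ext (h γ)
      · intro h γ
        rw [h γ, Units.val_one]
    simp only [h2]
  -- the map `(q, t) ↦ Δ u_t`
  set F : (Σ q : ↥S, ↥(T q)) → MulAction.orbitRel.Quotient (GecDelta hst)
      ↥(gkT S ↥E : Set (HeightOneSpectrum (𝓞 ↥E))) := fun w =>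
    Quotient.mk'' (gecl0Place S E w.1 (w.2 : GQ)) with hF
  have hFinj : Function.Injective F := by
    rintro ⟨q, t, ht⟩ ⟨q', t', ht'⟩ h
    have h1 : gecl0Place S E q t ∈
        MulAction.orbit (GecDelta hst) (gecl0Place S E q' t') :=
      MulAction.orbitRel_apply.1 (Quotient.exact' h)
    obtain ⟨δ, hδ⟩ := h1
    obtain ⟨h₀, rfl⟩ := QuotientGroup.mk_surjective δ
    have h2 : (QuotientGroup.mk h₀ : GecDelta hst) • gecl0Place S E q' t' = gecl0Place S E q t := hδ
    rw [gecl0_smul_place S hst q' h₀ t'] at h2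
    have hqq : q' = q := gecl0Place_fst_eq S h2
    subst hqq
    have h3 : gecl0Place S E q' t ∈
        MulAction.orbit (GecDelta hst) (gecl0Place S E q' t') := ⟨_, hδ⟩
    rw [gecl0_mem_orbit_iff S hEH hst q' t' t] at h3
    obtain ⟨h', hh', γ, hγ⟩ := h3
    obtain ⟨s, -, hs⟩ := hT q' t
    have e1 : t = s := hs t ⟨ht, 1, one_mem _, 1, by rw [map_one, one_mul, mul_one]⟩
    have e2 : t' = s := hs t' ⟨ht', h', hh', γ, hγ⟩
    have e3 : t = t' := e1.trans e2.symm
    subst e3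
    rfl
  have hFsurj : Function.Surjective F := by
    intro o
    induction o using Quotient.inductionOn' with
    | h x =>
      obtain ⟨q, g, rfl⟩ := gecl0_place_surj S x
      obtain ⟨t, ⟨ht, h, hh, γ, hγ⟩, -⟩ := hT q g
      refine ⟨⟨q, ⟨t, ht⟩⟩, ?_⟩
      symm
      apply Quotient.sound'
      apply MulAction.orbitRel_apply.2
      exact (gecl0_mem_orbit_iff S hEH hst q t g).2 ⟨h, hh, γ, hγ⟩
  have hPQ : ∀ w, P w ↔ Q (F w) := by
    rintro ⟨q, t, ht⟩
    constructor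
    · intro hPw x hx δ hδ
      have h1 : x ∈ MulAction.orbit (GecDelta hst) (gecl0Place S E q t) :=
        MulAction.orbitRel_apply.1 (Quotient.exact' hx)
      obtain ⟨δ₀, hδ₀⟩ := h1
      obtain ⟨h, rfl⟩ := QuotientGroup.mk_surjective δ₀
      have h2 : x = gecl0Place S E q ((h : GQ) * t) := by
        rw [← gecl0_smul_place S hst q h t]
        exact hδ₀.symm
      subst h2
      obtain ⟨h', rfl⟩ := QuotientGroup.mk_surjective δ
      rw [gecl0_mem_stabilizer_iff S hst q ((h : GQ) * t) h'] at hδ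
      obtain ⟨n, hn, γ, hγ⟩ := hδ
      -- `t r(γ) t⁻¹ = h⁻¹ n⁻¹ h' h`
      have h3 : t * primeLocalToGlobal q.1 γ * t⁻¹ =
          ((h⁻¹ * (⟨n, hEH hn⟩ : ↥H)⁻¹ * h' * h : ↥H) : GQ) := by
        have h4 : primeLocalToGlobal q.1 γ = ((h : GQ) * t)⁻¹ * n⁻¹ * ((h' : GQ) * ((h : GQ) * t)) := by
          rw [hγ]
          group
        rw [h4]
        simp only [Subgroup.coe_mul, Subgroup.coe_inv]
        group
      have hmem : γ ∈ mackeySub ((locSysS S).r q) H t := by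
        rw [mem_mackeySub]
        show t * primeLocalToGlobal q.1 γ * t⁻¹ ∈ H
        rw [h3]
        exact (h⁻¹ * (⟨n, hEH hn⟩ : ↥H)⁻¹ * h' * h : ↥H).2
      have h5 := hPw ⟨γ, hmem⟩
      have h6 : mackeyHom ((locSysS S).r q) H t ⟨γ, hmem⟩ =
          h⁻¹ * (⟨n, hEH hn⟩ : ↥H)⁻¹ * h' * h := Subtype.ext h3
      rw [h6, map_mul, map_mul, map_mul, map_inv, map_inv, hlamN n hn, inv_one, mul_one,
        mul_comm, ← mul_assoc, mul_inv_cancel, one_mul] at h5
      rw [gecQuotChar_mk]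
      exact h5
    · intro hQw γ
      set h' : ↥H := mackeyHom ((locSysS S).r q) H t γ with hh'
      have h1 : (QuotientGroup.mk h' : GecDelta hst) ∈
          MulAction.stabilizer (GecDelta hst) (gecl0Place S E q t) := by
        rw [gecl0_mem_stabilizer_iff S hst q t h']
        refine ⟨1, one_mem _, (γ : primeLocalGaloisGroup q.1), ?_⟩
        show t * primeLocalToGlobal q.1 (γ : primeLocalGaloisGroup q.1) * t⁻¹ * t = _
        group
      have h2 := hQw (gecl0Place S E q t) rfl _ h1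
      rw [gecQuotChar_mk] at h2
      exact h2
  -- counting
  simp only [hfin]
  rw [Finset.sum_boole, Nat.cast_id, euOrbCount]
  rw [← Fintype.card_subtype, ← Nat.card_eq_fintype_card]
  exact Nat.card_congr ((Equiv.ofBijective F ⟨hFinj, hFsurj⟩).subtypeEquiv hPQ)

end GaloisLeaves

end Fermat.Agent.S56

end
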