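/-
S56 / GEC = BASE CASE (D) OF TATE'S GLOBAL EULER CHARACTERISTIC: the import hub of the leaves
(every leaf of the former spec is now a real theorem in its own file; no statement is left here).

TOP: `gec_main` (in `Gec/Main.lean`): for `H ≤ GQ` open (for `levelsS S`, `p ∈ S`, `p` odd), `k` a
field with `[Algebra (ZMod p) k]`, `ψ : ↥H →* kˣ` trivial on a level, `R` representatives of
`H \ GQ / ⟨c⟩`:  `smH1`, `smH2` of `((levelsS S).sub H, chiRep ψ)` are finite-dimensional over `k` and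
  `h⁰ + h² + #{t ∈ R | t c t⁻¹ ∉ H ∨ ψ*(t c t⁻¹) = 1} = h¹`    (`ψ* = ω ψ⁻¹ = gecStar p ψ`).

  h¹(H,ψ)   = dim (Hom_sm(N,k))^{ψ}                         [G1 DescentKum]
            = d_{ψ*}(X)                                      [G2 KumSpan, G3 KummerDuality, G4 Transpose]
            = d_{ψ*}(U) + d_{ψ*}(C)                          [G10 Ar]
  d_χ(U) + [χ=1] = [χ=ω] + orb_Y(χ) + orb_Z(χ)               [G11 = eu_main, package EU]
  Ш¹(H,ψ*)  = dim (Hom_sm(N,k) ∩ DecVanish)^{ψ*}             [G5 Sha1]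
            = dim (span{f_a : a ∈ Δ_S})^{ψ*}                 [G6 DecVanish]
            = d_{ψ}(Δ_S/Eˣᵖ) = d_{ψ*}(C)                     [G3, G9 ArtinDuality (G7 Art + G8 DualPairing)]
  orb_Y(χ)  = Σ_w h⁰(H_w, χ)                                 [G12 LocalH0]
  orb_Z(χ)  = #{t ∈ R | t c t⁻¹ ∉ H ∨ χ(t c t⁻¹) = 1}        [G13 ArchPlace]
  h²(ψ) + h⁰(ψ*) = Ш¹(ψ*) + Σ_w h⁰(H_w, ψ*)                  [H2F = Gec/H2]
-/
import Fermat.Agent.S56.Gec.MainDefs
import Fermat.Agent.S56.Gec.Stable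
import Fermat.Agent.S56.Gec.Descent
import Fermat.Agent.S56.Gec.Transpose
import Fermat.Agent.S56.Gec.Basic
import Fermat.Agent.S56.Gec.DescentKum
import Fermat.Agent.S56.Gec.Art
import Fermat.Agent.S56.Gec.DecVanish
import Fermat.Agent.S56.Gec.KumSpan
import Fermat.Agent.S56.Gec.LocalH0
import Fermat.Agent.S56.Gec.Ar
import Fermat.Agent.S56.Gec.KummerDuality
import Fermat.Agent.S56.Gec.DualPairing
import Fermat.Agent.S56.Gec.ArtinDuality
import Fermat.Agent.S56.Gec.H2
import Fermat.Agent.S56.Gec.Sha1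
import Fermat.Agent.S56.Gec.ArchPlace
import Fermat.Agent.S56.EU.Main
import Fermat.Agent.S55.Asm.Reps

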