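/-
S56 / GEC: ASSEMBLY (G15) of `gec_h1_formula` from the leaves G0-G16 + `eu_main` (package EU), and
`gec_main` from `gec_h1_formula` + `gec_h2_formula` (package H2F).
-/
import Fermat.Agent.S56.Gec.Spec
import Fermat.Agent.S55.GK.Final
import Fermat.Agent.S55.GK.Indexed
import Fermat.Agent.S55.GK.EmbSystem

set_option autoImplicit false

noncomputable section

namespace Fermat.Agent.S56

open Fermat.Agent.S55 NumberField IsDedekindDomain ExtCitation

attribute [local instance] gecPlaceMulAction gecInfPlaceMulAction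

section Aux

variable {p : ℕ} [Fact p.Prime] {k : Type} [Field k] [Algebra (ZMod p) k] {H : Subgroup GQ}
  {E : IntermediateField ℚ (AlgebraicClosure ℚ)}

/-- the cyclotomic character on `Δ` -/
def gecOmegaBar (hst : GecStable H E) (hEω : E.fixingSubgroup ≤ (cycloChar p).ker) :
    GecDelta hst →* (ZMod p)ˣ :=
  QuotientGroup.lift _ ((cycloChar p).comp H.subtype) (by
    intro h hh
    rw [mem_gecRestr_ker] at hh
    exact hEω hh)

theorem gecOmegaBar_mk (hst : GecStable H E) (hEω : E.fixingSubgroup ≤ (cycloChar p).ker)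
    (h : ↥H) : gecOmegaBar hst hEω (QuotientGroup.mk h) = cycloChar p (h : GQ) := rfl

theorem gecQuotChar_congr (hst : GecStable H E) {ψ ψ' : ↥H →* kˣ} (h : ψ = ψ')
    (hψ : (gecRestr hst).ker ≤ ψ.ker) (hψ' : (gecRestr hst).ker ≤ ψ'.ker) :
    gecQuotChar hst ψ hψ = gecQuotChar hst ψ' hψ' := by
  subst h
  rfl

theorem gecQuotChar_star (hst : GecStable H E) (hEω : E.fixingSubgroup ≤ (cycloChar p).ker)
    (ψ : ↥H →* kˣ) (hψ : (gecRestr hst).ker ≤ ψ.ker)
    (hψs : (gecRestr hst).ker ≤ (gecStar p ψ).ker) :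
    gecQuotChar hst (gecStar p ψ) hψs =
      (Units.map (algebraMap (ZMod p) k : ZMod p →* k)).comp (gecOmegaBar hst hEω) *
        (gecQuotChar hst ψ hψ)⁻¹ := by
  ext δ
  rfl

theorem euTrivInd_gecQuotChar (hst : GecStable H E) (lam : ↥H →* kˣ)
    (hlam : (gecRestr hst).ker ≤ lam.ker) :
    euTrivInd (gecQuotChar hst lam hlam) = euTrivInd lam := by
  classical
  unfold euTrivInd
  have : gecQuotChar hst lam hlam = 1 ↔ lam = 1 := by
    constructor
    · intro h
      ext x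
      have := congrArg (fun f => f (QuotientGroup.mk x)) h
      simpa using this
    · intro h
      ext δ
      simp [h]
  simp only [this]

/-- transport of a submodule cut out by a condition on the underlying function along an
equivalence onto a submodule of a function space -/
theorem gec_finrank_comap {k : Type*} [Field k] {M F : Type*} [AddCommGroup M] [Module k M]
    [AddCommGroup F] [Module k F] (P Q : Submodule k F) (e : M ≃ₗ[k] ↥P) (X : Submodule k M)
    (hX : ∀ x : M, x ∈ X ↔ ((e x : ↥P) : F) ∈ Q) :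
    Module.finrank k ↥X = Module.finrank k ↥(P ⊓ Q) := by
  have h1 : X = (Q.comap P.subtype).comap e.toLinearMap := by
    ext x
    rw [hX x]
    rfl
  rw [h1]
  have e1 : ↥((Q.comap P.subtype).comap e.toLinearMap) ≃ₗ[k] ↥(Q.comap P.subtype) :=
    e.ofSubmodule' (Q.comap P.subtype)
  have e2 : ↥(Q.comap P.subtype) ≃ₗ[k] ↥((Q.comap P.subtype).map P.subtype) :=
    Submodule.equivMapOfInjective P.subtype P.injective_subtype _
  rw [e1.finrank_eq, e2.finrank_eq, Submodule.map_comap_subtype]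

end Aux

section Assembly

variable {p : ℕ} [Fact p.Prime] (S : Finset Nat.Primes) {k : Type} [Field k] [Algebra (ZMod p) k]
  {H : Subgroup GQ}

set_option maxHeartbeats 1000000 in
/-- **G15.** the arithmetic half, assembled from the leaves. -/
theorem gec_h1_formula (hp2 : p ≠ 2) (hpS : pPrime p ∈ S) (hH : (levelsS S).IsOpen H)
    (ψ : ↥H →* kˣ) (hψ : ∃ U, (levelsS S).IsLevel U ∧ ∀ h : ↥H, (h : GQ) ∈ U → ψ h = 1)
    (T : ↥S → Finset GQ) (hT : IsDoubleCosetReps (locSysS S) H T)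
    (R : Finset GQ)
    (hR : ∀ g : GQ, ∃! t, t ∈ R ∧ ∃ h ∈ H, ∃ c ∈ Subgroup.zpowers complexConjugation,
      g = h * t * c) :
    FiniteDimensional k (smH1 ((levelsS S).sub H) (chiRep ψ)) ∧
    FiniteDimensional k ↥(sha1 (locSysMackey (locSysS S) H T) (chiRep (gecStar p ψ))) ∧
    Module.finrank k (smH1 ((levelsS S).sub H) (chiRep ψ)) +
        Module.finrank k ↥(smH0 (chiRep (gecStar p ψ))) =
      Module.finrank k ↥(sha1 (locSysMackey (locSysS S) H T) (chiRep (gecStar p ψ))) +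
        Module.finrank k ↥(smH0 (chiRep ψ)) +
        ∑ w : (Σ q : ↥S, ↥(T q)), Module.finrank k
          ↥(smH0 ((locSysMackey (locSysS S) H T).rep (chiRep (gecStar p ψ)) w)) +
        open Classical in
        (R.filter (fun t => ∀ hc : t * complexConjugation * t⁻¹ ∈ H,
          gecStar p ψ ⟨t * complexConjugation * t⁻¹, hc⟩ = 1)).card := by
  classical
  -- the field `E`
  obtain ⟨E, hst, hES, hEH, hψker, hEω, hΔ⟩ := gec_exists_field S hpS hH ψ hψ
  haveI : NumberField ↥E := sb_numberField hES.1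
  obtain ⟨ζ, hζ⟩ := Fermat.Agent.S14.plumb_exists_primitiveRoot p
  have hζE : ζ ∈ E := sb_root_mem hEω hζ.pow_eq_one
  have hpS' : ∃ q ∈ S, ((q : Nat.Primes) : ℕ) = p := ⟨pPrime p, hpS, rfl⟩
  have hψsker : (gecRestr hst).ker ≤ (gecStar p ψ).ker := gecStar_ker hζ hζE hst ψ hψker
  -- the root of unity in `E`
  set ζE : ↥E := ⟨ζ, hζE⟩ with hζEdef
  have hζE' : IsPrimitiveRoot ζE p :=
    IsPrimitiveRoot.of_map_of_injective (f := E.val) (show IsPrimitiveRoot (E.val ζE) p from hζ)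
      E.val.injective
  -- the set of places
  have hSp : ∀ v : HeightOneSpectrum (𝓞 ↥E), ((p : ℕ) : 𝓞 ↥E) ∈ v.asIdeal → v ∈ gkT S ↥E :=
    fun v hv => gkT_of_natCast_mem hpS' v hv
  have hSst : ∀ (δ : GecDelta hst) (v : HeightOneSpectrum (𝓞 ↥E)),
      v ∈ (gkT S ↥E : Set (HeightOneSpectrum (𝓞 ↥E))) →
      δ • v ∈ (gkT S ↥E : Set (HeightOneSpectrum (𝓞 ↥E))) := fun δ v hv => gec_gkT_stable S δ v hv
  obtain ⟨Φ⟩ := gk_exists_system (K := ↥E)
  -- characters of `Δ`
  obtain ⟨χ, hχ⟩ : ∃ χ : GecDelta hst →* kˣ, χ = gecQuotChar hst (gecStar p ψ) hψsker := ⟨_, rfl⟩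
  -- (A) `h¹(ψ) = d_{ψ*}(X)`
  obtain ⟨e1, -⟩ := gec_descent_kum S hES hEH hst hΔ ψ hψker
  have hVfin : (powMonoidHom p : (↥E)ˣ →* (↥E)ˣ).range.relIndex
      (gkV ↥E (gkT S ↥E : Set (HeightOneSpectrum (𝓞 ↥E))) p) ≠ 0 :=
    gk_relIndex_pow_gkV_ne_zero p hζE' (gkT S ↥E)
  have hspanfin : FiniteDimensional k
      ↥(gecKumSpan p k ζ E (gkV ↥E (gkT S ↥E : Set (HeightOneSpectrum (𝓞 ↥E))) p)) :=
    gec_kumSpan_finite hζ hζE _ hVfin
  have hKH := gec_kumHom_eq_span (k := k) S hζ hζE hpS' hES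
  have hfinA : FiniteDimensional k ↥(gecKumHom k S E ⊓ gecKumEq E ψ) := by
    rw [hKH]
    exact Submodule.finiteDimensional_of_le inf_le_left
  have h1fin : FiniteDimensional k (smH1 ((levelsS S).sub H) (chiRep ψ)) :=
    e1.symm.finiteDimensional
  have hA1 : Module.finrank k (smH1 ((levelsS S).sub H) (chiRep ψ)) =
      euDim χ (gecActX ↥E (GecDelta hst) (gkT S ↥E : Set (HeightOneSpectrum (𝓞 ↥E))) p hSst) := by
    rw [e1.finrank_eq, hKH, gecActX_eq, hχ]
    exact gec_kummer_duality hζ hζE hEH hst hΔ ψ hψker _ (gk_pow_le_gkV ↥E p _) hVfin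
      (gkV_stable ↥E (GecDelta hst) _ p hSst)
  -- AR + EU
  have hAR := gec_ar ↥E (GecDelta hst) p hΔ χ (gkT S ↥E) hSst
  letI := gecSUnitAction ↥E (GecDelta hst) (gkT S ↥E : Set (HeightOneSpectrum (𝓞 ↥E))) hSst
  letI := gecSubtypeMulAction (Δ := GecDelta hst) (gkT S ↥E : Set (HeightOneSpectrum (𝓞 ↥E))) hSst
  haveI : CharP k p := charP_of_injective_algebraMap (algebraMap (ZMod p) k).injective p
  haveI : Finite ↥(gkT S ↥E : Set (HeightOneSpectrum (𝓞 ↥E))) := (gkT S ↥E).finite_toSet.to_subtype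
  have hEU := eu_main ↥E (GecDelta hst) p k hΔ χ
    ↥(gkT S ↥E : Set (HeightOneSpectrum (𝓞 ↥E))) (fun y => (y : HeightOneSpectrum (𝓞 ↥E)))
    Subtype.val_injective (fun δ y x => gec_valuation_smul δ (y : HeightOneSpectrum (𝓞 ↥E)) x)
    (InfinitePlace ↥E) id Function.bijective_id (fun δ z x => gec_infPlace_smul_smul δ z x)
    ↥((gkT S ↥E : Set (HeightOneSpectrum (𝓞 ↥E))).unit ↥E)
    ((gkT S ↥E : Set (HeightOneSpectrum (𝓞 ↥E))).unit ↥E).subtype Subtype.val_injective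
    (fun δ e => rfl)
    (by
      rw [Subgroup.range_subtype]
      congr 1
      exact Subtype.range_coe.symm)
  -- (B) `Ш¹(ψ*) = d_{ψ*}(C)`
  obtain ⟨e2, he2⟩ := gec_descent_kum S hES hEH hst hΔ (gecStar p ψ) hψsker
  have hfinB : FiniteDimensional k ↥(gecKumHom k S E ⊓ gecKumEq E (gecStar p ψ)) := by
    rw [hKH]
    exact Submodule.finiteDimensional_of_le inf_le_left
  have h1sfin : FiniteDimensional k (smH1 ((levelsS S).sub H) (chiRep (gecStar p ψ))) :=
    e2.symm.finiteDimensional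
  have hshafin : FiniteDimensional k
      ↥(sha1 (locSysMackey (locSysS S) H T) (chiRep (gecStar p ψ))) := inferInstance
  have hDfin : (powMonoidHom p : (↥E)ˣ →* (↥E)ˣ).range.relIndex
      (gkDelta Φ (gkT S ↥E : Set (HeightOneSpectrum (𝓞 ↥E))) p) ≠ 0 := by
    rw [gk_relIndex_delta_eq Φ p ζE hp2 hζE' (gkT S ↥E) hSp]
    exact gkClSub_index_ne_zero ↥E p _
  have hB1 : Module.finrank k ↥(sha1 (locSysMackey (locSysS S) H T) (chiRep (gecStar p ψ))) =
      Module.finrank k ↥((gecKumHom k S E ⊓ gecKumEq E (gecStar p ψ)) ⊓ gecDecVanish k S E) := by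
    refine gec_finrank_comap _ _ e2 _ (fun x => ?_)
    obtain ⟨f, rfl⟩ := Submodule.mkQ_surjective _ x
    have h := gec_sha1_iff S hES hEH hst hΔ (gecStar p ψ) hψsker T hT f
    have hfun : ((e2 (smH1π ((levelsS S).sub H) (chiRep (gecStar p ψ)) f) :
        ↥(gecKumHom k S E ⊓ gecKumEq E (gecStar p ψ))) : ↥E.fixingSubgroup → k) =
        fun n : ↥E.fixingSubgroup => (f : ↥H → k) ⟨(n : GQ), hEH n.2⟩ :=
      funext fun n => he2 f n
    rw [hfun]
    exact h
  have hB2 : (gecKumHom k S E ⊓ gecKumEq E (gecStar p ψ)) ⊓ gecDecVanish k S E =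
      gecKumSpan p k ζ E (gkDelta Φ (gkT S ↥E : Set (HeightOneSpectrum (𝓞 ↥E))) p) ⊓
        gecKumEq E (gecStar p ψ) := by
    rw [hKH, inf_right_comm, gec_span_decVanish S hζ hζE hpS' hES Φ]
  have hB3 : Module.finrank k ↥(sha1 (locSysMackey (locSysS S) H T) (chiRep (gecStar p ψ))) =
      euDim χ (gecActC ↥E (GecDelta hst) (gkT S ↥E : Set (HeightOneSpectrum (𝓞 ↥E))) p hSst) := by
    rw [hχ, hB1, hB2, gec_kummer_duality hζ hζE hEH hst hΔ (gecStar p ψ) hψsker _
      (gkfin_pow_le_gkDelta Φ p _) hDfin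
      (gec_gkDelta_stable ↥E (GecDelta hst) p Φ _ hSst)]
    have hss : gecQuotChar hst (gecStar p (gecStar p ψ))
        (gecStar_ker hζ hζE hst (gecStar p ψ) hψsker) = gecQuotChar hst ψ hψker :=
      gecQuotChar_congr hst (gecStar_gecStar p ψ) _ _
    rw [hss]
    have hω : ∀ δ : GecDelta hst,
        δ • ζE = ζE ^ (((gecOmegaBar hst hEω δ : (ZMod p)ˣ) : ZMod p)).val := by
      intro δ
      induction δ using QuotientGroup.induction_on with
      | H h =>
        apply Subtype.ext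
        rw [gecDelta_mk_smul, gecOmegaBar_mk]
        show (h : GQ) ζ = _
        rw [sb_cycloChar_spec (h : GQ) hζ.pow_eq_one]
        rfl
    rw [gec_artin_duality ↥E (GecDelta hst) p hp2 hΔ ζE hζE' (gecOmegaBar hst hEω) hω Φ (gkT S ↥E) hSp
      hSst (gecQuotChar hst ψ hψker), ← gecQuotChar_star hst hEω ψ hψker hψsker]
  -- (C) the indicator terms
  have hC1 : euOmegaInd ↥E (GecDelta hst) p χ = Module.finrank k ↥(smH0 (chiRep ψ)) := by
    rw [gec_h0, hχ, gec_omegaInd hζ hζE hst ψ hψker]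
  have hC2 : euTrivInd χ = Module.finrank k ↥(smH0 (chiRep (gecStar p ψ))) := by
    rw [gec_h0, hχ, euTrivInd_gecQuotChar]
  have hC3 := gec_local_h0_sum S hES hEH hst (gecStar p ψ) hψsker T hT
  have hC4 := gec_arch_count hEH hst (gecStar p ψ) hψsker R hR
  refine ⟨h1fin, hshafin, ?_⟩
  rw [← hχ] at hC3 hC4
  rw [hA1, hAR, hB3, ← hC2, ← hC1, hC3, ← hC4]
  omega

/-- **THE BASE CASE (D) OF TATE'S GLOBAL EULER CHARACTERISTIC.** -/
theorem gec_main [FiniteDimensional (ZMod p) k] (hp2 : p ≠ 2) (hpS : pPrime p ∈ S)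
    (hH : (levelsS S).IsOpen H)
    (ψ : ↥H →* kˣ) (hψ : ∃ U, (levelsS S).IsLevel U ∧ ∀ h : ↥H, (h : GQ) ∈ U → ψ h = 1)
    (R : Finset GQ)
    (hR : ∀ g : GQ, ∃! t, t ∈ R ∧ ∃ h ∈ H, ∃ c ∈ Subgroup.zpowers complexConjugation,
      g = h * t * c) :
    FiniteDimensional k (smH1 ((levelsS S).sub H) (chiRep ψ)) ∧
    FiniteDimensional k (smH2 ((levelsS S).sub H) (chiRep ψ)) ∧
    Module.finrank k ↥(smH0 (chiRep ψ)) + Module.finrank k (smH2 ((levelsS S).sub H) (chiRep ψ)) +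
        (open Classical in
        (R.filter (fun t => ∀ hc : t * complexConjugation * t⁻¹ ∈ H,
          gecStar p ψ ⟨t * complexConjugation * t⁻¹, hc⟩ = 1)).card) =
      Module.finrank k (smH1 ((levelsS S).sub H) (chiRep ψ)) := by
  obtain ⟨T, hT⟩ := exists_isDoubleCosetReps (locSysS S) H hH
  obtain ⟨h1f, hshaf, h1⟩ := gec_h1_formula S hp2 hpS hH ψ hψ T hT R hR
  obtain ⟨h2f, h2⟩ := gec_h2_formula S hp2 hpS hH ψ hψ T hT hshaf
  refine ⟨h1f, h2f, ?_⟩
  omega

end Assembly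

end Fermat.Agent.S56

end
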