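/-
S56 / GEC, leaf G5 (C2a): a class `[f] ∈ H¹(H, k(λ))` is locally trivial at all places above `S`
iff `f|_N` vanishes on all decomposition groups (`N = Gal(ℚ̄/E)`).

Route: `gec_smH1π_eq_zero_iff` (prime-to-`p` descent, `Gec/Descent.lean`) for the local groups
`mackeySub r_q H t`, with the subgroup `N_w = {γ | t r(γ) t⁻¹ ∈ N}` of index dividing `|Δ|`;
every `g ∈ GQ` is `h t r(γ₀)` with `t ∈ T q` (`hT`), `N` is normalised by `H`, and
`f (h n h⁻¹) = λ(h) f(n)` (`gec_cocycle_conj`).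

Helper lemmas are prefixed `gecsh_`.
-/
import Fermat.Agent.S56.Gec.MainDefs
import Fermat.Agent.S56.Gec.Descent

set_option autoImplicit false
set_option linter.unusedVariables false
set_option linter.unusedSectionVars false

noncomputable section

namespace Fermat.Agent.S56

open Fermat.Agent.S55 NumberField IsDedekindDomain ExtCitation

/-! ## abstract helpers -/

section Abstract

variable {k : Type*} [Field k] {G Γ : Type*} [Group G] [Group Γ]

/-- the restriction of `chiRep lam` along `r` is `chiRep (lam ∘ r)` -/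
theorem gecsh_chiRep_comp (lam : G →* kˣ) (r : Γ →* G) :
    (chiRep lam).comp r = chiRep (lam.comp r) := rfl

/-- the local form of the descent criterion: a cocycle of `Γ` for `λ ∘ r` is a coboundary iff it
vanishes on a subgroup `N ≤ ker (λ ∘ r)` of finite index invertible in `k` -/
theorem gecsh_local_iff (𝓛Γ : Levels Γ) (lam : G →* kˣ) (r : Γ →* G) (N : Subgroup Γ)
    [N.FiniteIndex] (hN : N ≤ (lam.comp r).ker) (hm : (N.index : k) ≠ 0)
    (f : ↥(smZ1 𝓛Γ ((chiRep lam).comp r))) :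
    smH1π 𝓛Γ ((chiRep lam).comp r) f = 0 ↔ ∀ n ∈ N, (f : Γ → k) n = 0 :=
  gec_smH1π_eq_zero_iff 𝓛Γ N (lam.comp r) hN hm f

/-- the underlying function of a restricted cocycle -/
theorem gecsh_smZ1res_apply {𝓛 : Levels G} {𝓛Γ : Levels Γ} {r : Γ →* G}
    (ρ : Representation k G k) (hr : 𝓛Γ.Continuous 𝓛 r) (f : ↥(smZ1 𝓛 ρ)) (n : Γ) :
    ((smZ1res ρ hr f : ↥(smZ1 𝓛Γ (ρ.comp r))) : Γ → k) n = (f : G → k) (r n) := rfl

/-- a natural number prime to `p` is invertible in a field of characteristic `p` -/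
theorem gecsh_natCast_ne_zero {p : ℕ} [Fact p.Prime] [Algebra (ZMod p) k] {n : ℕ}
    (hn : n.Coprime p) : (n : k) ≠ 0 := by
  intro h0
  have h1 : algebraMap (ZMod p) k (n : ZMod p) = algebraMap (ZMod p) k 0 := by
    rw [map_natCast, map_zero]
    exact h0
  have h2 : (n : ZMod p) = 0 := (algebraMap (ZMod p) k).injective h1
  rw [ZMod.natCast_eq_zero_iff] at h2
  have hp : p.Prime := Fact.out
  exact (Nat.Prime.coprime_iff_not_dvd hp).1 hn.symm h2

/-- the index of the preimage of a normal subgroup of finite index divides the index -/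
theorem gecsh_index_comap_dvd (r : Γ →* G) (N : Subgroup G) [N.Normal] :
    (N.comap r).index ∣ N.index := by
  rw [Subgroup.index_comap]
  exact Subgroup.relIndex_dvd_index_of_normal N r.range

end Abstract


/-! ## the Galois leaf -/

section GaloisLeaves

variable {p : ℕ} [Fact p.Prime] (S : Finset Nat.Primes) {k : Type} [Field k] [Algebra (ZMod p) k]
  {H : Subgroup GQ} {E : IntermediateField ℚ (AlgebraicClosure ℚ)} [NumberField ↥E]
  {ζ : AlgebraicClosure ℚ}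

/-- `N = Gal(ℚ̄/E)` is normalised by `H` when `E` is `H`-stable -/
theorem gecsh_conj_mem (hst : GecStable H E) {h : GQ} (hh : h ∈ H) {n : GQ}
    (hn : n ∈ E.fixingSubgroup) : h * n * h⁻¹ ∈ E.fixingSubgroup := by
  rw [IntermediateField.mem_fixingSubgroup_iff] at hn ⊢
  intro x hx
  have h1 : (h⁻¹ : GQ) x ∈ E := hst h⁻¹ (H.inv_mem hh) x hx
  show h (n ((h⁻¹ : GQ) x)) = x
  rw [hn _ h1]
  show (h * h⁻¹ : GQ) x = x
  rw [mul_inv_cancel]
  rfl

/-- the local criterion at the place `w = (q, t)`: the restriction of `[f]` to the local group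
`mackeySub r_q H t` vanishes iff `f` vanishes on `N ∩ t D_q t⁻¹` -/
theorem gecsh_local (hEH : E.fixingSubgroup ≤ H)
    (hst : GecStable H E) (hΔ : (Nat.card (GecDelta hst)).Coprime p)
    (lam : ↥H →* kˣ) (hlam : (gecRestr hst).ker ≤ lam.ker)
    (T : ↥S → Finset GQ)
    (f : ↥(smZ1 ((levelsS S).sub H) (chiRep lam))) (w : Σ q : ↥S, ↥(T q)) :
    smH1res (chiRep lam) ((locSysMackey (locSysS S) H T).cont w)
        (smH1π ((levelsS S).sub H) (chiRep lam) f) = 0 ↔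
      ∀ (γ : primeLocalGaloisGroup w.1.1)
        (hn : (w.2 : GQ) * primeLocalToGlobal w.1.1 γ * ((w.2 : GQ))⁻¹ ∈ E.fixingSubgroup),
        (f : ↥H → k) ⟨(w.2 : GQ) * primeLocalToGlobal w.1.1 γ * ((w.2 : GQ))⁻¹, hEH hn⟩ = 0 := by
  rw [smH1res_mk]
  set r : ↥(mackeySub ((locSysS S).r w.1) H (w.2 : GQ)) →* ↥H :=
    mackeyHom ((locSysS S).r w.1) H (w.2 : GQ) with hr
  have hfi : ((gecRestr hst).ker).FiniteIndex := Subgroup.finiteIndex_of_finite_quotient
  have hdvd : (((gecRestr hst).ker).comap r).index ∣ Nat.card (GecDelta hst) := by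
    rw [← Subgroup.index_eq_card]
    exact gecsh_index_comap_dvd r _
  have hne : (((gecRestr hst).ker).comap r).index ≠ 0 := by
    intro h0
    rw [h0, zero_dvd_iff] at hdvd
    exact Nat.card_pos.ne' hdvd
  have hfi' : (((gecRestr hst).ker).comap r).FiniteIndex := ⟨hne⟩
  have hm : ((((gecRestr hst).ker).comap r).index : k) ≠ 0 :=
    gecsh_natCast_ne_zero (p := p) (Nat.Coprime.coprime_dvd_left hdvd hΔ)
  have hN : ((gecRestr hst).ker).comap r ≤ (lam.comp r).ker := by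
    intro γ hγ
    rw [MonoidHom.mem_ker, MonoidHom.comp_apply]
    exact hlam (Subgroup.mem_comap.1 hγ)
  refine (gecsh_local_iff ((locSysMackey (locSysS S) H T).lev w) lam r
    (((gecRestr hst).ker).comap r) hN hm _).trans ?_
  constructor
  · intro h0 γ hn
    have hγ : γ ∈ mackeySub ((locSysS S).r w.1) H (w.2 : GQ) := mem_mackeySub.2 (hEH hn)
    have h1 : (⟨γ, hγ⟩ : ↥(mackeySub ((locSysS S).r w.1) H (w.2 : GQ))) ∈
        ((gecRestr hst).ker).comap r := by
      rw [Subgroup.mem_comap, mem_gecRestr_ker]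
      exact hn
    have h2 := h0 _ h1
    rw [gecsh_smZ1res_apply] at h2
    exact h2
  · intro h0 γ hγ
    rw [Subgroup.mem_comap, mem_gecRestr_ker] at hγ
    rw [gecsh_smZ1res_apply]
    exact h0 (γ : primeLocalGaloisGroup w.1.1) hγ

/-- **G5 (C2a).** a class `[f] ∈ H¹(H, k(λ))` is locally trivial at all places above `S` iff `f|_N`
vanishes on all decomposition groups. -/
theorem gec_sha1_iff (hES : E.IsUnramifiedOutside S) (hEH : E.fixingSubgroup ≤ H)
    (hst : GecStable H E) (hΔ : (Nat.card (GecDelta hst)).Coprime p)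
    (lam : ↥H →* kˣ) (hlam : (gecRestr hst).ker ≤ lam.ker)
    (T : ↥S → Finset GQ) (hT : IsDoubleCosetReps (locSysS S) H T)
    (f : ↥(smZ1 ((levelsS S).sub H) (chiRep lam))) :
    smH1π ((levelsS S).sub H) (chiRep lam) f ∈
        sha1 (locSysMackey (locSysS S) H T) (chiRep lam) ↔
      (fun n : ↥E.fixingSubgroup => (f : ↥H → k) ⟨(n : GQ), hEH n.2⟩) ∈ gecDecVanish k S E := by
  have hfz : dd1 (chiRep lam) (f : ↥H → k) = 0 := ((mem_smZ1 _ _ _).1 f.2).1
  have hsha : smH1π ((levelsS S).sub H) (chiRep lam) f ∈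
      sha1 (locSysMackey (locSysS S) H T) (chiRep lam) ↔
      ∀ w : (Σ q : ↥S, ↥(T q)),
        smH1res (chiRep lam) ((locSysMackey (locSysS S) H T).cont w)
          (smH1π ((levelsS S).sub H) (chiRep lam) f) = 0 := by
    show locP1 (locSysMackey (locSysS S) H T) (ρ := chiRep lam) _ = 0 ↔ _
    rw [funext_iff]
    rfl
  rw [hsha, mem_gecDecVanish]
  constructor
  · intro h0 q g γ hn
    obtain ⟨t, ⟨ht, h, hh, γ₀, hg⟩, -⟩ := hT q g
    have h1 := (gecsh_local S hEH hst hΔ lam hlam T f ⟨q, ⟨t, ht⟩⟩).1 (h0 ⟨q, ⟨t, ht⟩⟩)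
    -- `g r(γ) g⁻¹ = h (t r(γ₀ γ γ₀⁻¹) t⁻¹) h⁻¹`
    have heq : g * primeLocalToGlobal q.1 γ * g⁻¹ =
        h * (t * primeLocalToGlobal q.1 (γ₀ * γ * γ₀⁻¹) * t⁻¹) * h⁻¹ := by
      rw [hg]
      show _ = h * (t * (locSysS S).r q (γ₀ * γ * γ₀⁻¹) * t⁻¹) * h⁻¹
      rw [map_mul, map_mul, map_inv]
      show _ = h * (t * ((locSysS S).r q γ₀ * primeLocalToGlobal q.1 γ * ((locSysS S).r q γ₀)⁻¹)
        * t⁻¹) * h⁻¹
      group
    have hn' : t * primeLocalToGlobal q.1 (γ₀ * γ * γ₀⁻¹) * t⁻¹ ∈ E.fixingSubgroup := by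
      have h2 := gecsh_conj_mem hst (H.inv_mem hh) hn
      have h3 : h⁻¹ * (g * primeLocalToGlobal q.1 γ * g⁻¹) * h⁻¹⁻¹ =
          t * primeLocalToGlobal q.1 (γ₀ * γ * γ₀⁻¹) * t⁻¹ := by
        rw [heq]
        group
      rwa [h3] at h2
    have h2 := h1 (γ₀ * γ * γ₀⁻¹) hn'
    -- the conjugation formula
    have hker : lam ⟨t * primeLocalToGlobal q.1 (γ₀ * γ * γ₀⁻¹) * t⁻¹, hEH hn'⟩ = 1 :=
      hlam ((mem_gecRestr_ker hst _).2 hn')
    have h3 := gec_cocycle_conj hfz ⟨h, hh⟩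
      ⟨t * primeLocalToGlobal q.1 (γ₀ * γ * γ₀⁻¹) * t⁻¹, hEH hn'⟩ hker
    have h4 : (⟨g * primeLocalToGlobal q.1 γ * g⁻¹, hEH hn⟩ : ↥H) =
        ⟨h, hh⟩ * ⟨t * primeLocalToGlobal q.1 (γ₀ * γ * γ₀⁻¹) * t⁻¹, hEH hn'⟩ * ⟨h, hh⟩⁻¹ :=
      Subtype.ext heq
    show (f : ↥H → k) ⟨g * primeLocalToGlobal q.1 γ * g⁻¹, hEH hn⟩ = 0
    rw [h4, h3, h2, mul_zero]
  · intro h0 w
    rw [gecsh_local S hEH hst hΔ lam hlam T f w]
    intro γ hn
    exact h0 w.1 (w.2 : GQ) γ hn

end GaloisLeaves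

end Fermat.Agent.S56

end
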